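import Fermat.Agent.S41.ALR

/-!
# MR / H / QExpA : pure linear algebra for `QExp`

A commutative ring `T` acts on a finite dimensional space `V`, stabilising the kernel of a linear map
`Q : V → W`; a vector whose image under `Q` is a nonzero "eigenvector" gives a character of `T`.
-/

set_option autoImplicit false

namespace Fermat.Agent.MR.H

theorem QExp_char_of_quot {K : Type*} [Field K] [IsAlgClosed K] {T : Type*} [CommRing T]
    {V W : Type*} [AddCommGroup V] [Module K V] [FiniteDimensional K V] [AddCommGroup W]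
    [Module K W] (ρ : T →+* Module.End K V) (Q : V →ₗ[K] W)
    (hker : ∀ t x, Q x = 0 → Q (ρ t x) = 0)
    {I : Type*} (τ : I → T) (a : I → K) (x₀ : V) (hx₀ : Q x₀ ≠ 0)
    (h : ∀ i, Q (ρ (τ i) x₀) = a i • Q x₀) :
    ∃ ψ : T →+* K, ∀ i, ψ (τ i) = a i := by
  set N : Submodule K V := LinearMap.ker Q with hN
  let ρb : T → Module.End K (V ⧸ N) := fun t => N.mapQ N (ρ t) (fun x hx => hker t x hx)
  have hρb : ∀ t x, ρb t (N.mkQ x) = N.mkQ (ρ t x) := fun t x => rfl
  have hmk0 : ∀ x, N.mkQ x = 0 ↔ Q x = 0 := by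
    intro x
    rw [Submodule.mkQ_apply, Submodule.Quotient.mk_eq_zero, hN, LinearMap.mem_ker]
  have hsurj : ∀ v : V ⧸ N, ∃ x, N.mkQ x = v := N.mkQ_surjective
  have hmul : ∀ s t v, ρb (s * t) v = ρb s (ρb t v) := by
    intro s t v
    obtain ⟨x, rfl⟩ := hsurj v
    rw [hρb, hρb, hρb, map_mul, Module.End.mul_apply]
  have hadd : ∀ s t v, ρb (s + t) v = ρb s v + ρb t v := by
    intro s t v
    obtain ⟨x, rfl⟩ := hsurj v
    rw [hρb, hρb, hρb, map_add, LinearMap.add_apply, map_add]
  have hone : ∀ v, ρb 1 v = v := by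
    intro v
    obtain ⟨x, rfl⟩ := hsurj v
    rw [hρb, map_one, Module.End.one_apply]
  let X : Submodule K (V ⧸ N) :=
    { carrier := {v | ∀ i, ρb (τ i) v = a i • v}
      add_mem' := by
        intro v w hv hw i
        rw [map_add, hv i, hw i, smul_add]
      zero_mem' := by
        intro i
        rw [map_zero, smul_zero]
      smul_mem' := by
        intro c v hv i
        rw [map_smul, hv i, smul_comm] }
  have hXne : X ≠ ⊥ := by
    rw [Submodule.ne_bot_iff]
    refine ⟨N.mkQ x₀, fun i => ?_, fun h0 => hx₀ ((hmk0 _).1 h0)⟩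
    rw [hρb, ← map_smul, ← sub_eq_zero, ← map_sub, hmk0, map_sub, map_smul, h i, sub_self]
  obtain ⟨v, hvX, hv0, hv⟩ := S41.ALR_exists_common_eigenvector (Set.range ρb)
    (by
      rintro _ ⟨s, rfl⟩ _ ⟨t, rfl⟩
      refine LinearMap.ext fun v => ?_
      rw [Module.End.mul_apply, Module.End.mul_apply, ← hmul, ← hmul, mul_comm])
    _ X inferInstance rfl hXne
    (by
      rintro _ ⟨t, rfl⟩ v hv i
      rw [← hmul, mul_comm, hmul, hv i, map_smul])
  have hex : ∀ t : T, ∃ c : K, ρb t v = c • v := fun t => hv _ ⟨t, rfl⟩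
  choose ψ hψ using hex
  have hcancel : ∀ c d : K, c • v = d • v → c = d := by
    intro c d hcd
    exact smul_left_injective K hv0 hcd
  refine ⟨{ toFun := ψ, map_one' := ?_, map_mul' := ?_, map_zero' := ?_, map_add' := ?_ },
    fun i => ?_⟩
  · apply hcancel
    rw [← hψ, hone, one_smul]
  · intro s t
    apply hcancel
    rw [← hψ, hmul, hψ t, map_smul, hψ s, smul_smul, mul_comm]
  · apply hcancel
    have h0 := hadd 0 0 v
    rw [add_zero, left_eq_add] at h0
    rw [← hψ, h0, zero_smul]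
  · intro s t
    apply hcancel
    rw [← hψ, hadd, hψ, hψ, add_smul]
  · apply hcancel
    change ψ (τ i) • v = _
    rw [← hψ, hvX i]

end Fermat.Agent.MR.H
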