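import Fermat.Agent.MR.H.Char
import Fermat.Agent.MR.H.QExpA
import Fermat.Agent.GAL.KLC.Defs
import Fermat.Agent.S49.Lattice
import Fermat.Prelude.Def_CuspForm_HeckeLocal

/-!
# MR / H / QExp : a formal Hecke eigenvector in the span of the reductions of the cusp forms of level `M`
gives a character of the Hecke algebra  (this is what the geometry outputs)
-/

set_option autoImplicit false

open CongruenceSubgroup
open scoped TensorProduct
open Fermat.Agent.GAL.KLC (psR IsCuspExp)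

namespace Fermat.Agent.MR.H

/-- `F ∈ K((q))` is a formal eigenvector of `T_ℓ` (`ℓ ∤ M`), `U_ℓ` (`ℓ ∣ M`) in weight `2`, eigenvalue `c`. -/
def IsFormalEig {K : Type*} [Field K] (M ℓ : ℕ) (c : K) (F : LaurentSeries K) : Prop :=
  ∀ n : ℕ, F.coeff ((n * ℓ : ℕ) : ℤ) +
    (if ℓ ∣ M then 0 else if ℓ ∣ n then (ℓ : K) * F.coeff ((n / ℓ : ℕ) : ℤ) else 0) = c * F.coeff (n : ℤ)

/-- `F` satisfies the polynomial relation `R(U_r) F = 0` (`(U_r^i F)_n = F_{n r^i}`). -/
def IsFormalRel {K : Type*} [Field K] (r : ℕ) (R : Polynomial ℤ) (F : LaurentSeries K) : Prop :=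
  ∀ n : ℕ, R.sum (fun i c => (c : K) * F.coeff ((n * r ^ i : ℕ) : ℤ)) = 0

/-! ### auxiliary constructions : the `q`-expansion map on `K ⊗ intLattice` -/

section aux

open ModularFormClass (qCoeff)

/-- the integral `q`-coefficients of an element of the lattice. -/
noncomputable def QExp_zc (M : ℕ) (f : ↥(CuspForm.intLattice M 2)) (n : ℕ) : ℤ :=
  ((S49.mem_intLattice_iff f.1).1 f.2 n).choose

theorem QExp_zc_spec (M : ℕ) (f : ↥(CuspForm.intLattice M 2)) (n : ℕ) :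
    qCoeff (f : CuspForm (Gamma0 M) 2) n = (QExp_zc M f n : ℂ) :=
  ((S49.mem_intLattice_iff f.1).1 f.2 n).choose_spec

theorem QExp_zc_eq {M : ℕ} {f : ↥(CuspForm.intLattice M 2)} {n : ℕ} {m : ℤ}
    (h : qCoeff (f : CuspForm (Gamma0 M) 2) n = (m : ℂ)) : QExp_zc M f n = m := by
  have h1 := QExp_zc_spec M f n
  rw [h] at h1
  exact_mod_cast h1.symm

/-- the reduction of the `q`-expansion, as a `ℤ`-linear map. -/
noncomputable def QExp_u (K : Type*) [Field K] (M : ℕ) :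
    ↥(CuspForm.intLattice M 2) →ₗ[ℤ] (ℕ → K) :=
  AddMonoidHom.toIntLinearMap
    { toFun := fun f n => (QExp_zc M f n : K)
      map_zero' := by
        funext n
        have h : QExp_zc M 0 n = 0 := QExp_zc_eq (by
          have := (S49.qcLin M 2 n).map_zero
          simpa using this)
        simp [h]
      map_add' := by
        intro f g
        funext n
        have h : QExp_zc M (f + g) n = QExp_zc M f n + QExp_zc M g n := QExp_zc_eq (by
          rw [Submodule.coe_add, S49.qc_add, QExp_zc_spec, QExp_zc_spec]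
          push_cast
          rfl)
        simp [h] }

theorem QExp_u_apply (K : Type*) [Field K] (M : ℕ) (f : ↥(CuspForm.intLattice M 2)) (n : ℕ) :
    QExp_u K M f n = (QExp_zc M f n : K) := rfl

/-- the `q`-expansion map on `K ⊗ L`. -/
noncomputable def QExp_Q (K : Type*) [Field K] (M : ℕ) :
    K ⊗[ℤ] ↥(CuspForm.intLattice M 2) →ₗ[K] (ℕ → K) :=
  (QExp_u K M).liftBaseChange K

theorem QExp_Q_tmul (K : Type*) [Field K] (M : ℕ) (c : K) (f : ↥(CuspForm.intLattice M 2)) :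
    QExp_Q K M (c ⊗ₜ f) = c • QExp_u K M f :=
  LinearMap.liftBaseChange_tmul _ _ _ _

/-- the action of the Hecke algebra on `K ⊗ L`. -/
noncomputable def QExp_rho (K : Type*) [Field K] (M : ℕ) [NeZero M] :
    CuspForm.heckeAlgebra M 2 ∅ →+* Module.End K (K ⊗[ℤ] ↥(CuspForm.intLattice M 2)) :=
  (Module.End.baseChangeHom ℤ K ↥(CuspForm.intLattice M 2)).toRingHom.comp
    (CuspForm.latticeActionHom M ∅)

theorem QExp_rho_tmul (K : Type*) [Field K] (M : ℕ) [NeZero M] (t : CuspForm.heckeAlgebra M 2 ∅)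
    (c : K) (f : ↥(CuspForm.intLattice M 2)) :
    QExp_rho K M t (c ⊗ₜ f) = c ⊗ₜ (CuspForm.latticeActionHom M ∅ t f) := rfl

/-- the formal Hecke operator. -/
noncomputable def QExp_tau (K : Type*) [Field K] (M ℓ : ℕ) : Module.End K (ℕ → K) where
  toFun u n := u (n * ℓ) + (if ℓ ∣ M then 0 else if ℓ ∣ n then (ℓ : K) * u (n / ℓ) else 0)
  map_add' u v := by
    funext n
    simp only [Pi.add_apply]
    split_ifs <;> ring
  map_smul' c u := by
    funext n
    simp only [Pi.smul_apply, smul_eq_mul, RingHom.id_apply]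
    split_ifs <;> ring

theorem QExp_tau_apply (K : Type*) [Field K] (M ℓ : ℕ) (u : ℕ → K) (n : ℕ) :
    QExp_tau K M ℓ u n =
      u (n * ℓ) + (if ℓ ∣ M then 0 else if ℓ ∣ n then (ℓ : K) * u (n / ℓ) else 0) := rfl

theorem QExp_u_gen (K : Type*) [Field K] (M : ℕ) [NeZero M] {ℓ : ℕ} (hℓ : ℓ.Prime)
    (f : ↥(CuspForm.intLattice M 2)) :
    QExp_u K M (CuspForm.latticeActionHom M ∅ (gen M ℓ) f) = QExp_tau K M ℓ (QExp_u K M f) := by
  funext n
  rw [QExp_tau_apply, QExp_u_apply, QExp_u_apply, QExp_u_apply]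
  by_cases h : ℓ ∣ M
  · rw [if_pos h, add_zero]
    congr 1
    apply QExp_zc_eq
    rw [← QExp_zc_spec]
    have : ((CuspForm.latticeActionHom M ∅ (gen M ℓ) f : ↥(CuspForm.intLattice M 2)) :
        CuspForm (Gamma0 M) 2) = CuspForm.heckeULin 2 h f.1 := by
      rw [gen, dif_pos hℓ, dif_pos h]
      rfl
    rw [this, S49.qc_heckeU hℓ.ne_zero h]
  · rw [if_neg h]
    have : ((CuspForm.latticeActionHom M ∅ (gen M ℓ) f : ↥(CuspForm.intLattice M 2)) :
        CuspForm (Gamma0 M) 2) = CuspForm.heckeTLin 2 hℓ h f.1 := by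
      rw [gen, dif_pos hℓ, dif_neg h]
      rfl
    have h2 : QExp_zc M (CuspForm.latticeActionHom M ∅ (gen M ℓ) f) n =
        QExp_zc M f (n * ℓ) + (if ℓ ∣ n then (ℓ : ℤ) * QExp_zc M f (n / ℓ) else 0) := by
      apply QExp_zc_eq
      rw [this, S49.qc_heckeT hℓ h, QExp_zc_spec, QExp_zc_spec]
      split_ifs <;> norm_num
    rw [h2]
    split_ifs <;> push_cast <;> rfl

theorem QExp_Q_gen (K : Type*) [Field K] (M : ℕ) [NeZero M] {ℓ : ℕ} (hℓ : ℓ.Prime)
    (x : K ⊗[ℤ] ↥(CuspForm.intLattice M 2)) :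
    QExp_Q K M (QExp_rho K M (gen M ℓ) x) = QExp_tau K M ℓ (QExp_Q K M x) := by
  induction x using TensorProduct.induction_on with
  | zero => simp
  | tmul c f => rw [QExp_rho_tmul, QExp_Q_tmul, QExp_Q_tmul, map_smul, QExp_u_gen K M hℓ]
  | add x y hx hy => rw [map_add, map_add, map_add, map_add, hx, hy]

theorem QExp_ker_stable (K : Type*) [Field K] (M : ℕ) [NeZero M] (t : CuspForm.heckeAlgebra M 2 ∅)
    (x : K ⊗[ℤ] ↥(CuspForm.intLattice M 2)) (hx : QExp_Q K M x = 0) :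
    QExp_Q K M (QExp_rho K M t x) = 0 := by
  obtain ⟨t, ht⟩ := t
  revert x
  refine Algebra.adjoin_induction (p := fun t ht => ∀ x : K ⊗[ℤ] ↥(CuspForm.intLattice M 2),
    QExp_Q K M x = 0 → QExp_Q K M (QExp_rho K M ⟨t, ht⟩ x) = 0) ?_ ?_ ?_ ?_ ht
  · intro t ht x hx
    rcases ht with ⟨ℓ, hℓ, hℓN, -, rfl⟩ | ⟨q, hqN, hq, -, rfl⟩
    · have h1 : (⟨CuspForm.heckeTLin 2 hℓ hℓN, Algebra.subset_adjoin
          (CuspForm.heckeTLin_mem_heckeGenerators hℓ hℓN (Set.notMem_empty _))⟩ :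
          CuspForm.heckeAlgebra M 2 ∅) = gen M ℓ := by
        rw [gen, dif_pos hℓ, dif_neg hℓN]
        rfl
      exact (congrArg (fun s => QExp_Q K M (QExp_rho K M s x)) h1).trans (by
        rw [QExp_Q_gen K M hℓ, hx, map_zero])
    · have h1 : (⟨CuspForm.heckeULin 2 hqN, Algebra.subset_adjoin
          (CuspForm.heckeULin_mem_heckeGenerators hq hqN (Set.notMem_empty _))⟩ :
          CuspForm.heckeAlgebra M 2 ∅) = gen M q := by
        rw [gen, dif_pos hq, dif_pos hqN]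
        rfl
      exact (congrArg (fun s => QExp_Q K M (QExp_rho K M s x)) h1).trans (by
        rw [QExp_Q_gen K M hq, hx, map_zero])
  · intro m x hx
    have h1 : (⟨algebraMap ℤ _ m, Subalgebra.algebraMap_mem _ m⟩ : CuspForm.heckeAlgebra M 2 ∅) =
        ((m : ℤ) : CuspForm.heckeAlgebra M 2 ∅) := by
      rw [← eq_intCast (algebraMap ℤ (CuspForm.heckeAlgebra M 2 ∅)) m]
      rfl
    exact (congrArg (fun s => QExp_Q K M (QExp_rho K M s x)) h1).trans (by
      rw [map_intCast, Module.End.intCast_apply, map_zsmul, hx, smul_zero])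
  · intro s t hs ht ihs iht x hx
    have h1 : (⟨s + t, add_mem hs ht⟩ : CuspForm.heckeAlgebra M 2 ∅) = ⟨s, hs⟩ + ⟨t, ht⟩ := rfl
    exact (congrArg (fun s => QExp_Q K M (QExp_rho K M s x)) h1).trans (by
      rw [map_add, LinearMap.add_apply, map_add, ihs x hx, iht x hx, add_zero])
  · intro s t hs ht ihs iht x hx
    have h1 : (⟨s * t, mul_mem hs ht⟩ : CuspForm.heckeAlgebra M 2 ∅) = ⟨s, hs⟩ * ⟨t, ht⟩ := rfl
    exact (congrArg (fun s => QExp_Q K M (QExp_rho K M s x)) h1).trans (by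
      rw [map_mul, Module.End.mul_apply]
      exact ihs _ (iht x hx))

theorem QExp_tau_pow (K : Type*) [Field K] {M r : ℕ} (hr : r ∣ M) (i : ℕ) (u : ℕ → K) (n : ℕ) :
    ((QExp_tau K M r) ^ i) u n = u (n * r ^ i) := by
  induction i generalizing n with
  | zero => simp
  | succ i ih =>
    rw [pow_succ', Module.End.mul_apply, QExp_tau_apply, if_pos hr, add_zero, ih]
    congr 1
    ring

theorem QExp_Q_pow (K : Type*) [Field K] (M : ℕ) [NeZero M] {ℓ : ℕ} (hℓ : ℓ.Prime) (i : ℕ)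
    (x : K ⊗[ℤ] ↥(CuspForm.intLattice M 2)) :
    QExp_Q K M (QExp_rho K M (gen M ℓ ^ i) x) = ((QExp_tau K M ℓ) ^ i) (QExp_Q K M x) := by
  induction i with
  | zero => simp
  | succ i ih =>
    rw [pow_succ', pow_succ', map_mul, Module.End.mul_apply, Module.End.mul_apply,
      QExp_Q_gen K M hℓ, ih]

theorem QExp_Q_aeval (K : Type*) [Field K] (M : ℕ) [NeZero M] {r : ℕ} (hr : r.Prime) (hrM : r ∣ M)
    (R : Polynomial ℤ) (x : K ⊗[ℤ] ↥(CuspForm.intLattice M 2)) (n : ℕ) :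
    QExp_Q K M (QExp_rho K M (Polynomial.aeval (gen M r) R) x) n =
      R.sum (fun i c => (c : K) * QExp_Q K M x (n * r ^ i)) := by
  rw [Polynomial.aeval_def, Polynomial.eval₂_eq_sum, Polynomial.sum_def, Polynomial.sum_def,
    map_sum, LinearMap.sum_apply, map_sum, Finset.sum_apply]
  refine Finset.sum_congr rfl fun i _ => ?_
  rw [map_mul, Module.End.mul_apply, eq_intCast, map_intCast, Module.End.intCast_apply, map_zsmul,
    Pi.smul_apply, QExp_Q_pow K M hr, QExp_tau_pow K hrM, zsmul_eq_mul]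

theorem QExp_exists_lift (K : Type*) [Field K] (M : ℕ) (F : LaurentSeries K)
    (hF : F ∈ Submodule.span K
      {G : LaurentSeries K | ∃ fZ : PowerSeries ℤ, IsCuspExp M fZ ∧ G = psR K fZ}) :
    ∃ x : K ⊗[ℤ] ↥(CuspForm.intLattice M 2), (∀ n : ℕ, F.coeff (n : ℤ) = QExp_Q K M x n) ∧
      ∀ n : ℤ, n < 0 → F.coeff n = 0 := by
  induction hF using Submodule.span_induction with
  | mem G hG =>
    obtain ⟨fZ, ⟨f, hf⟩, rfl⟩ := hG
    have hfL : f ∈ CuspForm.intLattice M 2 :=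
      (S49.mem_intLattice_iff f).2 fun n => ⟨fZ.coeff n, hf n⟩
    refine ⟨(1 : K) ⊗ₜ[ℤ] (⟨f, hfL⟩ : ↥(CuspForm.intLattice M 2)), fun n => ?_, fun n hn => ?_⟩
    · have h1 : QExp_zc M ⟨f, hfL⟩ n = fZ.coeff n := QExp_zc_eq (hf n)
      rw [QExp_Q_tmul, one_smul, QExp_u_apply, h1, psR,
        HahnSeries.ofPowerSeries_apply_coeff, PowerSeries.coeff_map]
      rfl
    · exact ModularCurve.ofPowerSeries_coeff_of_neg _ hn
  | zero => exact ⟨0, fun n => by simp, fun n _ => by simp⟩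
  | add G H _ _ hG hH =>
    obtain ⟨x, hx, hx'⟩ := hG
    obtain ⟨y, hy, hy'⟩ := hH
    refine ⟨x + y, fun n => ?_, fun n hn => ?_⟩
    · rw [HahnSeries.coeff_add, hx, hy, map_add, Pi.add_apply]
    · rw [HahnSeries.coeff_add, hx' n hn, hy' n hn, add_zero]
  | smul c G _ hG =>
    obtain ⟨x, hx, hx'⟩ := hG
    refine ⟨c • x, fun n => ?_, fun n hn => ?_⟩
    · rw [HahnSeries.coeff_smul, hx, map_smul, Pi.smul_apply]
    · rw [HahnSeries.coeff_smul, hx' n hn, smul_zero]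

end aux

/-- **(Q)**  PROOF.  Write `F = ∑ i, c i • psR K (fZ i)`, `fZ i` the expansion of `f i ∈ intLattice M 2`.
For `t : T = heckeAlgebra M 2 ∅` put `F_t = ∑ i, c i • psR K (expansion of t (f i))`
(`CuspForm.mem_intLattice_of_mem_heckeAlgebra`).  `t ↦ F_t` is additive, `F_1 = F`, and for a generator
`s = gen M ℓ` the series `F_{s t}` is the formal `T_ℓ / U_ℓ` of `F_t` (`S49.qc_heckeT`, `S49.qc_heckeU`).
(1) By `Algebra.adjoin_induction` on `t`: `F_{t * gen M ℓ} = a ℓ • F_t` for `ℓ ∈ P`, and `F_{t * aeval (gen M r) R} = 0`.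
(2) `Λ t := (F_t).coeff 1` is additive, `Λ (gen M ℓ * t) = a ℓ * Λ t`, `Λ (aeval (gen M r) R * t) = 0`.  `Λ ≠ 0`: otherwise, by
strong induction on `n ≥ 1`, `(F_t).coeff n = 0` for all `t`
(`n = m ℓ`: `coeff_{mℓ} F_t = coeff_m F_{gen ℓ * t} - [ℓ ∤ M, ℓ ∣ m] ℓ coeff_{m/ℓ} F_t`), and `coeff 0 = 0`, negative coefficients vanish: `F = 0`.
(3) the `K`-space of additive maps `l : T → K` (`= Hom_ℤ(T, K)`, finite dimensional as `T` is a finite `ℤ`-module:
it embeds in `End (Lat M)` by `GAL.HK.iota`) with `l (gen M ℓ * t) = a ℓ * l t` (`ℓ ∈ P`), `l (aeval (gen M r) R * t) = 0` is nonzero and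
stable under the commuting operators `l ↦ l (s * ·)`: a common eigenvector `l` gives the character `ψ` (`l (s t) = ψ s * l t`),
exactly as in `S41.ALR_exists_character` (there `a` is `ℤ`-valued: redo it with `K`-valued `a`); `ψ (aeval (gen M r) R) = 0`
and `ψ (aeval x R) = aeval (ψ x) R`.   (Take `R = 0` if no relation is wanted.) -/
theorem exists_char_of_formalEig {K : Type*} [Field K] [IsAlgClosed K] (M : ℕ) [NeZero M] (P : Set ℕ)
    (a : ℕ → K) (r : ℕ) (hr : r.Prime) (hrM : r ∣ M) (R : Polynomial ℤ)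
    (F : LaurentSeries K) (hF0 : F ≠ 0)
    (hF : F ∈ Submodule.span K {G : LaurentSeries K | ∃ fZ : PowerSeries ℤ, IsCuspExp M fZ ∧ G = psR K fZ})
    (hE : ∀ ℓ ∈ P, ℓ.Prime → IsFormalEig M ℓ (a ℓ) F) (hR : IsFormalRel r R F) :
    ∃ ψ : CuspForm.heckeAlgebra M 2 ∅ →+* K, (∀ ℓ ∈ P, ℓ.Prime → ψ (gen M ℓ) = a ℓ) ∧
      Polynomial.aeval (ψ (gen M r)) R = 0 := by
  obtain ⟨x₀, hx₀, hneg⟩ := QExp_exists_lift K M F hF
  have hQ0 : QExp_Q K M x₀ ≠ 0 := by
    intro h0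
    apply hF0
    ext n
    rcases lt_or_ge n 0 with hn | hn
    · rw [hneg n hn]
      rfl
    · obtain ⟨m, rfl⟩ := Int.eq_ofNat_of_zero_le hn
      rw [hx₀, h0]
      rfl
  have hfin : Module.Finite ℤ ↥(CuspForm.intLattice M 2) := CuspForm.intLattice.moduleFinite M
  obtain ⟨ψ, hψ⟩ := QExp_char_of_quot (QExp_rho K M) (QExp_Q K M) (QExp_ker_stable K M)
    (I := Option {ℓ : ℕ // ℓ ∈ P ∧ ℓ.Prime})
    (fun i => i.elim (Polynomial.aeval (gen M r) R) (fun ℓ => gen M ℓ.1))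
    (fun i => i.elim 0 (fun ℓ => a ℓ.1)) x₀ hQ0 (by
      rintro (_ | ⟨ℓ, hℓP, hℓ⟩)
      · funext n
        simp only [Option.elim]
        rw [QExp_Q_aeval K M hr hrM, zero_smul]
        have h1 := hR n
        simp only [hx₀] at h1
        exact h1
      · funext n
        simp only [Option.elim]
        rw [QExp_Q_gen K M hℓ, QExp_tau_apply, Pi.smul_apply, smul_eq_mul, ← hx₀, ← hx₀, ← hx₀]
        exact hE ℓ hℓP hℓ n)
  refine ⟨ψ, fun ℓ hℓP hℓ => hψ (some ⟨ℓ, hℓP, hℓ⟩), ?_⟩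
  exact (Polynomial.aeval_algHom_apply ψ.toIntAlgHom (gen M r) R).trans (hψ none)

/-- **H-OUT** : what the geometry outputs gives an eigensystem in `K ⊗ Lat M`. -/
theorem occ_of_formalEig {K : Type*} [Field K] [IsAlgClosed K] (M : ℕ) [NeZero M] (P : Set ℕ)
    (a : ℕ → K) (r : ℕ) (hr : r.Prime) (hrM : r ∣ M) (hrP : r ∉ P) (R : Polynomial ℤ)
    (F : LaurentSeries K) (hF0 : F ≠ 0)
    (hF : F ∈ Submodule.span K {G : LaurentSeries K | ∃ fZ : PowerSeries ℤ, IsCuspExp M fZ ∧ G = psR K fZ})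
    (hE : ∀ ℓ ∈ P, ℓ.Prime → IsFormalEig M ℓ (a ℓ) F) (hR : IsFormalRel r R F) :
    ∃ α : K, Polynomial.aeval α R = 0 ∧ Occ K M (insert r P) (Function.update a r α) := by
  obtain ⟨ψ, hψ, hψR⟩ := exists_char_of_formalEig M P a r hr hrM R F hF0 hF hE hR
  refine ⟨ψ (gen M r), hψR, occ_of_occChar M _ _ ⟨ψ, ?_⟩⟩
  intro ℓ hℓ hℓp
  rcases Set.mem_insert_iff.1 hℓ with rfl | hℓ'
  · rw [Function.update_self]
  · have hne : ℓ ≠ r := by
      rintro rfl
      exact hrP hℓ'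
    rw [Function.update_of_ne hne, hψ ℓ hℓ' hℓp]

end Fermat.Agent.MR.H
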