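import Mathlib
import Fermat.Agent.S41.ALR

/-!
# MR / H / LA : two lemmas of linear algebra on commuting families (no modular forms)
-/

set_option autoImplicit false

namespace Fermat.Agent.MR.H

/-- `π ((S - c)^k x) = (a - c)^k π x` if `π x` is an eigenvector of `T` with eigenvalue `a`. -/
theorem LA_map_pow {K Z Y : Type*} [Field K] [AddCommGroup Z] [Module K Z] [AddCommGroup Y]
    [Module K Y] (S : Module.End K Z) (T : Module.End K Y) (π : Z →ₗ[K] Y)
    (hπ : ∀ z, π (S z) = T (π z)) (a c : K) (x : Z) (hx : T (π x) = a • π x) (k : ℕ) :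
    π (((S - c • (1 : Module.End K Z)) ^ k) x) = (a - c) ^ k • π x := by
  induction k with
  | zero => simp
  | succ k ih =>
    rw [pow_succ', Module.End.mul_apply, LinearMap.sub_apply, LinearMap.smul_apply,
      Module.End.one_apply, map_sub, hπ, map_smul, ih, map_smul, hx, smul_smul, smul_smul,
      ← sub_smul]
    congr 1
    ring

/-- `(S - a)^k v = (c - a)^k v` for an eigenvector. -/
theorem LA_pow_apply {K Z : Type*} [Field K] [AddCommGroup Z] [Module K Z] (S : Module.End K Z)
    (a c : K) (v : Z) (hv : S v = c • v) (k : ℕ) :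
    ((S - a • (1 : Module.End K Z)) ^ k) v = (c - a) ^ k • v := by
  have := LA_map_pow S S LinearMap.id (fun _ => rfl) c a v hv k
  simpa using this

/-- the joint generalised eigenspace. -/
theorem LA_mapsTo {K Z I : Type*} [Field K] [AddCommGroup Z] [Module K Z]
    (S : I → Module.End K Z) (hS : ∀ i j, Commute (S i) (S j)) (χ : I → K) (i : I) (c : K) (k : ℕ)
    {x : Z} (hx : x ∈ ⨅ j, (S j).maxGenEigenspace (χ j)) :
    ((S i - c • (1 : Module.End K Z)) ^ k) x ∈ ⨅ j, (S j).maxGenEigenspace (χ j) := by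
  rw [Submodule.mem_iInf] at hx ⊢
  intro j
  have hc : Commute (S j) ((S i - c • (1 : Module.End K Z)) ^ k) :=
    ((hS j i).sub_right ((Commute.one_right _).smul_right c)).pow_right k
  exact Module.End.mapsTo_maxGenEigenspace_of_comm hc (χ j) (hx j)

theorem LA_key {K Z Y I : Type*} [Field K] [AddCommGroup Z] [Module K Z]
    [AddCommGroup Y] [Module K Y]
    (S : I → Module.End K Z) (T : I → Module.End K Y) (hS : ∀ i j, Commute (S i) (S j))
    (π : Z →ₗ[K] Y) (hπ : ∀ i z, π (S i z) = T i (π z)) (a : I → K)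
    (F : Finset (I → K)) : a ∉ F → ∀ (w za : Z) (zf : (I → K) → Z),
      (∀ χ ∈ F, zf χ ∈ ⨅ j, (S j).maxGenEigenspace (χ j)) →
      za ∈ ⨅ j, (S j).maxGenEigenspace (a j) → w = za + ∑ χ ∈ F, zf χ → π w ≠ 0 →
      (∀ i, T i (π w) = a i • π w) → za ≠ 0 := by
  classical
  induction F using Finset.induction_on with
  | empty =>
    intro _ w za zf _ _ hw hπw _ h0
    rw [h0, Finset.sum_empty, add_zero] at hw
    rw [hw, map_zero] at hπw
    exact hπw rfl
  | insert χ₀ F hχ₀ ih =>
    intro haF w za zf hzf hza hw hπw hev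
    have haF' : a ∉ F := fun h => haF (Finset.mem_insert_of_mem h)
    have hne : χ₀ ≠ a := fun h => haF (h ▸ Finset.mem_insert_self _ _)
    obtain ⟨i, hi⟩ : ∃ i, χ₀ i ≠ a i := by
      by_contra hcon
      push Not at hcon
      exact hne (funext hcon)
    have h1 := (Submodule.mem_iInf _).mp (hzf χ₀ (Finset.mem_insert_self _ _)) i
    obtain ⟨k, hk⟩ := (Module.End.mem_maxGenEigenspace _ _ _).mp h1
    set Q : Module.End K Z := (S i - χ₀ i • (1 : Module.End K Z)) ^ k with hQ
    have hπQ : π (Q w) = (a i - χ₀ i) ^ k • π w :=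
      LA_map_pow (S i) (T i) π (hπ i) (a i) (χ₀ i) w (hev i) k
    have hlam : (a i - χ₀ i) ^ k ≠ 0 := pow_ne_zero k (sub_ne_zero.mpr (Ne.symm hi))
    have hQza : Q za ≠ 0 := by
      refine ih haF' (Q w) (Q za) (fun χ => Q (zf χ)) ?_ ?_ ?_ ?_ ?_
      · intro χ hχ
        exact LA_mapsTo S hS χ i _ k (hzf χ (Finset.mem_insert_of_mem hχ))
      · exact LA_mapsTo S hS a i _ k hza
      · rw [hw, Finset.sum_insert hχ₀, map_add, map_add, hk, zero_add, map_sum]
      · rw [hπQ]
        exact smul_ne_zero hlam hπw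
      · intro j
        rw [hπQ, map_smul, hev j, smul_comm]
    intro h0
    rw [h0, map_zero] at hQza
    exact hQza rfl

/-- **LA1.** A system of eigenvalues occurring in the image of an equivariant map occurs in the
source.

PROOF. Among the subspaces `X ≤ Z` stable under all `S i` with `π z ∈ π(X)` (i.e. `∃ x ∈ X, π x = π z`)
take one of minimal dimension (`Z` itself qualifies).  Fix `i`.  `X = G ⊕ R` with
`G = X ⊓ maxGenEigenspace (S i) (a i)`, `R = X ⊓ range ((S i - a i)^n)` (Fitting, `n = finrank`); both are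
stable under all `S j` (commutation).  Write `x = g + r`.  `(T i - a i)^n` kills `π x` and `π g`, hence
`π r`; but `S i - a i` is bijective on `R`, so `T i - a i` is surjective, hence injective, on the finite
dimensional space `π(R)`; so `π r = 0` and `π g = π z`.  By minimality `G = X`: `S i - a i` is nilpotent on
`X`, for every `i`.  `X ≠ 0` as `π z ≠ 0`.  `S41.ALR_exists_common_eigenvector` gives a common eigenvector
`z' ∈ X`, `S i z' = c i • z'`, and nilpotency of `S i - a i` on `X` forces `c i = a i`. -/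
theorem exists_eigen_of_map {K Z Y I : Type*} [Field K] [IsAlgClosed K] [AddCommGroup Z] [Module K Z]
    [FiniteDimensional K Z] [AddCommGroup Y] [Module K Y]
    (S : I → Module.End K Z) (T : I → Module.End K Y) (hS : ∀ i j, Commute (S i) (S j))
    (π : Z →ₗ[K] Y) (hπ : ∀ i z, π (S i z) = T i (π z)) (a : I → K) (z : Z) (hz : π z ≠ 0)
    (hy : ∀ i, T i (π z) = a i • π z) :
    ∃ z' : Z, z' ≠ 0 ∧ ∀ i, S i z' = a i • z' := by
  classical
  have htop : ⨆ χ : I → K, ⨅ i, (S i).maxGenEigenspace (χ i) = ⊤ :=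
    Module.End.iSup_iInf_maxGenEigenspace_eq_top_of_iSup_maxGenEigenspace_eq_top_of_commute S
      (fun i j _ => hS i j) (fun i => Module.End.iSup_maxGenEigenspace_eq_top (S i))
  have hzmem : z ∈ ⨆ χ : I → K, ⨅ i, (S i).maxGenEigenspace (χ i) := by
    rw [htop]; trivial
  obtain ⟨f, hf, hfz⟩ := (Submodule.mem_iSup_iff_exists_finsupp _ _).mp hzmem
  have hdec : z = f a + ∑ χ ∈ f.support.erase a, f χ := by
    rw [← hfz, Finsupp.sum]
    by_cases ha : a ∈ f.support
    · exact (Finset.add_sum_erase _ _ ha).symm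
    · rw [Finset.erase_eq_of_notMem ha, Finsupp.notMem_support_iff.mp ha, zero_add]
  have hfa : f a ≠ 0 := LA_key S T hS π hπ a (f.support.erase a) (Finset.notMem_erase _ _)
    z (f a) f (fun χ _ => hf χ) (hf a) hdec hz hy
  set X : Submodule K Z := ⨅ i, (S i).maxGenEigenspace (a i) with hX
  have hXne : X ≠ ⊥ := (Submodule.ne_bot_iff _).mpr ⟨f a, hf a, hfa⟩
  obtain ⟨v, hvX, hv0, hv⟩ := S41.ALR_exists_common_eigenvector (Set.range S)
    (by rintro _ ⟨i, rfl⟩ _ ⟨j, rfl⟩; exact hS i j) _ X inferInstance rfl hXne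
    (by
      rintro _ ⟨i, rfl⟩ x hx
      have := LA_mapsTo S hS a i 0 1 hx
      rwa [zero_smul, sub_zero, pow_one] at this)
  refine ⟨v, hv0, fun i => ?_⟩
  obtain ⟨c, hc⟩ := hv (S i) ⟨i, rfl⟩
  obtain ⟨k, hk⟩ := (Module.End.mem_maxGenEigenspace _ _ _).mp ((Submodule.mem_iInf _).mp hvX i)
  rw [LA_pow_apply (S i) (a i) c v hc k] at hk
  have h1 : (c - a i) ^ k = 0 := (smul_eq_zero.mp hk).resolve_right hv0
  have h2 : c = a i := sub_eq_zero.mp (eq_zero_of_pow_eq_zero h1)
  rw [hc, h2]

/-- **LA2.** An eigenvector for a subfamily can be replaced by an eigenvector for the whole commuting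
family (same eigenvalues on the subfamily).
PROOF: `S41.ALR_exists_common_eigenvector` on `X = ⨅ i ∈ J, ker (S i - a i)`. -/
theorem exists_eigen_extend {K Z I : Type*} [Field K] [IsAlgClosed K] [AddCommGroup Z] [Module K Z]
    [FiniteDimensional K Z] (S : I → Module.End K Z) (hS : ∀ i j, Commute (S i) (S j))
    (J : Set I) (a : I → K) (z : Z) (hz : z ≠ 0) (hy : ∀ i ∈ J, S i z = a i • z) :
    ∃ (b : I → K) (z' : Z), z' ≠ 0 ∧ (∀ i, S i z' = b i • z') ∧ ∀ i ∈ J, b i = a i := by
  classical
  let X : Submodule K Z :=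
    { carrier := {x | ∀ i ∈ J, S i x = a i • x}
      add_mem' := fun {x y} hx hy i hi => by rw [map_add, hx i hi, hy i hi, smul_add]
      zero_mem' := fun i _ => by rw [map_zero, smul_zero]
      smul_mem' := fun c x hx i hi => by rw [map_smul, hx i hi, smul_comm] }
  have hXne : X ≠ ⊥ := (Submodule.ne_bot_iff _).mpr ⟨z, hy, hz⟩
  obtain ⟨v, hvX, hv0, hv⟩ := S41.ALR_exists_common_eigenvector (Set.range S)
    (by rintro _ ⟨i, rfl⟩ _ ⟨j, rfl⟩; exact hS i j) _ X inferInstance rfl hXne
    (by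
      rintro _ ⟨j, rfl⟩ x hx i hi
      have h1 : S i (S j x) = S j (S i x) := by
        have := LinearMap.congr_fun (hS i j).eq x
        simpa [Module.End.mul_apply] using this
      rw [h1, hx i hi, map_smul])
  choose b hb using fun i => hv (S i) ⟨i, rfl⟩
  refine ⟨b, v, hv0, hb, fun i hi => ?_⟩
  have h1 : b i • v = a i • v := by rw [← hb i, hvX i hi]
  exact smul_left_injective K hv0 h1

end Fermat.Agent.MR.H
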