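import Fermat.Agent.MR.H.Defs
import Fermat.Agent.MR.H.LA

/-!
# MR / H / Asc : a mod `p` eigenclass in `Lat M / p` gives an eigensystem in `K ⊗ Lat M`
(the converse of `Desc.lean`; this is how "the system does not occur at level `N'`" is consumed by H-NEW)
-/

set_option autoImplicit false

open CongruenceSubgroup
open scoped TensorProduct
open Fermat.Agent.S41

namespace Fermat.Agent.MR.H

theorem Asc_of_one_tmul_eq_zero {p : ℕ} {K : Type*} [Field K] [CharP K p]
    {L : Type*} [AddCommGroup L] [Module.Free ℤ L] [Module.Finite ℤ L] {y : L}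
    (h : (1 : K) ⊗ₜ[ℤ] y = 0) : ∃ z : L, y = (p : ℤ) • z := by
  classical
  let b := Module.Free.chooseBasis ℤ L
  have hdvd : ∀ j, (p : ℤ) ∣ b.repr y j := by
    intro j
    have h1 : (b.baseChange K).repr ((1 : K) ⊗ₜ[ℤ] y) j = b.repr y j • (1 : K) :=
      Module.Basis.baseChange_repr_tmul _ _ _ _ _
    rw [h, map_zero, Finsupp.zero_apply] at h1
    rw [← CharP.intCast_eq_zero_iff K p]
    simpa using h1.symm
  choose c hc using hdvd
  refine ⟨∑ j, c j • b j, ?_⟩
  rw [Finset.smul_sum]
  conv_lhs => rw [← b.sum_repr y]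
  refine Finset.sum_congr rfl fun j _ => ?_
  rw [smul_smul, ← hc j]

theorem Asc_one_tmul_smul {p : ℕ} {K : Type*} [Field K] [CharP K p]
    {L : Type*} [AddCommGroup L] (z : L) : (1 : K) ⊗ₜ[ℤ] ((p : ℤ) • z) = 0 := by
  rw [← TensorProduct.smul_tmul]
  have : ((p : ℤ) • (1 : K)) = 0 := by simp
  rw [this, TensorProduct.zero_tmul]

/-- `R(T) ⊗ K` on an eigenvector of `T ⊗ K`. -/
theorem Asc_aeval_baseChange {K : Type*} [Field K] {L : Type*} [AddCommGroup L]
    (T : Module.End ℤ L) (R : Polynomial ℤ) (α : K) (x : K ⊗[ℤ] L)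
    (hx : T.baseChange K x = α • x) :
    (Polynomial.aeval T R).baseChange K x = Polynomial.aeval α R • x := by
  induction R using Polynomial.induction_on' with
  | add f g hf hg => rw [map_add, map_add, LinearMap.baseChange_add, LinearMap.add_apply, hf, hg, add_smul]
  | monomial n c =>
    have hpow : ∀ n : ℕ, (T ^ n).baseChange K x = α ^ n • x := by
      intro n
      induction n with
      | zero =>
        rw [pow_zero, pow_zero, one_smul, Module.End.one_eq_id, LinearMap.baseChange_id]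
        rfl
      | succ n ih =>
        rw [pow_succ, Module.End.mul_eq_comp, LinearMap.baseChange_comp, LinearMap.comp_apply, hx,
          map_smul, ih, smul_smul, pow_succ']
    rw [Polynomial.aeval_monomial, Polynomial.aeval_monomial, Algebra.algebraMap_eq_smul_one,
      Algebra.algebraMap_eq_smul_one, smul_mul_assoc, one_mul, smul_mul_assoc, one_mul,
      LinearMap.baseChange_smul, LinearMap.smul_apply, hpow, smul_assoc]

/-- **(ASC)** a class `y ∈ Lat M`, `y ∉ p Lat M`, which is modulo `p` an eigenvector of the `op M ℓ` (`ℓ ∈ P`, eigenvalues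
`b ℓ ∈ ℤ`) and is killed modulo `p` by `R(op M r)`, gives an eigensystem occurring in `K ⊗ Lat M`. -/
theorem occ_of_mod_p_eigen {p : ℕ} {K : Type*} [Field K] [IsAlgClosed K] [CharP K p]
    (M : ℕ) [NeZero M] (P : Set ℕ) (b : ℕ → ℤ) (r : ℕ) (R : Polynomial ℤ) (y : S41.Lat M)
    (hy : ¬ ∃ z : S41.Lat M, y = (p : ℤ) • z)
    (hE : ∀ ℓ ∈ P, ℓ.Prime → ∃ z : S41.Lat M, op M ℓ y - b ℓ • y = (p : ℤ) • z)
    (hR : ∃ z : S41.Lat M, Polynomial.aeval (op M r) R y = (p : ℤ) • z) :
    ∃ α : K, Polynomial.aeval α R = 0 ∧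
      Occ K M (insert r P) (Function.update (fun ℓ => ((b ℓ : ℤ) : K)) r α) := by
  classical
  let S : Option ℕ → Module.End K (K ⊗[ℤ] S41.Lat M) := fun i =>
    match i with
    | none => (Polynomial.aeval (op M r) R).baseChange K
    | some ℓ => (op M ℓ).baseChange K
  have hcomm0 : ∀ A B : Module.End ℤ (S41.Lat M), Commute A B →
      Commute (A.baseChange K) (B.baseChange K) := by
    intro A B h
    change A.baseChange K * B.baseChange K = B.baseChange K * A.baseChange K
    rw [Module.End.mul_eq_comp, Module.End.mul_eq_comp, ← LinearMap.baseChange_comp,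
      ← LinearMap.baseChange_comp, ← Module.End.mul_eq_comp, ← Module.End.mul_eq_comp, h.eq]
  have hRc : ∀ ℓ, Commute (Polynomial.aeval (op M r) R) (op M ℓ) := by
    intro ℓ
    exact (Polynomial.aeval_eq_sum_range (R := ℤ) (p := R) (op M r)) ▸
      (Commute.sum_left _ _ _ fun i _ => (((op_comm M r ℓ).pow_left i).smul_left _))
  have hS : ∀ i j, Commute (S i) (S j) := by
    intro i j
    cases i with
    | none =>
      cases j with
      | none => exact Commute.refl _
      | some ℓ => exact hcomm0 _ _ (hRc ℓ)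
    | some ℓ =>
      cases j with
      | none => exact hcomm0 _ _ (hRc ℓ).symm
      | some ℓ' => exact hcomm0 _ _ (op_comm M ℓ ℓ')
  let J : Set (Option ℕ) := {i | i = none ∨ ∃ ℓ ∈ P, ℓ.Prime ∧ i = some ℓ}
  let a : Option ℕ → K := fun i =>
    match i with
    | none => 0
    | some ℓ => ((b ℓ : ℤ) : K)
  have hz : (1 : K) ⊗ₜ[ℤ] y ≠ 0 := fun h => hy (Asc_of_one_tmul_eq_zero (p := p) h)
  obtain ⟨b', z', hz', hall, hJ⟩ := exists_eigen_extend S hS J a ((1 : K) ⊗ₜ[ℤ] y) hz (by
    rintro i (rfl | ⟨ℓ, hℓ, hℓp, rfl⟩)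
    · obtain ⟨z, hz⟩ := hR
      change (Polynomial.aeval (op M r) R).baseChange K ((1 : K) ⊗ₜ[ℤ] y) = (0 : K) • _
      rw [LinearMap.baseChange_tmul, hz, Asc_one_tmul_smul (p := p), zero_smul]
    · obtain ⟨z, hz⟩ := hE ℓ hℓ hℓp
      change (op M ℓ).baseChange K ((1 : K) ⊗ₜ[ℤ] y) = ((b ℓ : ℤ) : K) • _
      rw [LinearMap.baseChange_tmul, sub_eq_iff_eq_add.1 hz, TensorProduct.tmul_add,
        Asc_one_tmul_smul (p := p), zero_add, TensorProduct.tmul_smul, TensorProduct.smul_tmul']
      congr 1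
      simp)
  refine ⟨b' (some r), ?_, z', hz', ?_⟩
  · have h1 : (Polynomial.aeval (op M r) R).baseChange K z' = Polynomial.aeval (b' (some r)) R • z' :=
      Asc_aeval_baseChange _ _ _ _ (hall (some r))
    have h2 : (Polynomial.aeval (op M r) R).baseChange K z' = b' none • z' := hall none
    rw [hJ none (Or.inl rfl)] at h2
    change _ = (0 : K) • z' at h2
    rw [h2, zero_smul] at h1
    exact (smul_eq_zero.1 h1.symm).resolve_right hz'
  · intro ℓ hℓ hℓp
    by_cases hr : ℓ = r
    · subst hr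
      rw [Function.update_self]
      exact hall (some ℓ)
    · rw [Function.update_of_ne hr]
      have hℓP : ℓ ∈ P := (Set.mem_insert_iff.1 hℓ).resolve_left hr
      have := hall (some ℓ)
      rw [hJ (some ℓ) (Or.inr ⟨ℓ, hℓP, hℓp, rfl⟩)] at this
      exact this

end Fermat.Agent.MR.H
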