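import Fermat.Agent.MR.H.Defs
import Fermat.Agent.S41.QI.Hecke
import Fermat.Agent.S41.QI.Basic
import Fermat.Agent.S41.PD.Prim

/-!
# MR / H / URange : if `r ∣ N` then `U_r` maps level `N r` into level `N`;
restriction from level `N` to level `N r` is injective on parabolic homs
-/

set_option autoImplicit false

open CongruenceSubgroup Matrix ModularCurve.Period
open scoped MatrixGroups TensorProduct
open Fermat.Agent.S41
open Fermat.Agent.GAL
open Fermat.Agent.GAL.HK (latT latU cohU)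

namespace Fermat.Agent.MR.H

/-- a general `SL(2,ℤ)` matrix from its entries. -/
def URange_mkSL (p q r s : ℤ) (h : p * s - q * r = 1) : SL(2, ℤ) :=
  ⟨!![p, q; r, s], by rw [Matrix.det_fin_two_of]; exact h⟩

theorem URange_coe_mkSL (p q r s : ℤ) (h : p * s - q * r = 1) :
    ((URange_mkSL p q r s h : SL(2, ℤ)) : Matrix (Fin 2) (Fin 2) ℤ) = !![p, q; r, s] := rfl

theorem URange_mkSL_mem (M : ℕ) (p q r s : ℤ) (h : p * s - q * r = 1) (hr : (M : ℤ) ∣ r) :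
    URange_mkSL p q r s h ∈ Gamma0 M := by
  rw [Gamma0_mem, ZMod.intCast_zmod_eq_zero_iff_dvd]
  exact hr

theorem URange_entries (g : SL(2, ℤ)) : ∃ a b c d : ℤ,
    (g : Matrix (Fin 2) (Fin 2) ℤ) = !![a, b; c, d] ∧ a * d - b * c = 1 := by
  refine ⟨g 0 0, g 0 1, g 1 0, g 1 1, Matrix.eta_fin_two _, ?_⟩
  have := g.2
  rwa [Matrix.det_fin_two] at this

theorem URange_alg (a b₀ c d r c' b m β : ℤ) (hdet : a * d - b₀ * c = 1) (hc : c = r * c')
    (hβ : β = d * (b₀ + b * d) - r * m) :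
    (a + b * c) * β + (-(b₀ + b * d) * b₀ * c' - b * c' * d * (b₀ + b * d) + m * (a + b * c)) * r
      = b₀ + b * d ∧
    (a + b * c) * (d - c * β) -
      (-(b₀ + b * d) * b₀ * c' - b * c' * d * (b₀ + b * d) + m * (a + b * c)) * (r * c) = 1 := by
  subst hc hβ
  constructor
  · linear_combination (b₀ + b * d) * hdet
  · linear_combination (1 - r * c' * (b₀ + b * d)) * hdet

/-- matrix identity behind `cohU_mem_range_res₁`: for `γ ∈ Γ₀(N)`, `r ∣ N`, and `b mod r` there are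
`b' mod r` and `γ' ∈ Γ₀(N r)` with `β_b γ = γ' β_{b'}`, `β_b = (1 b; 0 r)`, and `b ↦ b'` is a bijection.
(`γ = (a b₀; c d)`: `b' ≡ (b₀ + b d) a⁻¹ mod r` (as `r ∣ c`, `a` is a unit mod `r`),
`γ' = (a + b c, (b₀ + b d - b'(a + b c)) / r; r c, d - b' c)`.) -/
theorem exists_perm_heckeRep (N r : ℕ) [NeZero N] (hr : r.Prime) (hrN : r ∣ N) (γ : Gamma0 N) :
    ∃ (σ : Equiv.Perm (Fin r)) (γ' : Fin r → Gamma0 (N * r)), ∀ b : Fin r,
      heckeRep r (some b) * ((γ : SL(2, ℤ)) : Matrix (Fin 2) (Fin 2) ℤ) =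
        (((γ' b : Gamma0 (N * r)) : SL(2, ℤ)) : Matrix (Fin 2) (Fin 2) ℤ) * heckeRep r (some (σ b)) := by
  classical
  have hr0 : (r : ℤ) ≠ 0 := by exact_mod_cast hr.ne_zero
  have hrpos : (0 : ℤ) < r := by exact_mod_cast hr.pos
  obtain ⟨a, b₀, c, d, hγ, hdet⟩ := URange_entries (γ : SL(2, ℤ))
  have hc10 : (γ : SL(2, ℤ)) 1 0 = c := by
    show ((γ : SL(2, ℤ)) : Matrix (Fin 2) (Fin 2) ℤ) 1 0 = c
    rw [hγ]; rfl
  obtain ⟨c₁, hc₁⟩ : (N : ℤ) ∣ c := hc10 ▸ dvd_of_mem_Gamma0 γ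
  obtain ⟨N', hN'⟩ := hrN
  have hc' : c = r * (N' * c₁) := by rw [hc₁, hN']; push_cast; ring
  -- the map `b ↦ b'`
  let f : Fin r → Fin r := fun b => ⟨((d * (b₀ + b * d)) % r).toNat, by
    have h1 := Int.emod_nonneg (d * (b₀ + b * d)) hr0
    have h2 := Int.emod_lt_of_pos (d * (b₀ + b * d)) hrpos
    omega⟩
  have hf : ∀ b : Fin r, ((f b : ℕ) : ℤ) = (d * (b₀ + b * d)) % r :=
    fun b => Int.toNat_of_nonneg (Int.emod_nonneg _ hr0)
  have hinj : Function.Injective f := by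
    intro b b' h
    have h1 : (d * (b₀ + b * d)) % r = (d * (b₀ + b' * d)) % r := by rw [← hf, ← hf, h]
    have h2 : (r : ℤ) ∣ d * (b₀ + b * d) - d * (b₀ + b' * d) :=
      Int.dvd_of_emod_eq_zero (Int.emod_eq_emod_iff_emod_sub_eq_zero.1 h1)
    have h3 : (r : ℤ) ∣ (b : ℤ) - b' := by
      have e : ((b : ℤ) - b') = a ^ 2 * (d * (b₀ + b * d) - d * (b₀ + b' * d)) -
          r * ((N' * c₁) * (2 * b₀ + b₀ ^ 2 * c) * (b - b')) := by
        linear_combination (-((b : ℤ) - b') * (1 + b₀ * c + a * d)) * hdet -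
          ((2 * b₀ + b₀ ^ 2 * c) * ((b : ℤ) - b')) * hc'
      rw [e]
      exact dvd_sub (Dvd.dvd.mul_left h2 _) (Dvd.intro _ rfl)
    have h4 : (b : ℤ) - b' = 0 := by
      apply Int.eq_zero_of_abs_lt_dvd h3
      have := b.2
      have := b'.2
      rw [abs_lt]
      constructor <;> omega
    apply Fin.ext
    omega
  have hbij : Function.Bijective f := Finite.injective_iff_bijective.1 hinj
  have hex : ∀ b : Fin r, ∃ γ' : Gamma0 (N * r),
      heckeRep r (some b) * ((γ : SL(2, ℤ)) : Matrix (Fin 2) (Fin 2) ℤ) =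
        ((γ' : SL(2, ℤ)) : Matrix (Fin 2) (Fin 2) ℤ) * heckeRep r (some (f b)) := by
    intro b
    have hβ : ((f b : ℕ) : ℤ) = d * (b₀ + b * d) - r * ((d * (b₀ + b * d)) / r) := by
      rw [hf, Int.emod_def]
    obtain ⟨h1, h2⟩ := URange_alg a b₀ c d r (N' * c₁) b ((d * (b₀ + b * d)) / r) (f b : ℕ)
      hdet hc' hβ
    refine ⟨⟨URange_mkSL (a + b * c) (-(b₀ + b * d) * b₀ * (N' * c₁) -
      b * (N' * c₁) * d * (b₀ + b * d) + ((d * (b₀ + b * d)) / r) * (a + b * c)) (r * c)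
      (d - c * (f b : ℕ)) h2, URange_mkSL_mem _ _ _ _ _ _ ?_⟩, ?_⟩
    · rw [hc₁]
      exact ⟨c₁, by push_cast; ring⟩
    · rw [hγ, URange_coe_mkSL]
      ext i j
      fin_cases i <;> fin_cases j
      · simp [heckeRep, Matrix.mul_apply, Fin.sum_univ_two]
      · simp [heckeRep, Matrix.mul_apply, Fin.sum_univ_two]
        linarith
      · simp [heckeRep, Matrix.mul_apply, Fin.sum_univ_two]
      · simp [heckeRep, Matrix.mul_apply, Fin.sum_univ_two]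
        ring
  choose γ' hγ' using hex
  exact ⟨Equiv.ofBijective f hbij, γ', hγ'⟩

/-- **(D0)** if `r ∣ N`, `U_r` maps parabolic homs of level `N r` to (restrictions of) parabolic homs of
level `N`.
PROOF: `k` a cusp primitive of `φ` (`S41.exists_isQI`), `kU v = ∑_b k (β_b v)` is a primitive of `U_r φ`
(`S41.IsQI.heckeU`); by `exists_perm_heckeRep`, `kU (γ v) = kU v + ∑_b φ (γ'_b)` for `γ ∈ Γ₀(N)`;
conclude by `S41.IsQI.exists_resOne`. -/
theorem cohU_mem_range_res₁ (N r : ℕ) [NeZero N] (hr : r.Prime) (hrN : r ∣ N)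
    {R : Type*} [AddCommGroup R] (φ : Additive (Gamma0 (N * r)) →+ R)
    (hφ : IsParabolicHom (Gamma0 (N * r)) φ) :
    ∃ ψ : Additive (Gamma0 N) →+ R, IsParabolicHom (Gamma0 N) ψ ∧
      res₁ N r R ψ = cohU (N * r) hr (Dvd.intro_left N rfl) R φ := by
  have : NeZero (N * r) := ⟨Nat.mul_ne_zero (NeZero.ne N) hr.ne_zero⟩
  obtain ⟨k, hk⟩ := exists_isQI (N * r) φ hφ
  have hU := hk.heckeU (N * r) hr (Dvd.intro_left N rfl)
  refine hU.exists_resOne r ?_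
  intro γ
  obtain ⟨σ, γ', h⟩ := exists_perm_heckeRep N r hr hrN γ
  refine ⟨∑ b : Fin r, φ (Additive.ofMul (γ' b)), fun v hv => ?_⟩
  have h1 : ∀ b : Fin r, k (zq (heckeRep r (some b)) *ᵥ (sl (γ : SL(2, ℤ)) *ᵥ v)) =
      k (zq (heckeRep r (some (σ b))) *ᵥ v) + φ (Additive.ofMul (γ' b)) := by
    intro b
    rw [Matrix.mulVec_mulVec, sl, ← qiHecke_zq_mul, h b, qiHecke_zq_mul, ← Matrix.mulVec_mulVec]
    exact hk.qi _ _ (qiHecke_mulVec_ne_zero (qiHecke_det_heckeRep hr.ne_zero _) hv)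
  show ∑ b : Fin r, k (zq (heckeRep r (some b)) *ᵥ (sl (γ : SL(2, ℤ)) *ᵥ v)) = _
  rw [Finset.sum_congr rfl fun b _ => h1 b, Finset.sum_add_distrib]
  congr 1
  exact Equiv.sum_comp σ (fun b => k (zq (heckeRep r (some b)) *ᵥ v))

theorem latU_mem_range_lres₁ (N r : ℕ) [NeZero N] (hr : r.Prime) (hrN : r ∣ N)
    (x : S41.Lat (N * r)) :
    latU (N * r) hr (Dvd.intro_left N rfl) x ∈ LinearMap.range (lres₁ N r) := by
  obtain ⟨ψ, hψ, h⟩ := cohU_mem_range_res₁ N r hr hrN (x : Additive (Gamma0 (N * r)) →+ ℤ) x.2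
  exact ⟨⟨ψ, hψ⟩, Subtype.ext h⟩

/-- if `r ∣ N`, every element of `Γ₀(N)` is `γ' * (1 0; N j 1)` with `γ' ∈ Γ₀(N r)`; so a parabolic hom
of level `N` vanishing on `Γ₀(N r)` is zero. -/
theorem res₁_injective_of_dvd (N r : ℕ) [NeZero N] (hr : r.Prime) (hrN : r ∣ N)
    {R : Type*} [AddCommGroup R] (φ : Additive (Gamma0 N) →+ R) (hφ : IsParabolicHom (Gamma0 N) φ)
    (h : res₁ N r R φ = 0) : φ = 0 := by
  ext γ₀
  obtain ⟨γ, rfl⟩ := Additive.ofMul.surjective γ₀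
  obtain ⟨a, b, c, d, hγ, hdet⟩ := URange_entries (γ : SL(2, ℤ))
  have hc10 : (γ : SL(2, ℤ)) 1 0 = c := by
    show ((γ : SL(2, ℤ)) : Matrix (Fin 2) (Fin 2) ℤ) 1 0 = c
    rw [hγ]; rfl
  obtain ⟨c₁, hc₁⟩ : (N : ℤ) ∣ c := hc10 ▸ dvd_of_mem_Gamma0 γ
  obtain ⟨N', hN'⟩ := hrN
  -- `δ = (1 0; N j 1)`, `j = - a c₁`
  let δ : Gamma0 N := ⟨URange_mkSL 1 0 ((N : ℤ) * (-a * c₁)) 1 (by ring),
    URange_mkSL_mem _ _ _ _ _ _ (Dvd.intro _ rfl)⟩
  have hδ : φ (Additive.ofMul δ) = 0 := by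
    apply hφ
    show (!![1, 0; (N : ℤ) * (-a * c₁), 1] : Matrix (Fin 2) (Fin 2) ℤ).trace ^ 2 = 4
    rw [Matrix.trace_fin_two_of]
    norm_num
  have hmem : ((γ * δ : Gamma0 N) : SL(2, ℤ)) ∈ Gamma0 (N * r) := by
    rw [Gamma0_mem, ZMod.intCast_zmod_eq_zero_iff_dvd]
    have e : ((γ * δ : Gamma0 N) : SL(2, ℤ)) 1 0 = c + d * ((N : ℤ) * (-a * c₁)) := by
      show (((γ : SL(2, ℤ)) : Matrix (Fin 2) (Fin 2) ℤ) *
        (!![1, 0; (N : ℤ) * (-a * c₁), 1] : Matrix (Fin 2) (Fin 2) ℤ)) 1 0 = _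
      rw [hγ]
      simp [Matrix.mul_apply, Fin.sum_univ_two]
    rw [e]
    refine ⟨-(c₁ * b * c₁ * N'), ?_⟩
    have hN'' : (N : ℤ) = r * N' := by exact_mod_cast hN'
    push_cast
    linear_combination (-(N : ℤ) * c₁) * hdet + (1 - (N : ℤ) * c₁ * b) * hc₁ -
      (N : ℤ) * c₁ * b * c₁ * hN''
  have h1 := DFunLike.congr_fun h (Additive.ofMul (⟨_, hmem⟩ : Gamma0 (N * r)))
  rw [res₁_apply] at h1
  have h2 : φ (Additive.ofMul (γ * δ)) = 0 := h1
  rw [ofMul_mul, map_add, hδ, add_zero] at h2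
  exact h2

theorem lres₁_baseChange_injective_of_dvd (N r : ℕ) [NeZero N] (hr : r.Prime) (hrN : r ∣ N)
    (K : Type*) [Field K] : Function.Injective ((lres₁ N r).baseChange K) := by
  have : NeZero (N * r) := ⟨Nat.mul_ne_zero (NeZero.ne N) hr.ne_zero⟩
  rw [injective_iff_map_eq_zero]
  intro u hu
  apply evK_injective K N
  rw [map_zero]
  apply res₁_injective_of_dvd N r hr hrN _ (evK_isParabolicHom K N u)
  rw [← evK_lres₁, hu, map_zero]

end Fermat.Agent.MR.H
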