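import Fermat.Agent.MR.H.LA
import Fermat.Agent.MR.H.URange
import Fermat.Agent.S41.QI.AtkinLehner

/-!
# MR / H / Down2 : lowering the level of an eigensystem which contains a suitable `U_r`-eigenvalue
-/

set_option autoImplicit false

open CongruenceSubgroup
open scoped TensorProduct
open Fermat.Agent.S41
open Fermat.Agent.GAL.HK (latT latU)

namespace Fermat.Agent.MR.H

/-- the abstract linear algebra behind `occ_down_new` and `eig_sq_eq_one`. -/
theorem Down2_abs {K V W I : Type*} [Field K] [IsAlgClosed K] [AddCommGroup V] [Module K V]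
    [FiniteDimensional K V] [AddCommGroup W] [Module K W]
    (α₁ α₂ : V →ₗ[K] W) (t : I → Module.End K V) (T : I → Module.End K W)
    (tr : Module.End K V) (U : Module.End K W) (ρ : K)
    (htt : ∀ i j, Commute (t i) (t j)) (htr : ∀ i, Commute (t i) tr)
    (h₁ : ∀ i u, T i (α₁ u) = α₁ (t i u)) (h₂ : ∀ i u, T i (α₂ u) = α₂ (t i u))
    (hU₁ : ∀ u, U (α₁ u) = α₁ (tr u) - α₂ u) (hU₂ : ∀ u, U (α₂ u) = ρ • α₁ u)
    (a : I → K) (al : K) (hal : al ^ 2 ≠ 1) (x : W) (hx : x ≠ 0) (hT : ∀ i, T i x = a i • x)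
    (hU : U x = al • x) (hold : ∃ u₁ u₂, U (U x) - x = α₁ u₁ + α₂ u₂) :
    ∃ u₁ u₂ : V, (u₁ ≠ 0 ∨ u₂ ≠ 0) ∧ (∀ i, t i u₁ = a i • u₁ ∧ t i u₂ = a i • u₂) ∧
      tr u₁ + ρ • u₂ = al • u₁ ∧ -u₁ = al • u₂ := by
  obtain ⟨w₁, w₂, hw⟩ := hold
  let Sr : Module.End K (V × V) :=
    LinearMap.prod (tr ∘ₗ LinearMap.fst K V V + ρ • LinearMap.snd K V V) (-LinearMap.fst K V V)
  let S : Option I → Module.End K (V × V) := fun o => o.elim Sr (fun i => (t i).prodMap (t i))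
  let T' : Option I → Module.End K W := fun o => o.elim U T
  let a' : Option I → K := fun o => o.elim al a
  have hSr : ∀ u : V × V, S none u = (tr u.1 + ρ • u.2, -u.1) := fun u => rfl
  have hSi : ∀ i (u : V × V), S (some i) u = (t i u.1, t i u.2) := fun i u => rfl
  have htt' : ∀ i j u, t i (t j u) = t j (t i u) := fun i j u =>
    LinearMap.congr_fun (htt i j).eq u
  have htr' : ∀ i u, t i (tr u) = tr (t i u) := fun i u => LinearMap.congr_fun (htr i).eq u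
  have key : (α₁.coprod α₂) (w₁, w₂) = (al ^ 2 - 1) • x := by
    rw [LinearMap.coprod_apply, ← hw, hU, map_smul, hU, smul_smul, sub_smul, one_smul, sq]
  have hcomm : ∀ i j, Commute (S i) (S j) := by
    intro i j
    refine LinearMap.ext fun u => ?_
    rw [Module.End.mul_apply, Module.End.mul_apply]
    rcases i with _ | i <;> rcases j with _ | j
    · rfl
    · rw [hSr, hSi, hSi, hSr]
      simp only [map_add, map_smul, map_neg, htr']
    · rw [hSr, hSi, hSi, hSr]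
      simp only [map_add, map_smul, map_neg, htr']
    · rw [hSi, hSi, hSi, hSi]
      simp only [htt' i j]
  have hπ : ∀ i z, (α₁.coprod α₂) (S i z) = T' i ((α₁.coprod α₂) z) := by
    intro i z
    rcases i with _ | i
    · rw [hSr, LinearMap.coprod_apply, LinearMap.coprod_apply]
      change _ = U _
      rw [map_add U, hU₁, hU₂, map_add, map_smul, map_neg]
      abel
    · rw [hSi, LinearMap.coprod_apply, LinearMap.coprod_apply]
      change _ = T i _
      rw [map_add (T i), h₁, h₂]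
  have hne : (α₁.coprod α₂) (w₁, w₂) ≠ 0 := by
    rw [key]
    exact smul_ne_zero (sub_ne_zero.2 hal) hx
  have hy : ∀ i, T' i ((α₁.coprod α₂) (w₁, w₂)) = a' i • (α₁.coprod α₂) (w₁, w₂) := by
    intro i
    rw [key]
    rcases i with _ | i
    · change U _ = al • _
      rw [map_smul, hU, smul_comm]
    · change T i _ = a i • _
      rw [map_smul, hT, smul_comm]
  obtain ⟨z', hz', hS⟩ := exists_eigen_of_map S T' hcomm (α₁.coprod α₂) hπ a' (w₁, w₂) hne hy
  refine ⟨z'.1, z'.2, ?_, fun i => ?_, ?_, ?_⟩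
  · by_contra hcon
    push Not at hcon
    exact hz' (Prod.ext hcon.1 hcon.2)
  · have h := hS (some i)
    rw [hSi] at h
    exact ⟨congrArg Prod.fst h, congrArg Prod.snd h⟩
  · have h := hS none
    rw [hSr] at h
    exact congrArg Prod.fst h
  · have h := hS none
    rw [hSr] at h
    exact congrArg Prod.snd h

theorem Down2_add_aux {K V W : Type*} [Field K] [AddCommGroup V] [Module K V] [AddCommGroup W]
    [Module K W] (U : W →ₗ[K] W) (A₁ A₂ : V →ₗ[K] W) {x y : W} {u₁ u₂ v₁ v₂ : V}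
    (hu : U (U x) - x = A₁ u₁ + A₂ u₂) (hv : U (U y) - y = A₁ v₁ + A₂ v₂) :
    U (U (x + y)) - (x + y) = A₁ (u₁ + v₁) + A₂ (u₂ + v₂) := by
  rw [map_add, map_add, map_add, map_add, add_add_add_comm, ← hu, ← hv]
  abel

variable {K : Type*} [Field K] [IsAlgClosed K]

omit [IsAlgClosed K] in
/-- base change of `latU_sq_sub_mem_oldLat`. -/
theorem Down2_old (N r : ℕ) [NeZero N] [NeZero r] (hr : r.Prime) (hrN : ¬ r ∣ N)
    (x : K ⊗[ℤ] S41.Lat (N * r)) :
    ∃ u₁ u₂ : K ⊗[ℤ] S41.Lat N,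
      (op (N * r) r).baseChange K ((op (N * r) r).baseChange K x) - x =
        (lres₁ N r).baseChange K u₁ + (lres₂ N r).baseChange K u₂ := by
  induction x using TensorProduct.induction_on with
  | zero => exact ⟨0, 0, by simp⟩
  | tmul c y =>
    have h := latU_sq_sub_mem_oldLat N r hr hrN (Dvd.intro_left N rfl) y
    rw [oldLat, Submodule.mem_sup] at h
    obtain ⟨_, ⟨y₁, rfl⟩, _, ⟨y₂, rfl⟩, h⟩ := h
    refine ⟨c ⊗ₜ y₁, c ⊗ₜ y₂, ?_⟩
    rw [LinearMap.baseChange_tmul, LinearMap.baseChange_tmul, LinearMap.baseChange_tmul,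
      LinearMap.baseChange_tmul, ← TensorProduct.tmul_sub, ← TensorProduct.tmul_add, h,
      op_of_dvd (N * r) hr (Dvd.intro_left N rfl)]
  | add x y hx hy =>
    obtain ⟨u₁, u₂, hu⟩ := hx
    obtain ⟨v₁, v₂, hv⟩ := hy
    refine ⟨u₁ + v₁, u₂ + v₂, ?_⟩
    exact Down2_add_aux _ _ _ hu hv

/-- the concrete core of `occ_down_new` and `eig_sq_eq_one`. -/
theorem Down2_core (N r : ℕ) [NeZero N] (hr : r.Prime) (hrN : ¬ r ∣ N)
    (P : Set ℕ) (a : ℕ → K) (hrP : r ∈ P) (har : a r ^ 2 ≠ 1) (h : Occ K (N * r) P a) :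
    ∃ u₁ u₂ : K ⊗[ℤ] S41.Lat N, (u₁ ≠ 0 ∨ u₂ ≠ 0) ∧
      (∀ ℓ ∈ P, ℓ.Prime → ℓ ≠ r → (op N ℓ).baseChange K u₁ = a ℓ • u₁ ∧
        (op N ℓ).baseChange K u₂ = a ℓ • u₂) ∧
      (op N r).baseChange K u₁ + (r : K) • u₂ = a r • u₁ ∧ -u₁ = a r • u₂ := by
  have : NeZero r := ⟨hr.ne_zero⟩
  obtain ⟨x, hx, hE⟩ := h
  have hcop : Nat.Coprime r N := (Nat.Prime.coprime_iff_not_dvd hr).2 hrN
  have hdv : ∀ ℓ : ℕ, ℓ.Prime → ℓ ≠ r → ℓ ∣ N ∨ ¬ ℓ ∣ N * r := by
    intro ℓ hℓ hne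
    by_cases h1 : ℓ ∣ N
    · exact Or.inl h1
    · refine Or.inr fun h2 => ?_
      rcases (Nat.Prime.dvd_mul hℓ).1 h2 with h3 | h3
      · exact h1 h3
      · exact hne ((Nat.prime_dvd_prime_iff_eq hℓ hr).1 h3)
  have hbc : ∀ ℓ ℓ' : ℕ, Commute ((op N ℓ).baseChange K) ((op N ℓ').baseChange K) := by
    intro ℓ ℓ'
    have h1 := (op_comm N ℓ ℓ').eq
    change (op N ℓ).baseChange K ∘ₗ (op N ℓ').baseChange K =
      (op N ℓ').baseChange K ∘ₗ (op N ℓ).baseChange K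
    rw [← LinearMap.baseChange_comp, ← LinearMap.baseChange_comp]
    exact congrArg (LinearMap.baseChange K) h1
  obtain ⟨u₁, u₂, h0, h1, h2, h3⟩ := Down2_abs (K := K) (I := {ℓ : ℕ // ℓ ∈ P ∧ ℓ.Prime ∧ ℓ ≠ r})
    ((lres₁ N r).baseChange K) ((lres₂ N r).baseChange K)
    (fun ℓ => (op N ℓ.1).baseChange K) (fun ℓ => (op (N * r) ℓ.1).baseChange K)
    ((op N r).baseChange K) ((op (N * r) r).baseChange K) (r : K)
    (fun i j => hbc _ _) (fun i => hbc _ _)
    (fun ℓ u => by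
      induction u using TensorProduct.induction_on with
      | zero => simp
      | tmul c y =>
        simp only [LinearMap.baseChange_tmul]
        rw [op_lres₁ N r ℓ.2.2.1 (hdv _ ℓ.2.2.1 ℓ.2.2.2)]
      | add u v hu hv => simp only [map_add, hu, hv])
    (fun ℓ u => by
      induction u using TensorProduct.induction_on with
      | zero => simp
      | tmul c y =>
        simp only [LinearMap.baseChange_tmul]
        rw [op_lres₂ N r hcop ℓ.2.2.1 (hdv _ ℓ.2.2.1 ℓ.2.2.2)]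
      | add u v hu hv => simp only [map_add, hu, hv])
    (fun u => by
      induction u using TensorProduct.induction_on with
      | zero => simp
      | tmul c y =>
        simp only [LinearMap.baseChange_tmul]
        rw [op_self_lres₁ N r hr hrN, TensorProduct.tmul_sub]
      | add u v hu hv =>
        simp only [map_add, hu, hv]
        abel)
    (fun u => by
      induction u using TensorProduct.induction_on with
      | zero => simp
      | tmul c y =>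
        simp only [LinearMap.baseChange_tmul]
        rw [op_self_lres₂ N r hr, TensorProduct.tmul_smul, Nat.cast_smul_eq_nsmul]
      | add u v hu hv => simp only [map_add, hu, hv, smul_add])
    (fun ℓ => a ℓ.1) (a r) har x hx (fun ℓ => hE ℓ.1 ℓ.2.1 ℓ.2.2.1) (hE r hrP hr)
    (Down2_old N r hr hrN x)
  exact ⟨u₁, u₂, h0, fun ℓ hℓP hℓ hne => h1 ⟨ℓ, hℓP, hℓ, hne⟩, h2, h3⟩

/-- **(D2)** `r ∤ N`, `U_r`-eigenvalue `α = a r` with `α² ≠ 1` : the system occurs at level `N`, with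
`T_r`-eigenvalue `α + r / α`.
PROOF: `(α² - 1) • x = (U_r² - 1) x = α₁ u₁ + α₂ u₂` by `S41.latU_sq_sub_mem_oldLat` (+ tensor
induction).  `exists_eigen_of_map` with `Z = (K ⊗ Lat N) × (K ⊗ Lat N)`, `π (u₁, u₂) = α₁ u₁ + α₂ u₂`,
`I = {ℓ // ℓ ∈ P ∧ ℓ.Prime}`, `S ℓ = op N ℓ` on both factors for `ℓ ≠ r` (`op_lres₁`, `op_lres₂`),
`S r (u₁, u₂) = (T_r u₁ + r u₂, - u₁)` (`op_self_lres₁`, `op_self_lres₂`); they commute (`op_comm`).
`z' = (u₁, u₂) ≠ 0`: `- u₁ = α u₂`, `T_r u₁ + r u₂ = α u₁`.  So `u₂ ≠ 0`, `α ≠ 0` (else `u₁ = 0`, `r u₂ = 0`), and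
`T_r u₂ = (α + r / α) u₂`; `u₂` is the eigenvector. -/
theorem occ_down_new (N r : ℕ) [NeZero N] (hr : r.Prime) (hrN : ¬ r ∣ N) (hrK : (r : K) ≠ 0)
    (P : Set ℕ) (a : ℕ → K) (hrP : r ∈ P) (har : a r ^ 2 ≠ 1) (h : Occ K (N * r) P a) :
    Occ K N P (Function.update a r (a r + (r : K) / a r)) := by
  obtain ⟨u₁, u₂, h0, h1, h2, h3⟩ := Down2_core N r hr hrN P a hrP har h
  have hu₁ : u₁ = -(a r • u₂) := by rw [← h3, neg_neg]
  have hu₂ : u₂ ≠ 0 := by
    intro h4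
    rw [h4, smul_zero, neg_zero] at hu₁
    exact h0.elim (fun h5 => h5 hu₁) (fun h5 => h5 h4)
  have hα : a r ≠ 0 := by
    intro h4
    rw [h4, zero_smul, neg_zero] at hu₁
    rw [hu₁, map_zero, zero_add, smul_zero] at h2
    exact (smul_ne_zero hrK hu₂) h2
  refine ⟨u₂, hu₂, fun ℓ hℓP hℓ => ?_⟩
  rcases eq_or_ne ℓ r with rfl | hne
  · rw [Function.update_self]
    rw [hu₁, map_neg, map_smul, smul_neg, smul_smul] at h2
    have h5 : a ℓ • (op N ℓ).baseChange K u₂ = a ℓ • ((a ℓ + (ℓ : K) / a ℓ) • u₂) := by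
      rw [smul_smul, mul_add, mul_div_cancel₀ _ hα, add_smul]
      rw [neg_add_eq_iff_eq_add] at h2
      rw [h2]
      abel
    exact smul_right_injective _ hα h5
  · rw [Function.update_of_ne hne]
    exact (h1 ℓ hℓP hℓ hne).2

/-- `p`-new: if the system (away from `p`) does not occur at level `N` then `U_p² = 1`.
(no hypothesis `(p : K) ≠ 0`: this is used with `char K = p`; same proof as `occ_down_new` with
`I = {ℓ // ℓ ∈ P \ {p} ∧ ℓ.Prime}` and one of the two components of `z'`.) -/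
theorem eig_sq_eq_one (N p : ℕ) [NeZero N] (hp : p.Prime) (hpN : ¬ p ∣ N) (P : Set ℕ) (a : ℕ → K)
    (hpP : p ∈ P) (h : Occ K (N * p) P a) (hnot : ¬ Occ K N (P \ {p}) a) : a p ^ 2 = 1 := by
  by_contra har
  obtain ⟨u₁, u₂, h0, h1, -, -⟩ := Down2_core N p hp hpN P a hpP har h
  rcases h0 with h0 | h0
  · exact hnot ⟨u₁, h0, fun ℓ hℓP hℓ => (h1 ℓ hℓP.1 hℓ hℓP.2).1⟩
  · exact hnot ⟨u₂, h0, fun ℓ hℓP hℓ => (h1 ℓ hℓP.1 hℓ hℓP.2).2⟩

end Fermat.Agent.MR.H
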