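import Fermat.Agent.MR.H.Top1
import Fermat.Agent.MR.H.Down2
import Fermat.Agent.MR.H.QExp
import Fermat.Agent.MR.H.Asc

/-!
# MR / H / Top3 : `GeomOcc` from the contract `GeomF` in terms of `q`-expansions
-/

set_option autoImplicit false

open CongruenceSubgroup
open scoped TensorProduct
open Fermat.Agent.GAL.KLC (psR IsCuspExp)

namespace Fermat.Agent.MR.H

/-- **THE CONTRACT OF (H-IN + E-side + geometry)** : at an admissible even level `N'`, `p ∤ N'`: if a system `a` of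
eigenvalues of all Hecke operators occurs at level `N' p`, is congruent to `W` at the good primes, has `U_p`-eigenvalue
`a p = ±1`, and `R(a 2) = 0`, and if (NEWNESS) the system `(ap ℓ, R(U_2) = 0)` does not occur at level `N'`,
then there is a nonzero `F` in the span of the reductions of the cusp forms of level `N'`
with `T_ℓ F = a_ℓ F` (`ℓ` good) and `R(U_2) F = 0`  (formal operators on `q`-expansions).
(The newness hypothesis is consumed through `mod_p_eq_zero_of_not_occ` below.) -/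
def GeomF (p : ℕ) (W : WeierstrassCurve ℤ) (K : Type) [Field K] : Prop :=
  ∀ (N' : ℕ) (a : ℕ → K) (R : Polynomial ℤ), 0 < N' → ¬ p ∣ N' → Fermat.Agent.GAL.AdmLevel N' → 2 ∣ N' →
    (∀ ℓ ∈ goodSet W (N' * p), a ℓ = ((W.apOfModel ℓ : ℤ) : K)) →
    Polynomial.aeval (a 2) R = 0 → a p ^ 2 = 1 →
    Occ K (N' * p) Set.univ a →
    (∀ α : K, Polynomial.aeval α R = 0 →
      ¬ Occ K N' (insert 2 (goodSet W (N' * p))) (Function.update a 2 α)) →
    ∃ F : LaurentSeries K, F ≠ 0 ∧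
      F ∈ Submodule.span K {G : LaurentSeries K | ∃ fZ : PowerSeries ℤ, IsCuspExp N' fZ ∧ G = psR K fZ} ∧
      (∀ ℓ ∈ goodSet W (N' * p), IsFormalEig N' ℓ ((W.apOfModel ℓ : ℤ) : K) F) ∧ IsFormalRel 2 R F

/-- how NEWNESS is used: a class of level `N'` which is modulo `p` an eigenclass for the system is `0` modulo `p`. -/
theorem mod_p_eq_zero_of_not_occ {p : ℕ} (W : WeierstrassCurve ℤ) {K : Type} [Field K] [IsAlgClosed K]
    [CharP K p] (N' L : ℕ) [NeZero N'] (a : ℕ → K) (R : Polynomial ℤ)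
    (ha : ∀ ℓ ∈ goodSet W L, a ℓ = ((W.apOfModel ℓ : ℤ) : K))
    (hnew : ∀ α : K, Polynomial.aeval α R = 0 →
      ¬ Occ K N' (insert 2 (goodSet W L)) (Function.update a 2 α))
    (y : S41.Lat N')
    (hE : ∀ ℓ ∈ goodSet W L, ∃ z : S41.Lat N', op N' ℓ y - W.apOfModel ℓ • y = (p : ℤ) • z)
    (hR : ∃ z : S41.Lat N', Polynomial.aeval (op N' 2) R y = (p : ℤ) • z) :
    ∃ z : S41.Lat N', y = (p : ℤ) • z := by
  by_contra hy
  obtain ⟨α, hα, hO⟩ := occ_of_mod_p_eigen (p := p) (K := K) N' (goodSet W L) (fun ℓ => W.apOfModel ℓ) 2 R y hy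
    (fun ℓ hℓ _ => hE ℓ hℓ) hR
  refine hnew α hα (hO.congr fun ℓ hℓ => ?_)
  by_cases h2 : ℓ = 2
  · subst h2
    rw [Function.update_self, Function.update_self]
  · rw [Function.update_of_ne h2, Function.update_of_ne h2,
      ha ℓ ((Set.mem_insert_iff.1 hℓ).resolve_left h2)]

theorem geomOcc_of_geomF {p : ℕ} (hp : p.Prime) (hp2 : p ≠ 2) (W : WeierstrassCurve ℤ) (K : Type)
    [Field K] [IsAlgClosed K] (h : GeomF p W K) : GeomOcc p W K := by
  intro N' a R hN' hpN' hadm h2N' ha hR hocc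
  have : NeZero N' := ⟨hN'.ne'⟩
  by_contra hcon
  push Not at hcon
  have h2G : (2 : ℕ) ∉ goodSet W (N' * p) := fun h => h.2.2 (h2N'.mul_right p)
  have hpG : p ∉ goodSet W (N' * p) := fun h => h.2.2 (Dvd.intro_left N' rfl)
  have hsq : a p ^ 2 = 1 := by
    refine eig_sq_eq_one N' p hp hpN' (insert p (insert 2 (goodSet W (N' * p)))) a
      (Set.mem_insert _ _) (hocc.mono (Set.subset_univ _)) (fun hh => ?_)
    refine hcon (a 2) hR ?_
    rw [Function.update_eq_self]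
    refine hh.mono ?_
    intro ℓ hℓ
    refine ⟨Set.mem_insert_of_mem _ hℓ, ?_⟩
    rintro rfl
    rcases Set.mem_insert_iff.1 hℓ with h | h
    · exact hp2 h
    · exact hpG h
  obtain ⟨F, hF0, hF, hE, hRel⟩ := h N' a R hN' hpN' hadm h2N' ha hR hsq hocc hcon
  obtain ⟨α, hα, hO⟩ := occ_of_formalEig N' (goodSet W (N' * p)) a 2 Nat.prime_two h2N' h2G R F hF0 hF
    (fun ℓ hℓ _ => by rw [ha ℓ hℓ]; exact hE ℓ hℓ) hRel
  exact hcon α hα hO

end Fermat.Agent.MR.H
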