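import Fermat.Agent.MR.H.Char1
import Fermat.Agent.S41.Fin
import Fermat.Agent.S41.Input
import Fermat.Agent.S49.Lifting
import Fermat.Agent.GAL.HK.Eigen

/-!
# MR / H / Char2 : eigenvectors in `K ⊗ Lat M`  ↔  characters of the Hecke algebra  ↔  eigenforms
-/

set_option autoImplicit false

open CongruenceSubgroup
open scoped TensorProduct
open Fermat.Agent.S41
open Fermat.Agent.GAL.HK (latT latU iota)

namespace Fermat.Agent.MR.H

/-- the Hecke algebra is a finite `ℤ`-module (it embeds in `End (Lat M)`). -/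
theorem Char2_finite (M : ℕ) [NeZero M] : Module.Finite ℤ (CuspForm.heckeAlgebra M 2 ∅) :=
  Module.Finite.of_injective ((iota M ∅).toAddMonoidHom.toIntLinearMap)
    (Fermat.Agent.GAL.HK.iota_injective M ∅)

/-- the kernel of a character with values in a field of characteristic `p` is maximal. -/
theorem Char2_isMaximal_ker {p : ℕ} (hp : p.Prime) {K : Type*} [Field K] [CharP K p]
    {T : Type*} [CommRing T] [Algebra.IsIntegral ℤ T] (ψ : T →+* K) :
    (RingHom.ker ψ).IsMaximal := by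
  have hprime : (RingHom.ker ψ).IsPrime := RingHom.ker_isPrime ψ
  apply Ideal.isMaximal_of_isIntegral_of_isMaximal_comap (R := ℤ) (RingHom.ker ψ)
  have hprime' : ((RingHom.ker ψ).comap (algebraMap ℤ T)).IsPrime := Ideal.comap_isPrime _ _
  apply hprime'.isMaximal
  intro hbot
  have hmem : (p : ℤ) ∈ (RingHom.ker ψ).comap (algebraMap ℤ T) := by
    rw [Ideal.mem_comap, RingHom.mem_ker]
    simp
  rw [hbot, Ideal.mem_bot] at hmem
  exact hp.ne_zero (by exact_mod_cast hmem)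

/-- (C3) **Deligne–Serre lifting**: a character `ψ` of the Hecke algebra with values in a field of
characteristic `p` is the reduction of the system of eigenvalues of a normalised eigenform.
PROOF (as in `Fermat/Agent/S49.lean` and `S41.ALR_core`): `T = heckeAlgebra M 2 ∅` is a finite `ℤ`-module
(it embeds by `iota M ∅` in `End (Lat M)`), torsion free; `ker ψ` is a prime ideal containing `p`, `T / ker ψ` is a
finite domain, so `ker ψ` is maximal; `S49.exists_lift_of_isMaximal (ker ψ)` gives `lam`, `𝔪'` with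
`𝔪'.comap lam = ker ψ`; `GAL.HK.exists_eigenvector (iota M ∅) _ (algebraMap.comp lam)` gives `v ≠ 0` in `ℂ ⊗ Lat M`;
`S41.exists_eigenform_of_lat_eigenvector` gives `g` with `qCoeff g ℓ = lam (gen M ℓ)`.  If `ψ (gen M ℓ) = (b : K)`
then `gen M ℓ - b ∈ ker ψ`. -/
theorem exists_eigenform_of_char {p : ℕ} (hp : p.Prime) {K : Type*} [Field K] [CharP K p] (M : ℕ)
    [NeZero M] (ψ : CuspForm.heckeAlgebra M 2 ∅ →+* K) :
    ∃ (g : CuspForm (Gamma0 M) 2) (𝔪 : Ideal (integralClosure ℤ ℂ)),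
      g.IsNormalizedEigenform ∧ 𝔪.IsMaximal ∧ (p : integralClosure ℤ ℂ) ∈ 𝔪 ∧
      ∀ (ℓ : ℕ) (b : ℤ), ℓ.Prime → ψ (gen M ℓ) = (b : K) →
        ∃ c : integralClosure ℤ ℂ, (c : ℂ) = ModularFormClass.qCoeff g ℓ ∧
          c - (b : integralClosure ℤ ℂ) ∈ 𝔪 := by
  have hfin : Module.Finite ℤ (CuspForm.heckeAlgebra M 2 ∅) := Char2_finite M
  have hintg : Algebra.IsIntegral ℤ (CuspForm.heckeAlgebra M 2 ∅) :=
    Algebra.IsIntegral.of_finite ℤ _
  have hmax : (RingHom.ker ψ).IsMaximal := Char2_isMaximal_ker hp ψ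
  obtain ⟨lam, 𝔪', h𝔪', hcomap⟩ := Fermat.Agent.S49.exists_lift_of_isMaximal (RingHom.ker ψ)
  obtain ⟨v, hv, hev⟩ := Fermat.Agent.GAL.HK.exists_eigenvector (iota M ∅)
    (Fermat.Agent.GAL.HK.iota_injective M ∅) ((algebraMap (integralClosure ℤ ℂ) ℂ).comp lam)
  obtain ⟨g, hg, hga⟩ := exists_eigenform_of_lat_eigenvector M v hv
    (fun ℓ => ((lam (gen M ℓ) : integralClosure ℤ ℂ) : ℂ))
    (by
      intro ℓ hℓ hℓM
      rw [← op_of_not_dvd M hℓ hℓM, ← iota_gen, hev]
      rfl)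
    (by
      intro r hr hrM
      rw [← op_of_dvd M hr hrM, ← iota_gen, hev]
      rfl)
  refine ⟨g, 𝔪', hg, h𝔪', ?_, ?_⟩
  · have hpk : (p : CuspForm.heckeAlgebra M 2 ∅) ∈ RingHom.ker ψ := by
      rw [RingHom.mem_ker, map_natCast, CharP.cast_eq_zero]
    rw [← hcomap, Ideal.mem_comap, map_natCast] at hpk
    exact hpk
  · intro ℓ b hℓ hb
    refine ⟨lam (gen M ℓ), (hga ℓ hℓ).symm, ?_⟩
    have hmem : gen M ℓ - (b : CuspForm.heckeAlgebra M 2 ∅) ∈ RingHom.ker ψ := by
      rw [RingHom.mem_ker, map_sub, map_intCast, hb, sub_self]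
    rw [← hcomap, Ideal.mem_comap, map_sub, map_intCast] at hmem
    exact hmem

end Fermat.Agent.MR.H
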