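import Fermat.Agent.MR.H.Char1
import Fermat.Agent.S41.Fin
import Fermat.Agent.S41.Input
import Fermat.Agent.S49.Lifting
import Fermat.Agent.GAL.HK.Eigen
import Fermat.Agent.TOR.NF.EigenOps

/-!
# MR / H / Char3 : eigenvectors in `K ⊗ Lat M`  ↔  characters of the Hecke algebra  ↔  eigenforms
-/

set_option autoImplicit false

open CongruenceSubgroup
open scoped TensorProduct
open Fermat.Agent.S41
open Fermat.Agent.GAL.HK (latT latU iota)

namespace Fermat.Agent.MR.H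

/-- every element of the Hecke algebra acts on a normalised eigenform by the scalar `a₁(t f)`. -/
theorem Char3_apply_eq_smul (M : ℕ) [NeZero M] (f : CuspForm (Gamma0 M) 2)
    (hf : f.IsNormalizedEigenform) (t : CuspForm.heckeAlgebra M 2 ∅) :
    (t : Module.End ℂ (CuspForm (Gamma0 M) 2)) f =
      ModularFormClass.qCoeff ((t : Module.End ℂ (CuspForm (Gamma0 M) 2)) f) 1 • f := by
  have hsc : ∀ t ∈ CuspForm.heckeAlgebra M 2 ∅, ∃ c : ℂ, t f = c • f := by
    intro t ht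
    induction ht using Algebra.adjoin_induction with
    | mem t ht =>
      rcases ht with ⟨ℓ, hℓ, hℓN, -, rfl⟩ | ⟨q, hqN, hq, -, rfl⟩
      · exact ⟨_, Fermat.Agent.TOR.NF.heckeTLin_eq_smul hf hℓ hℓN⟩
      · exact ⟨_, Fermat.Agent.TOR.NF.heckeULin_eq_smul hf hq hqN⟩
    | algebraMap n =>
      refine ⟨(n : ℂ), ?_⟩
      simp only [Module.algebraMap_end_apply, Int.cast_smul_eq_zsmul]
    | add t t' _ _ ih ih' =>
      obtain ⟨c, hc⟩ := ih
      obtain ⟨c', hc'⟩ := ih'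
      exact ⟨c + c', by rw [LinearMap.add_apply, hc, hc', add_smul]⟩
    | mul t t' _ _ ih ih' =>
      obtain ⟨c, hc⟩ := ih
      obtain ⟨c', hc'⟩ := ih'
      exact ⟨c' * c, by rw [Module.End.mul_apply, hc', map_smul, hc, smul_smul]⟩
  obtain ⟨c, hc⟩ := hsc t.1 t.2
  rw [hc, Fermat.Agent.S49.qc_smul, hf.qCoeff_one, mul_one]

/-- the character of the Hecke algebra attached to a normalised eigenform. -/
noncomputable def Char3_chi (M : ℕ) [NeZero M] (f : CuspForm (Gamma0 M) 2)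
    (hf : f.IsNormalizedEigenform) : CuspForm.heckeAlgebra M 2 ∅ →+* ℂ where
  toFun t := ModularFormClass.qCoeff ((t : Module.End ℂ (CuspForm (Gamma0 M) 2)) f) 1
  map_one' := hf.qCoeff_one
  map_mul' t t' := by
    show ModularFormClass.qCoeff ((t : Module.End ℂ (CuspForm (Gamma0 M) 2))
      ((t' : Module.End ℂ (CuspForm (Gamma0 M) 2)) f)) 1 = _
    conv_lhs => rw [Char3_apply_eq_smul M f hf t', map_smul, Fermat.Agent.S49.qc_smul]
    rw [mul_comm]
  map_zero' := by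
    show ModularFormClass.qCoeff (⇑((0 : Module.End ℂ (CuspForm (Gamma0 M) 2)) f)) 1 = 0
    have := Fermat.Agent.S49.qc_smul (0 : ℂ) f 1
    rwa [zero_smul, zero_mul] at this
  map_add' t t' := Fermat.Agent.S49.qc_add _ _ 1

theorem Char3_isIntegral (M : ℕ) [NeZero M] (t : CuspForm.heckeAlgebra M 2 ∅) :
    IsIntegral ℤ t := by
  have : Module.Finite ℤ (Module.End ℤ (Fermat.Agent.GAL.HK.Lat M)) :=
    Module.Finite.linearMap ℤ ℤ (Fermat.Agent.GAL.HK.Lat M) (Fermat.Agent.GAL.HK.Lat M)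
  have h1 : IsIntegral ℤ ((iota M ∅).toIntAlgHom t) := IsIntegral.of_finite ℤ _
  exact (isIntegral_algHom_iff (iota M ∅).toIntAlgHom
    (Fermat.Agent.GAL.HK.iota_injective M ∅)).1 h1

theorem Char3_chi_gen (M : ℕ) [NeZero M] (f : CuspForm (Gamma0 M) 2)
    (hf : f.IsNormalizedEigenform) {ℓ : ℕ} (hℓ : ℓ.Prime) :
    Char3_chi M f hf (gen M ℓ) = ModularFormClass.qCoeff f ℓ := by
  show ModularFormClass.qCoeff ((gen M ℓ : Module.End ℂ (CuspForm (Gamma0 M) 2)) f) 1 = _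
  by_cases h : ℓ ∣ M
  · rw [gen, dif_pos hℓ, dif_pos h, CuspForm.heckeAlgebra.coe_U,
      Fermat.Agent.TOR.NF.heckeULin_eq_smul hf hℓ h, Fermat.Agent.S49.qc_smul, hf.qCoeff_one,
      mul_one]
  · rw [gen, dif_pos hℓ, dif_neg h, CuspForm.heckeAlgebra.coe_T,
      Fermat.Agent.TOR.NF.heckeTLin_eq_smul hf hℓ h, Fermat.Agent.S49.qc_smul, hf.qCoeff_one,
      mul_one]

/-- (C5) INPUT of the Hecke side: a normalised eigenform gives an eigenvector for ALL Hecke operators,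
with eigenvalues the reductions of its coefficients.
PROOF: `f` is an eigenvector of every `t : heckeAlgebra M 2 ∅` (as in `S41.fin_exists_of_eigen`, by
`Algebra.adjoin_induction` from `hf`), with eigenvalue `χ t ∈ ℂ`; `χ` is a ring hom, its values are integral over `ℤ`
(`T` is finite over `ℤ`), so `χ : T →+* integralClosure ℤ ℂ`; `χ (gen M ℓ) = qCoeff f ℓ`
(`S49.qc_eq_of_heckeT_eq`, `S49.qc_eq_of_heckeU_eq`).  `ψ = φ.comp χ` and `occ_of_occChar`. -/
theorem occ_of_eigenform (M : ℕ) [NeZero M] (f : CuspForm (Gamma0 M) 2)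
    (hf : f.IsNormalizedEigenform) {K : Type*} [Field K] (φ : integralClosure ℤ ℂ →+* K) :
    ∃ χ : ℕ → integralClosure ℤ ℂ, (∀ ℓ : ℕ, ℓ.Prime → (χ ℓ : ℂ) = ModularFormClass.qCoeff f ℓ) ∧
      Occ K M Set.univ (fun ℓ => φ (χ ℓ)) := by
  let χ : CuspForm.heckeAlgebra M 2 ∅ →+* integralClosure ℤ ℂ :=
    (Char3_chi M f hf).codRestrict (integralClosure ℤ ℂ)
      (fun t => map_isIntegral_int (Char3_chi M f hf) (Char3_isIntegral M t))
  refine ⟨fun ℓ => χ (gen M ℓ), fun ℓ hℓ => Char3_chi_gen M f hf hℓ, ?_⟩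
  exact occ_of_occChar M Set.univ _ ⟨φ.comp χ, fun ℓ _ _ => rfl⟩

end Fermat.Agent.MR.H
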