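import Fermat.Agent.MR.H.Char1
import Fermat.Agent.MR.H.Char2
import Fermat.Agent.MR.H.Char3
import Fermat.Agent.S41.Fin
import Fermat.Agent.S41.Input
import Fermat.Agent.S49.Lifting
import Fermat.Agent.GAL.HK.Eigen

/-!
# MR / H / Char : eigenvectors in `K ⊗ Lat M`  ↔  characters of the Hecke algebra  ↔  eigenforms
-/

set_option autoImplicit false

open CongruenceSubgroup
open scoped TensorProduct
open Fermat.Agent.S41
open Fermat.Agent.GAL.HK (latT latU iota)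

namespace Fermat.Agent.MR.H

/-- (C4) OUTPUT of the Hecke side. -/
theorem exists_eigenform_of_occ {p : ℕ} (hp : p.Prime) {K : Type*} [Field K] [IsAlgClosed K]
    [CharP K p] (M : ℕ) [NeZero M] (P : Set ℕ) (b : ℕ → ℤ) (h : Occ K M P (fun ℓ => (b ℓ : K))) :
    ∃ (g : CuspForm (Gamma0 M) 2) (𝔪 : Ideal (integralClosure ℤ ℂ)),
      g.IsNormalizedEigenform ∧ 𝔪.IsMaximal ∧ (p : integralClosure ℤ ℂ) ∈ 𝔪 ∧
      ∀ ℓ ∈ P, ℓ.Prime →
        ∃ c : integralClosure ℤ ℂ, (c : ℂ) = ModularFormClass.qCoeff g ℓ ∧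
          c - (b ℓ : integralClosure ℤ ℂ) ∈ 𝔪 := by
  obtain ⟨ψ, hψ⟩ := occChar_of_occ M P _ h
  obtain ⟨g, 𝔪, hg, hm, hpm, H⟩ := exists_eigenform_of_char hp M ψ
  exact ⟨g, 𝔪, hg, hm, hpm, fun ℓ hℓ hℓp => H ℓ (b ℓ) hℓp (hψ ℓ hℓ hℓp)⟩

end Fermat.Agent.MR.H
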