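import Fermat.Agent.MR.H.Down1
import Fermat.Agent.MR.H.Down2
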