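import Fermat.Agent.MR.H.LA
import Fermat.Agent.MR.H.URange
import Fermat.Agent.S41.Wire.Ihara

/-!
# MR / H / Up : raising the level of an eigensystem, prescribing the `U_r`-eigenvalue
-/

set_option autoImplicit false

open CongruenceSubgroup
open scoped TensorProduct
open Fermat.Agent.S41
open Fermat.Agent.GAL.HK (latT latU)

namespace Fermat.Agent.MR.H

variable {K : Type*} [Field K]

/-! ### base change of the relations `op_*` -/

theorem Up_op_lres₁ (N r : ℕ) [NeZero N] [NeZero r] {ℓ : ℕ} (hℓ : ℓ.Prime)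
    (h : ℓ ∣ N ∨ ¬ ℓ ∣ N * r) (u : K ⊗[ℤ] S41.Lat N) :
    (op (N * r) ℓ).baseChange K ((lres₁ N r).baseChange K u)
      = (lres₁ N r).baseChange K ((op N ℓ).baseChange K u) := by
  induction u using TensorProduct.induction_on with
  | zero => simp
  | tmul c x => simp only [LinearMap.baseChange_tmul, op_lres₁ N r hℓ h]
  | add u v hu hv => simp only [map_add, hu, hv]

theorem Up_op_lres₂ (N r : ℕ) [NeZero N] [NeZero r] (hrN : Nat.Coprime r N) {ℓ : ℕ}
    (hℓ : ℓ.Prime) (h : ℓ ∣ N ∨ ¬ ℓ ∣ N * r) (u : K ⊗[ℤ] S41.Lat N) :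
    (op (N * r) ℓ).baseChange K ((lres₂ N r).baseChange K u)
      = (lres₂ N r).baseChange K ((op N ℓ).baseChange K u) := by
  induction u using TensorProduct.induction_on with
  | zero => simp
  | tmul c x => simp only [LinearMap.baseChange_tmul, op_lres₂ N r hrN hℓ h]
  | add u v hu hv => simp only [map_add, hu, hv]

theorem Up_op_self_lres₁ (N r : ℕ) [NeZero N] [NeZero r] (hr : r.Prime) (hrN : ¬ r ∣ N)
    (u : K ⊗[ℤ] S41.Lat N) :
    (op (N * r) r).baseChange K ((lres₁ N r).baseChange K u)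
      = (lres₁ N r).baseChange K ((op N r).baseChange K u) - (lres₂ N r).baseChange K u := by
  induction u using TensorProduct.induction_on with
  | zero => simp
  | tmul c x =>
    simp only [LinearMap.baseChange_tmul, op_self_lres₁ N r hr hrN, TensorProduct.tmul_sub]
  | add u v hu hv =>
    simp only [map_add, hu, hv]
    abel

theorem Up_op_self_lres₂ (N r : ℕ) [NeZero N] [NeZero r] (hr : r.Prime) (u : K ⊗[ℤ] S41.Lat N) :
    (op (N * r) r).baseChange K ((lres₂ N r).baseChange K u)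
      = (r : K) • (lres₁ N r).baseChange K u := by
  induction u using TensorProduct.induction_on with
  | zero => simp
  | tmul c x =>
    simp only [LinearMap.baseChange_tmul, op_self_lres₂ N r hr]
    rw [← natCast_zsmul, TensorProduct.tmul_smul, natCast_zsmul, Nat.cast_smul_eq_nsmul]
  | add u v hu hv => simp only [map_add, hu, hv, smul_add]

/-! ### the abstract computations -/

theorem Up_abs_self {V W : Type*} [AddCommGroup V] [Module K V] [AddCommGroup W] [Module K W]
    (A B : V →ₗ[K] W) (T : W →ₗ[K] W) (S : V →ₗ[K] V) (x : V) (c ρ α : K)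
    (h1 : T (A x) = A (S x) - B x) (h2 : T (B x) = ρ • A x) (hS : S x = c • x)
    (hα : α ^ 2 - c * α + ρ = 0) : T (α • A x - B x) = α • (α • A x - B x) := by
  rw [map_sub, map_smul, h1, h2, hS, map_smul]
  have hα' : α * α = c * α - ρ := by linear_combination hα
  rw [smul_sub, smul_sub, smul_smul, smul_smul, hα', sub_smul, mul_comm α c]
  abel

theorem Up_abs_other {V W : Type*} [AddCommGroup V] [Module K V] [AddCommGroup W] [Module K W]
    (A B : V →ₗ[K] W) (T : W →ₗ[K] W) (S : V →ₗ[K] V) (x : V) (c α : K)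
    (h1 : T (A x) = A (S x)) (h2 : T (B x) = B (S x)) (hS : S x = c • x) :
    T (α • A x - B x) = c • (α • A x - B x) := by
  rw [map_sub, map_smul, h1, h2, hS, map_smul, map_smul, smul_sub, smul_comm]

theorem Up_abs_one {V W : Type*} [AddCommGroup V] [Module K V] [AddCommGroup W] [Module K W]
    (A : V →ₗ[K] W) (T : W →ₗ[K] W) (S : V →ₗ[K] V) (x : V) (c : K)
    (h1 : T (A x) = A (S x)) (hS : S x = c • x) : T (A x) = c • A x := by
  rw [h1, hS, map_smul]

/-- **(U1)** `r ∣ N` : a system of level `N` occurs at level `N r` (`x ↦ α₁ x`, injective by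
`lres₁_baseChange_injective_of_dvd`, equivariant by `op_lres₁`). -/
theorem occ_up_dvd (N r : ℕ) [NeZero N] (hr : r.Prime) (hrN : r ∣ N) (P : Set ℕ) (a : ℕ → K)
    (h : Occ K N P a) : Occ K (N * r) P a := by
  have : NeZero r := ⟨hr.ne_zero⟩
  obtain ⟨x, hx, hE⟩ := h
  refine ⟨(lres₁ N r).baseChange K x, ?_, ?_⟩
  · intro h0
    apply hx
    apply lres₁_baseChange_injective_of_dvd N r hr hrN K
    rw [h0, map_zero]
  · intro ℓ hℓP hℓ
    have hc : ℓ ∣ N ∨ ¬ ℓ ∣ N * r := by
      by_cases h1 : ℓ ∣ N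
      · exact Or.inl h1
      · refine Or.inr fun h2 => ?_
        rcases (Nat.Prime.dvd_mul hℓ).1 h2 with h3 | h3
        · exact h1 h3
        · exact h1 (h3.trans hrN)
    exact Up_abs_one _ _ _ x (a ℓ) (Up_op_lres₁ N r hℓ hc x) (hE ℓ hℓP hℓ)

/-- **(U2)** `r ∤ N` : `r`-stabilisation.  `y = α • α₁ x - α₂ x`, `U_r y = α • y` as `α² = a_r α - r`
(`op_self_lres₁`, `op_self_lres₂`); the other operators by `op_lres₁`, `op_lres₂`; `y ≠ 0` by
`S41.hEK_ihara` (with `u₁ = α • x`, `u₂ = - x`: `T_l² x = (l+1)² x`, against `hE`). -/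
theorem occ_up_stab (N r : ℕ) [NeZero N] (hr : r.Prime) (hrN : ¬ r ∣ N) (P : Set ℕ) (a : ℕ → K)
    (hrP : r ∈ P) (α : K) (hα : α ^ 2 - a r * α + (r : K) = 0)
    (l : ℕ) (hl : l.Prime) (hl2 : l ≠ 2) (hlN : ¬ l ∣ N) (hlr : l ≠ r) (hlP : l ∈ P)
    (hE : a l ^ 2 ≠ ((l : K) + 1) ^ 2) (h : Occ K N P a) :
    Occ K (N * r) P (Function.update a r α) := by
  have : NeZero r := ⟨hr.ne_zero⟩
  have hcop : Nat.Coprime r N := (Nat.Prime.coprime_iff_not_dvd hr).2 hrN
  obtain ⟨x, hx, hEig⟩ := h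
  refine ⟨α • (lres₁ N r).baseChange K x - (lres₂ N r).baseChange K x, ?_, ?_⟩
  · intro h0
    have h1 : (lres₁ N r).baseChange K (α • x) + (lres₂ N r).baseChange K (-x) = 0 := by
      rw [map_smul, map_neg, ← sub_eq_add_neg]
      exact h0
    have h2 := (hEK_ihara hr hrN hl hl2 hlN hlr K (α • x) (-x) h1).2
    have h3 : (latT N hl hlN).baseChange K x = a l • x := by
      rw [← op_of_not_dvd N hl hlN]
      exact hEig l hlP hl
    rw [map_neg, map_neg, h3, map_smul, h3, smul_neg, neg_inj, smul_smul] at h2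
    have h4 : (a l * a l - ((((l : ℤ) + 1) ^ 2 : ℤ) : K)) • x = 0 := by
      rw [sub_smul, h2, sub_self]
    rcases smul_eq_zero.1 h4 with h5 | h5
    · apply hE
      have h6 := sub_eq_zero.1 h5
      rw [pow_two, h6]
      push_cast
      ring
    · exact hx h5
  · intro ℓ hℓP hℓ
    by_cases hℓr : ℓ = r
    · rw [hℓr, Function.update_self]
      exact Up_abs_self _ _ _ _ x (a r) (r : K) α (Up_op_self_lres₁ N r hr hrN x)
        (Up_op_self_lres₂ N r hr x) (hEig r hrP hr) hα
    · have hc : ℓ ∣ N ∨ ¬ ℓ ∣ N * r := by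
        by_cases h1 : ℓ ∣ N
        · exact Or.inl h1
        · refine Or.inr fun h2 => ?_
          rcases (Nat.Prime.dvd_mul hℓ).1 h2 with h3 | h3
          · exact h1 h3
          · exact hℓr ((Nat.prime_dvd_prime_iff_eq hℓ hr).1 h3)
      have hu : Function.update a r α ℓ = a ℓ := Function.update_of_ne hℓr _ _
      have key := Up_abs_other _ _ _ _ x (a ℓ) α (Up_op_lres₁ N r hℓ hc x)
        (Up_op_lres₂ N r hcop hℓ hc x) (hEig ℓ hℓP hℓ)
      exact key.trans (congrArg (fun c : K => c • (α • (lres₁ N r).baseChange K x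
        - (lres₂ N r).baseChange K x)) hu.symm)

end Fermat.Agent.MR.H
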