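import Fermat.Statements.S44
import Fermat.Agent.MR.H.Down
import Fermat.Agent.MR.H.Up
import Fermat.Agent.MR.H.Char
import Fermat.Agent.S41.G.NonEis
import Fermat.Agent.GR.Asm.ResField

/-!
# MR / H / Top1 : S44 from the single contract `GeomOcc` at ADMISSIBLE levels
-/

set_option autoImplicit false

open CongruenceSubgroup WeierstrassCurve WeierstrassCurve.Affine WeierstrassCurve.Affine.Point
open scoped TensorProduct
open Fermat.Agent.S41

namespace Fermat.Agent.MR.H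

/-- the good primes of `W` not dividing `L`. -/
def goodSet (W : WeierstrassCurve ℤ) (L : ℕ) : Set ℕ := {ℓ | ℓ.Prime ∧ W.IsGoodPrimeFor ℓ ∧ ¬ ℓ ∣ L}

/-- **THE CONTRACT OF (geometry + E-side + Galois half of the Hecke side)**, at admissible EVEN levels only.
Given: a system `a` of eigenvalues of ALL Hecke operators (`T_ℓ`, `ℓ ∤ N' p`; `U_r`, `r ∣ N'`; `U_p`) occurring at level
`N' p`, congruent to `W` at the good primes, and an integral polynomial `R` killing the `U_2`-eigenvalue `a 2`.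
Then: the system `(ap ℓ)_{ℓ good}`, together with SOME root `α` of `R` as `U_2`-eigenvalue, occurs at level `N'`. -/
def GeomOcc (p : ℕ) (W : WeierstrassCurve ℤ) (K : Type) [Field K] : Prop :=
  ∀ (N' : ℕ) (a : ℕ → K) (R : Polynomial ℤ), 0 < N' → ¬ p ∣ N' → Fermat.Agent.GAL.AdmLevel N' → 2 ∣ N' →
    (∀ ℓ ∈ goodSet W (N' * p), a ℓ = ((W.apOfModel ℓ : ℤ) : K)) →
    Polynomial.aeval (a 2) R = 0 →
    Occ K (N' * p) Set.univ a →
    ∃ α : K, Polynomial.aeval α R = 0 ∧
      Occ K N' (insert 2 (goodSet W (N' * p))) (Function.update a 2 α)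

/-- (ALG) an integral polynomial isolating the conjugates of `α`.
PROOF: `α` is integral over `ℤ`, hence algebraic over `ZMod p` (`ZMod.algebra K p`); `m = minpoly (ZMod p) α`, `R` a lift of `m` to
`ℤ[X]` (`Polynomial.map_surjective`); `aeval α' R = aeval α' m`.  If `c : ZMod p` is a root of the irreducible monic `m` then
`m = X - C c` and `α = c`: this gives `α' ≠ 0`, `α' ≠ ±1`.  If `α² - b α + 2 = 0` then `m ∣ X² - b X + 2`. -/
theorem exists_poly_of_isIntegral {p : ℕ} (hp : p.Prime) (K : Type) [Field K] [CharP K p] (α : K)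
    (hα : IsIntegral ℤ α) (h0 : α ≠ 0) (h1 : α ^ 2 ≠ 1) :
    ∃ R : Polynomial ℤ, Polynomial.aeval α R = 0 ∧ ∀ α' : K, Polynomial.aeval α' R = 0 →
      α' ≠ 0 ∧ α' ^ 2 ≠ 1 ∧ ∀ b : ℤ, α ^ 2 - (b : K) * α + 2 = 0 → α' ^ 2 - (b : K) * α' + 2 = 0 := by
  have : Fact p.Prime := ⟨hp⟩
  let _ : Algebra (ZMod p) K := ZMod.algebra K p
  have hα' : IsIntegral (ZMod p) α := hα.tower_top
  obtain ⟨R, hR⟩ := Polynomial.map_surjective (Int.castRingHom (ZMod p)) ZMod.intCast_surjective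
    (minpoly (ZMod p) α)
  have hev : ∀ x : K, Polynomial.aeval x R = Polynomial.aeval x (minpoly (ZMod p) α) := by
    intro x
    rw [← hR]
    exact (Polynomial.aeval_map_algebraMap (ZMod p) x R).symm
  refine ⟨R, by rw [hev, minpoly.aeval], fun α' hα'0 => ?_⟩
  rw [hev] at hα'0
  have hmin : minpoly (ZMod p) α = minpoly (ZMod p) α' :=
    minpoly.eq_of_irreducible_of_monic (minpoly.irreducible hα') hα'0 (minpoly.monic hα')
  have key : ∀ g : Polynomial (ZMod p), Polynomial.aeval α g = 0 ↔ Polynomial.aeval α' g = 0 := by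
    intro g
    rw [← minpoly.dvd_iff, ← minpoly.dvd_iff, hmin]
  refine ⟨fun h => h0 ?_, fun h => h1 ?_, fun b hb => ?_⟩
  · have := (key Polynomial.X).mpr (by simpa using h)
    simpa using this
  · have := (key (Polynomial.X ^ 2 - 1)).mpr (by simp [h])
    simpa [sub_eq_zero] using this
  · have := (key (Polynomial.X ^ 2 - Polynomial.C (b : ZMod p) * Polynomial.X + Polynomial.C 2)).mp
      (by simpa [map_ofNat] using hb)
    simpa [map_ofNat] using this

/-- a maximal ideal of `ℤ̄` over `p` is the kernel of a ring hom to any algebraically closed field of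
characteristic `p` (`ℤ̄ / 𝔪` is algebraic over `ZMod p`; `IsAlgClosed.lift`). -/
theorem exists_ringHom_of_isMaximal {p : ℕ} (hp : p.Prime) (𝔪 : Ideal (integralClosure ℤ ℂ))
    (hmax : 𝔪.IsMaximal) (hpm : (p : integralClosure ℤ ℂ) ∈ 𝔪) (K : Type) [Field K] [IsAlgClosed K]
    [CharP K p] : ∃ φ : integralClosure ℤ ℂ →+* K, ∀ z ∈ 𝔪, φ z = 0 := by
  have : Fact p.Prime := ⟨hp⟩
  let _ : Field (integralClosure ℤ ℂ ⧸ 𝔪) := Ideal.Quotient.field 𝔪
  have hp0 : ((p : ℕ) : integralClosure ℤ ℂ ⧸ 𝔪) = 0 := by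
    have := Ideal.Quotient.eq_zero_iff_mem.mpr hpm
    simpa using this
  have hchar : CharP (integralClosure ℤ ℂ ⧸ 𝔪) p := (CharP.charP_iff_prime_eq_zero hp).2 hp0
  let _ : Algebra (ZMod p) (integralClosure ℤ ℂ ⧸ 𝔪) := ZMod.algebra _ p
  let _ : Algebra (ZMod p) K := ZMod.algebra K p
  have halg : Algebra.IsAlgebraic (ZMod p) (integralClosure ℤ ℂ ⧸ 𝔪) := by
    refine ⟨fun x => ?_⟩
    obtain ⟨z, rfl⟩ := Ideal.Quotient.mk_surjective x
    have hz : IsIntegral ℤ z := Algebra.IsIntegral.isIntegral z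
    have hz' : IsIntegral ℤ (Ideal.Quotient.mk 𝔪 z) := hz.map (Ideal.Quotient.mkₐ ℤ 𝔪)
    exact (hz'.tower_top (A := ZMod p)).isAlgebraic
  obtain ⟨f⟩ : Nonempty ((integralClosure ℤ ℂ ⧸ 𝔪) →ₐ[ZMod p] K) :=
    IntermediateField.nonempty_algHom_of_adjoin_splits
      (fun x _ ↦ ⟨Algebra.IsIntegral.isIntegral x, IsAlgClosed.splits _⟩)
      (IntermediateField.adjoin_univ (ZMod p) (integralClosure ℤ ℂ ⧸ 𝔪))
  refine ⟨f.toRingHom.comp (Ideal.Quotient.mk 𝔪), fun z hz => ?_⟩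
  rw [RingHom.comp_apply, Ideal.Quotient.eq_zero_iff_mem.mpr hz, _root_.map_zero]

end Fermat.Agent.MR.H
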