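import Fermat.Statements.S44
import Fermat.Agent.MR.H.Top1
import Fermat.Agent.MR.H.Down
import Fermat.Agent.MR.H.Up
import Fermat.Agent.MR.H.Char
import Fermat.Agent.S41.G.NonEis
import Fermat.Agent.GR.Asm.ResField

/-!
# MR / H / Top2 : S44 from the single contract `GeomOcc` at ADMISSIBLE levels
-/

set_option autoImplicit false

open CongruenceSubgroup WeierstrassCurve WeierstrassCurve.Affine WeierstrassCurve.Affine.Point
open scoped TensorProduct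
open Fermat.Agent.S41

namespace Fermat.Agent.MR.H

/-- a root `α` of `X² - c X + 2` with `α² ≠ 1` (`3 ≠ 0` in `K`). -/
theorem exists_root_sq_ne_one {K : Type*} [Field K] [IsAlgClosed K] (h2 : (2 : K) ≠ 0)
    (h3 : (3 : K) ≠ 0) (c : K) : ∃ α : K, α ^ 2 - c * α + 2 = 0 ∧ α ^ 2 ≠ 1 ∧ α ≠ 0 := by
  obtain ⟨s, hs⟩ := IsAlgClosed.exists_pow_nat_eq (c ^ 2 - 8) (n := 2) two_pos
  have hα : ((c + s) / 2) ^ 2 - c * ((c + s) / 2) + 2 = 0 := by
    field_simp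
    linear_combination hs
  have hβ : ((c - s) / 2) ^ 2 - c * ((c - s) / 2) + 2 = 0 := by
    field_simp
    linear_combination hs
  have hαβ : ((c + s) / 2) * ((c - s) / 2) = 2 := by
    field_simp
    linear_combination -hs
  have hne : ∀ x : K, x ^ 2 - c * x + 2 = 0 → x ≠ 0 := by
    rintro x hx rfl
    apply h2
    simpa using hx
  by_cases h : ((c + s) / 2) ^ 2 = 1
  · refine ⟨(c - s) / 2, hβ, fun h' => h3 ?_, hne _ hβ⟩
    have h4 : ((c + s) / 2 * ((c - s) / 2)) ^ 2 = 1 := by rw [mul_pow, h, h', one_mul]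
    rw [hαβ] at h4
    linear_combination h4
  · exact ⟨_, hα, h, hne _ hα⟩

/-- a root of a monic quadratic polynomial with integral coefficients is integral. -/
theorem isIntegral_of_quadratic {K : Type*} [Field K] {c α : K} (hc : IsIntegral ℤ c)
    (hα : α ^ 2 - c * α + 2 = 0) : IsIntegral ℤ α := by
  have h1 : IsIntegral (integralClosure ℤ K) α := by
    refine ⟨Polynomial.X ^ 2 - Polynomial.C (⟨c, hc⟩ : integralClosure ℤ K) * Polynomial.X +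
      Polynomial.C 2, ?_, ?_⟩
    · monicity!
    · simp only [Polynomial.eval₂_add, Polynomial.eval₂_sub, Polynomial.eval₂_mul,
        Polynomial.eval₂_pow, Polynomial.eval₂_X, Polynomial.eval₂_C]
      have e1 : algebraMap (integralClosure ℤ K) K ⟨c, hc⟩ = c := rfl
      rw [e1, map_ofNat]
      exact hα
  exact isIntegral_trans α h1

/-- **aux level glue** (`p ≥ 5`): removal of `p` from an arbitrary level `M' p`, `4 ∤ M'`, from `GeomOcc`.
PROOF. `φ` from `exists_ringHom_of_isMaximal`; `χ`, `a₀ = φ ∘ χ`, `Occ K (M' p) univ a₀` from `occ_of_eigenform`;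
`a₀ ℓ = ap ℓ` for `ℓ` good, `ℓ ∤ M' p` (`hcong`, `φ` kills `𝔪`; `c = χ ℓ` by injectivity of the coercion to `ℂ`).
CASE `2 ∤ M'`: `α` a root of `X² - a₀ 2 X + 2` in `K` with `α² ≠ 1` (the two roots have product `2`; if both squares are `1`
then `4 = 1` in `K`, `p = 3`); `α ≠ 0`; `α` is integral over `ℤ` (`a₀ 2 = φ (χ 2)` is).  `R` from `exists_poly_of_isIntegral`.
`l` from `S41.G.exists_nonEisenstein_prime` (`T = insert 2 (M' p).primeFactors`).
`occ_up_stab (M' p) 2`, `occ_up_dvd (M' p 2) 2`, `Occ.of_eq` (`M' p 2 2 = (M' 2 2) p`), `hG` at `N' = M' 2 2`: `α'`;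
`occ_down_dvd (M' 2) 2` (`α' ≠ 0`), `occ_down_new M' 2` (`α'² ≠ 1`): `T_2`-eigenvalue `α' + 2 / α'`, which is `ap 2` if `W` is good at `2`
(then `a₀ 2 = (ap 2 : K)`, so `α'² - ap 2 α' + 2 = 0`).
CASE `2 ∣ M'`, `M' = M'' 2`, `2 ∤ M''`: `a₀ 2 ≠ 0` by `eig_U_ne_zero (M'' p) 2`; `R` := a lift of `minpoly`, or simply use
`exists_poly_of_isIntegral` if `a₀ 2 ^ 2 ≠ 1` and `R = X - 1` resp. `X + 1` if `a₀ 2 = ±1` (only `α' ≠ 0` is needed here);
`occ_up_dvd (M' p) 2`, `hG` at `N' = M' 2`, `occ_down_dvd M' 2`.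
END: `Occ.mono`, `Occ.congr` to `P = {ℓ | good, ℓ ∤ M', ℓ ≠ p}`, `b = apOfModel`; `exists_eigenform_of_occ`. -/
theorem remove_p_of_geomOcc (E : WeierstrassCurve ℚ) [E.IsElliptic] {W : WeierstrassCurve ℤ}
    (hW : W.IsIntegralModelOf E) {p M' : ℕ} (hp : p.Prime) (hp5 : 5 ≤ p) (hM' : 0 < M')
    (hpM' : ¬ p ∣ M') (h4 : ¬ 4 ∣ M')
    (hirr : GaloisRepIsIrreducible (K := AlgebraicClosure ℚ) ℚ E p)
    (K : Type) [Field K] [IsAlgClosed K] [CharP K p] (hG : GeomOcc p W K)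
    (f : CuspForm (Gamma0 (M' * p)) 2) (𝔪 : Ideal (integralClosure ℤ ℂ))
    (hf : f.IsNormalizedEigenform) (hmax : 𝔪.IsMaximal) (hpm : (p : integralClosure ℤ ℂ) ∈ 𝔪)
    (hcong : ∀ ℓ : ℕ, ℓ.Prime → W.IsGoodPrimeFor ℓ → ¬ ℓ ∣ M' * p → ℓ ≠ p →
      ∃ a : integralClosure ℤ ℂ, (a : ℂ) = ModularFormClass.qCoeff f ℓ ∧
        a - ((W.apOfModel ℓ : ℤ) : integralClosure ℤ ℂ) ∈ 𝔪) :
    ∃ (g : CuspForm (Gamma0 M') 2) (𝔪' : Ideal (integralClosure ℤ ℂ)),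
      g.IsNormalizedEigenform ∧ 𝔪'.IsMaximal ∧ (p : integralClosure ℤ ℂ) ∈ 𝔪' ∧
      ∀ ℓ : ℕ, ℓ.Prime → W.IsGoodPrimeFor ℓ → ¬ ℓ ∣ M' → ℓ ≠ p →
        ∃ a : integralClosure ℤ ℂ, (a : ℂ) = ModularFormClass.qCoeff g ℓ ∧
          a - ((W.apOfModel ℓ : ℤ) : integralClosure ℤ ℂ) ∈ 𝔪' := by
  classical
  have hp2 : p ≠ 2 := by omega
  have : NeZero M' := ⟨hM'.ne'⟩
  have : NeZero (M' * p) := ⟨Nat.mul_ne_zero hM'.ne' hp.ne_zero⟩
  have : Fact p.Prime := ⟨hp⟩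
  have hcast : ∀ n : ℕ, n ≠ 0 → n < p → (n : K) ≠ 0 := by
    intro n hn hlt h0
    rw [CharP.cast_eq_zero_iff K p] at h0
    exact hn (Nat.eq_zero_of_dvd_of_lt h0 hlt)
  have h2K : (2 : K) ≠ 0 := by
    have := hcast 2 two_ne_zero (by omega)
    exact_mod_cast this
  have h3K : (3 : K) ≠ 0 := by
    have := hcast 3 (by norm_num) (by omega)
    exact_mod_cast this
  have h2K' : ((2 : ℕ) : K) ≠ 0 := by exact_mod_cast h2K
  obtain ⟨φ, hφ⟩ := exists_ringHom_of_isMaximal hp 𝔪 hmax hpm K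
  obtain ⟨χ, hχ, hocc⟩ := occ_of_eigenform (M' * p) f hf φ
  set a₀ : ℕ → K := fun ℓ => φ (χ ℓ) with ha₀def
  have ha₀ : ∀ ℓ : ℕ, ℓ.Prime → W.IsGoodPrimeFor ℓ → ¬ ℓ ∣ M' * p →
      a₀ ℓ = ((W.apOfModel ℓ : ℤ) : K) := by
    intro ℓ hℓ hgood hℓN
    have hℓp : ℓ ≠ p := by
      rintro rfl
      exact hℓN (Dvd.intro_left M' rfl)
    obtain ⟨c, hc, hc'⟩ := hcong ℓ hℓ hgood hℓN hℓp
    have hcχ : c = χ ℓ := Subtype.ext (hc.trans (hχ ℓ hℓ).symm)
    have := hφ _ hc'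
    rw [map_sub, map_intCast, sub_eq_zero, hcχ] at this
    exact this
  have hint : ∀ ℓ, IsIntegral ℤ (a₀ ℓ) := by
    intro ℓ
    have h1 : IsIntegral ℤ (χ ℓ) := by
      have := (χ ℓ).2
      exact (isIntegral_algebraMap_iff (A := integralClosure ℤ ℂ) (B := ℂ)
        Subtype.val_injective).1 this
    exact h1.map (φ.toIntAlgHom)
  -- the final set of primes
  set Pf : Set ℕ := {ℓ | ℓ.Prime ∧ W.IsGoodPrimeFor ℓ ∧ ¬ ℓ ∣ M' ∧ ℓ ≠ p} with hPf
  suffices hfin : Occ K M' Pf (fun ℓ => ((W.apOfModel ℓ : ℤ) : K)) by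
    obtain ⟨g, 𝔪', hg, hm, hpm', H⟩ := exists_eigenform_of_occ hp M' Pf (fun ℓ => W.apOfModel ℓ) hfin
    exact ⟨g, 𝔪', hg, hm, hpm', fun ℓ hℓ hgood hℓM hℓp => H ℓ ⟨hℓ, hgood, hℓM, hℓp⟩ hℓ⟩
  have hdvd4 : ∀ {ℓ L : ℕ}, ℓ.Prime → ℓ ∣ L * 2 * 2 * p → ℓ ∣ L ∨ ℓ = 2 ∨ ℓ = p := by
    intro ℓ L hℓ h
    rcases hℓ.dvd_mul.1 h with h | h
    · rcases hℓ.dvd_mul.1 h with h | h
      · rcases hℓ.dvd_mul.1 h with h | h
        · exact Or.inl h
        · exact Or.inr (Or.inl ((Nat.prime_dvd_prime_iff_eq hℓ Nat.prime_two).1 h))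
      · exact Or.inr (Or.inl ((Nat.prime_dvd_prime_iff_eq hℓ Nat.prime_two).1 h))
    · exact Or.inr (Or.inr ((Nat.prime_dvd_prime_iff_eq hℓ hp).1 h))
  have hp_not : ∀ L : ℕ, ¬ p ∣ L → ¬ p ∣ L * 2 * 2 := by
    intro L hL h
    rcases hp.dvd_mul.1 h with h | h
    · rcases hp.dvd_mul.1 h with h | h
      · exact hL h
      · exact hp2 ((Nat.prime_dvd_prime_iff_eq hp Nat.prime_two).1 h)
    · exact hp2 ((Nat.prime_dvd_prime_iff_eq hp Nat.prime_two).1 h)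
  by_cases h2M : 2 ∣ M'
  · -- CASE `2 ∣ M'`
    obtain ⟨M'', rfl⟩ : ∃ M'', M' = M'' * 2 := ⟨M' / 2, (Nat.div_mul_cancel h2M).symm⟩
    have h2M'' : ¬ 2 ∣ M'' := by
      rintro ⟨c, rfl⟩
      exact h4 ⟨c, by ring⟩
    have hM''0 : M'' ≠ 0 := by
      rintro rfl
      simp at hM'
    have : NeZero (M'' * p) := ⟨Nat.mul_ne_zero hM''0 hp.ne_zero⟩
    have : NeZero (M'' * 2) := ⟨Nat.mul_ne_zero hM''0 two_ne_zero⟩
    have h2Mp : ¬ 2 ∣ M'' * p := by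
      intro h
      rcases Nat.prime_two.dvd_mul.1 h with h | h
      · exact h2M'' h
      · exact hp2 ((Nat.prime_dvd_prime_iff_eq Nat.prime_two hp).1 h).symm
    have ha2 : a₀ 2 ≠ 0 := by
      obtain ⟨x, hx, hxe⟩ := hocc.of_eq (show M'' * 2 * p = M'' * p * 2 by ring)
      exact eig_U_ne_zero (M'' * p) 2 Nat.prime_two h2Mp h2K' Set.univ a₀ (Set.mem_univ _) x hx hxe
    obtain ⟨R, hR, hR'⟩ : ∃ R : Polynomial ℤ, Polynomial.aeval (a₀ 2) R = 0 ∧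
        ∀ α' : K, Polynomial.aeval α' R = 0 → α' ≠ 0 := by
      by_cases h1 : a₀ 2 ^ 2 = 1
      · refine ⟨Polynomial.X ^ 2 - 1, by simp [h1], ?_⟩
        rintro α' hα' rfl
        simp at hα'
      · obtain ⟨R, hR, hR'⟩ := exists_poly_of_isIntegral hp K (a₀ 2) (hint 2) ha2 h1
        exact ⟨R, hR, fun α' hα' => (hR' α' hα').1⟩
    have h1 := (occ_up_dvd (M'' * 2 * p) 2 Nat.prime_two
      (Dvd.dvd.mul_right (Dvd.intro_left M'' rfl) p) Set.univ a₀ hocc).of_eq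
      (show M'' * 2 * p * 2 = M'' * 2 * 2 * p by ring)
    obtain ⟨α', hα', h2⟩ := hG (M'' * 2 * 2) a₀ R (by positivity) (hp_not M'' (fun h => hpM' (h.mul_right 2)))
      (Or.inl ⟨M'', by ring⟩) (Dvd.intro_left _ rfl)
      (fun ℓ hℓ => ha₀ ℓ hℓ.1 hℓ.2.1 (fun h => hℓ.2.2 (by
        obtain ⟨c, hc⟩ := h
        exact ⟨c * 2, by rw [show M'' * 2 * 2 * p = M'' * 2 * p * 2 by ring, hc]; ring⟩)))
      hR h1
    have h3 := occ_down_dvd (M'' * 2) 2 Nat.prime_two (Dvd.intro_left M'' rfl) _ _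
      (Set.mem_insert _ _) (by rw [Function.update_self]; exact hR' α' hα') h2
    refine (h3.mono ?_).congr ?_
    · rintro ℓ ⟨hℓ, hgood, hℓM, hℓp⟩
      refine Set.mem_insert_of_mem _ ⟨hℓ, hgood, fun h => ?_⟩
      rcases hdvd4 hℓ h with h | h | h
      · exact hℓM (h.mul_right 2)
      · exact hℓM (h ▸ Dvd.intro_left M'' rfl)
      · exact hℓp h
    · rintro ℓ ⟨hℓ, hgood, hℓM, hℓp⟩
      have hℓ2 : ℓ ≠ 2 := by
        rintro rfl
        exact hℓM (Dvd.intro_left M'' rfl)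
      rw [Function.update_of_ne hℓ2]
      refine ha₀ ℓ hℓ hgood (fun h => ?_)
      rcases hℓ.dvd_mul.1 h with h | h
      · exact hℓM h
      · exact hℓp ((Nat.prime_dvd_prime_iff_eq hℓ hp).1 h)
  · -- CASE `2 ∤ M'`
    have : NeZero (M' * 2) := ⟨Nat.mul_ne_zero hM'.ne' two_ne_zero⟩
    have : NeZero (M' * p * 2) := ⟨Nat.mul_ne_zero (NeZero.ne _) two_ne_zero⟩
    have h2Mp : ¬ 2 ∣ M' * p := by
      intro h
      rcases Nat.prime_two.dvd_mul.1 h with h | h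
      · exact h2M h
      · exact hp2 ((Nat.prime_dvd_prime_iff_eq Nat.prime_two hp).1 h).symm
    obtain ⟨α, hα, hα1, hα0⟩ := exists_root_sq_ne_one h2K h3K (a₀ 2)
    obtain ⟨R, hR, hR'⟩ := exists_poly_of_isIntegral hp K α
      (isIntegral_of_quadratic (hint 2) hα) hα0 hα1
    obtain ⟨l, hl, hlT, hlgood, hlE⟩ := Fermat.Agent.S41.G.exists_nonEisenstein_prime E hW hp hp2 hirr
      (insert 2 (M' * p).primeFactors)
    simp only [Finset.mem_insert, not_or] at hlT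
    obtain ⟨hl2, hlN'⟩ := hlT
    have hlN : ¬ l ∣ M' * p := fun h => hlN' (Nat.mem_primeFactors.2 ⟨hl, h, NeZero.ne _⟩)
    have hE : a₀ l ^ 2 ≠ ((l : K) + 1) ^ 2 := by
      intro h
      apply hlE
      rw [← CharP.intCast_eq_zero_iff K p]
      push_cast
      rw [← ha₀ l hl hlgood hlN, h]
      ring
    have h1 := occ_up_stab (M' * p) 2 Nat.prime_two h2Mp Set.univ a₀ (Set.mem_univ _) α
      (by push_cast; exact hα) l hl hl2 hlN hl2 (Set.mem_univ _) hE hocc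
    have h2 := (occ_up_dvd (M' * p * 2) 2 Nat.prime_two (Dvd.intro_left _ rfl) Set.univ _ h1).of_eq
      (show M' * p * 2 * 2 = M' * 2 * 2 * p by ring)
    obtain ⟨α', hα', h3⟩ := hG (M' * 2 * 2) (Function.update a₀ 2 α) R (by positivity)
      (hp_not M' hpM') (Or.inl ⟨M', by ring⟩) (Dvd.intro_left _ rfl)
      (fun ℓ hℓ => by
        have hℓ2 : ℓ ≠ 2 := by
          rintro rfl
          exact hℓ.2.2 (Dvd.dvd.mul_right (Dvd.intro_left _ rfl) p)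
        rw [Function.update_of_ne hℓ2]
        refine ha₀ ℓ hℓ.1 hℓ.2.1 (fun h => hℓ.2.2 ?_)
        obtain ⟨c, hc⟩ := h
        exact ⟨c * 4, by rw [show M' * 2 * 2 * p = M' * p * 4 by ring, hc]; ring⟩)
      (by rw [Function.update_self]; exact hR) h2
    obtain ⟨hα'0, hα'1, hα'q⟩ := hR' α' hα'
    have h4' := occ_down_dvd (M' * 2) 2 Nat.prime_two (Dvd.intro_left M' rfl) _ _
      (Set.mem_insert _ _) (by rw [Function.update_self]; exact hα'0) h3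
    have h5 := occ_down_new M' 2 Nat.prime_two h2M h2K' _ _ (Set.mem_insert _ _)
      (by rw [Function.update_self]; exact hα'1) h4'
    refine (h5.mono ?_).congr ?_
    · rintro ℓ ⟨hℓ, hgood, hℓM, hℓp⟩
      by_cases hℓ2 : ℓ = 2
      · exact hℓ2 ▸ Set.mem_insert _ _
      · refine Set.mem_insert_of_mem _ ⟨hℓ, hgood, fun h => ?_⟩
        rcases hdvd4 hℓ h with h | h | h
        · exact hℓM h
        · exact hℓ2 h
        · exact hℓp h
    · rintro ℓ ⟨hℓ, hgood, hℓM, hℓp⟩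
      have hℓN : ¬ ℓ ∣ M' * p := by
        intro h
        rcases hℓ.dvd_mul.1 h with h | h
        · exact hℓM h
        · exact hℓp ((Nat.prime_dvd_prime_iff_eq hℓ hp).1 h)
      by_cases hℓ2 : ℓ = 2
      · subst hℓ2
        rw [Function.update_self, Function.update_self]
        have h6 := hα'q (W.apOfModel 2) (by rw [← ha₀ 2 hℓ hgood hℓN]; exact hα)
        field_simp
        push_cast
        linear_combination h6
      · rw [Function.update_of_ne hℓ2, Function.update_of_ne hℓ2, Function.update_of_ne hℓ2]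
        exact ha₀ ℓ hℓ hgood hℓN

end Fermat.Agent.MR.H
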