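import Fermat.Statements.S44
import Fermat.Agent.MR.H.Top2
import Fermat.Agent.MR.H.Down
import Fermat.Agent.MR.H.Up
import Fermat.Agent.MR.H.Char
import Fermat.Agent.S41.G.NonEis
import Fermat.Agent.GR.Asm.ResField
import Fermat.Agent.Lib.FreyCurveBasic

/-!
# MR / H / Top : S44 from the single contract `GeomOcc` at ADMISSIBLE levels
-/

set_option autoImplicit false

open CongruenceSubgroup WeierstrassCurve WeierstrassCurve.Affine WeierstrassCurve.Affine.Point
open scoped TensorProduct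
open Fermat.Agent.S41

namespace Fermat.Agent.MR.H

/-- **S44 from `GeomOcc`.**  (`N = M' p`, `M' = N / p`, squarefree: `p ∤ M'`, `4 ∤ M'`; transport `f` along `N = M' * p`.) -/
theorem S44_of_geomOcc (P : FreyPackage)
    (hG : ∀ W : WeierstrassCurve ℤ, W.IsIntegralModelOf P.freyCurve →
      ∃ (K : Type) (_ : Field K) (_ : IsAlgClosed K) (_ : CharP K P.p), GeomOcc P.p W K)
    {N : ℕ} (hcond : P.IsConductorLevel N) (hpN : P.p ∣ N)
    (hirr : GaloisRepIsIrreducible (K := AlgebraicClosure ℚ) ℚ P.freyCurve P.p)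
    (hmod : P.ModularRepOfLevel N) : ∃ M : ℕ, M ∣ N ∧ ¬ P.p ∣ M ∧ P.ModularRepOfLevel M := by
  obtain ⟨M', rfl⟩ : ∃ M', N = M' * P.p := ⟨N / P.p, (Nat.div_mul_cancel hpN).symm⟩
  obtain ⟨f, W, 𝔪, hf, hW, hmax, hpm, hcong⟩ := hmod
  have hp := P.pp
  have hM' : 0 < M' := Nat.pos_of_ne_zero (by
    rintro rfl
    have := hcond.pos
    simp at this)
  have hpM' : ¬ P.p ∣ M' := by
    intro h
    apply hcond.sq_not_dvd hp
    rw [sq]
    exact Nat.mul_dvd_mul h (dvd_refl _)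
  have h4 : ¬ 4 ∣ M' := fun h => hcond.not_four_dvd (h.mul_right _)
  obtain ⟨K, _, _, _, hGK⟩ := hG W hW
  have hE : P.freyCurve.IsElliptic := by
    have h1 := Fermat.Agent.Lib.FreyCurveBasic.freyCurveInt_map P
    have h2 := Fermat.Agent.Lib.FreyCurveBasic.freyCurveInt_Δ_ne_zero P
    refine ⟨?_⟩
    rw [← h1, WeierstrassCurve.map_Δ]
    exact isUnit_iff_ne_zero.mpr (by simpa using h2)
  obtain ⟨g, 𝔪', hg, hmax', hpm', hc'⟩ := remove_p_of_geomOcc P.freyCurve hW hp P.hp5 hM' hpM' h4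
    hirr K hGK f 𝔪 hf hmax hpm hcong
  exact ⟨M', Dvd.intro _ rfl, hpM', g, W, 𝔪', hg, hW, hmax', hpm', hc'⟩

end Fermat.Agent.MR.H
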