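import Fermat.Agent.S41.QI.AtkinLehner

/-!
# MR / H / WOp : the Atkin--Lehner operator `W_q` on homomorphisms `Γ₀(N q) → R`

`conjW γ = w γ w⁻¹`, `Wop φ = φ ∘ conjW`; `k ∘ w` is a cusp primitive of `Wop φ`;
`φ + U_q (W φ)` and `W φ + U_q φ` come from level `N`.
-/

set_option autoImplicit false
open CongruenceSubgroup Matrix ModularCurve.Period
open scoped MatrixGroups
open Fermat.Agent.GAL Fermat.Agent.GAL.HK Fermat.Agent.S41

namespace Fermat.Agent.MR.H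

variable (N q : ℕ) {x y : ℤ} (hxy : (q : ℤ) * x - N * y = 1) (hq0 : q ≠ 0)

include hxy hq0 in
theorem mul_wMat_cancel {A B : Matrix (Fin 2) (Fin 2) ℤ}
    (h : A * AL.wMat N q x y = B * AL.wMat N q x y) : A = B := by
  have h1 := congrArg (fun Z => Z * (AL.wMat N q x y).adjugate) h
  simp only [Matrix.mul_assoc, Matrix.mul_adjugate, AL.wMat_det N q hxy] at h1
  rw [Matrix.mul_smul, Matrix.mul_smul, Matrix.mul_one, Matrix.mul_one] at h1
  have hq' : (q : ℤ) ≠ 0 := by exact_mod_cast hq0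
  exact smul_right_injective _ hq' h1

/-- `w γ w⁻¹`. -/
noncomputable def conjWFun (γ : Gamma0 (N * q)) : Gamma0 (N * q) :=
  (AL.exists_conj N q hxy hq0 γ).choose

theorem conjWFun_spec (γ : Gamma0 (N * q)) :
    AL.wMat N q x y * ((γ : SL(2, ℤ)) : Matrix (Fin 2) (Fin 2) ℤ) =
      ((conjWFun N q hxy hq0 γ : SL(2, ℤ)) : Matrix (Fin 2) (Fin 2) ℤ) * AL.wMat N q x y :=
  (AL.exists_conj N q hxy hq0 γ).choose_spec

theorem conjWFun_eq {γ γ' : Gamma0 (N * q)}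
    (h : AL.wMat N q x y * ((γ : SL(2, ℤ)) : Matrix (Fin 2) (Fin 2) ℤ) =
      ((γ' : SL(2, ℤ)) : Matrix (Fin 2) (Fin 2) ℤ) * AL.wMat N q x y) :
    conjWFun N q hxy hq0 γ = γ' := by
  apply Subtype.ext
  apply Subtype.ext
  exact mul_wMat_cancel N q hxy hq0 ((conjWFun_spec N q hxy hq0 γ).symm.trans h)

/-- conjugation by the Atkin--Lehner matrix, as a group homomorphism. -/
noncomputable def conjW : Gamma0 (N * q) →* Gamma0 (N * q) where
  toFun := conjWFun N q hxy hq0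
  map_one' := conjWFun_eq N q hxy hq0 (by simp)
  map_mul' a b := conjWFun_eq N q hxy hq0 (by
    have ha := conjWFun_spec N q hxy hq0 a
    have hb := conjWFun_spec N q hxy hq0 b
    simp only [Subgroup.coe_mul, Matrix.SpecialLinearGroup.coe_mul]
    rw [← Matrix.mul_assoc, ha, Matrix.mul_assoc, hb, Matrix.mul_assoc])

theorem conjW_spec (γ : Gamma0 (N * q)) :
    AL.wMat N q x y * ((γ : SL(2, ℤ)) : Matrix (Fin 2) (Fin 2) ℤ) =
      ((conjW N q hxy hq0 γ : SL(2, ℤ)) : Matrix (Fin 2) (Fin 2) ℤ) * AL.wMat N q x y :=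
  conjWFun_spec N q hxy hq0 γ

theorem conjW_eq {γ γ' : Gamma0 (N * q)}
    (h : AL.wMat N q x y * ((γ : SL(2, ℤ)) : Matrix (Fin 2) (Fin 2) ℤ) =
      ((γ' : SL(2, ℤ)) : Matrix (Fin 2) (Fin 2) ℤ) * AL.wMat N q x y) :
    conjW N q hxy hq0 γ = γ' := conjWFun_eq N q hxy hq0 h

variable (R : Type*) [AddCommGroup R]

/-- the Atkin--Lehner operator on homomorphisms. -/
noncomputable def Wop : (Additive (Gamma0 (N * q)) →+ R) →+ (Additive (Gamma0 (N * q)) →+ R) where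
  toFun φ := φ.comp (MonoidHom.toAdditive (conjW N q hxy hq0))
  map_zero' := rfl
  map_add' _ _ := rfl

variable {R}

theorem Wop_apply (φ : Additive (Gamma0 (N * q)) →+ R) (γ : Gamma0 (N * q)) :
    Wop N q hxy hq0 R φ (Additive.ofMul γ) = φ (Additive.ofMul (conjW N q hxy hq0 γ)) := rfl

/-- `k ∘ w` is a cusp primitive of `W φ`. -/
theorem IsQI.wop {φ : Additive (Gamma0 (N * q)) →+ R} {k : V2 → R}
    (h : IsQI (Gamma0 (N * q)) φ k) :
    IsQI (Gamma0 (N * q)) (Wop N q hxy hq0 R φ) (fun v => k (zq (AL.wMat N q x y) *ᵥ v)) := by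
  refine ⟨fun c v hc => ?_, fun γ v hv => ?_⟩
  · show k (zq (AL.wMat N q x y) *ᵥ (c • v)) = k (zq (AL.wMat N q x y) *ᵥ v)
    rw [Matrix.mulVec_smul, h.homog c _ hc]
  · show k (zq (AL.wMat N q x y) *ᵥ (sl (γ : SL(2, ℤ)) *ᵥ v)) = k (zq (AL.wMat N q x y) *ᵥ v) + _
    have h1 : zq (AL.wMat N q x y) * sl (γ : SL(2, ℤ))
        = sl (conjW N q hxy hq0 γ : SL(2, ℤ)) * zq (AL.wMat N q x y) := by
      unfold sl
      rw [← Prim.zq_mul, ← Prim.zq_mul, conjW_spec N q hxy hq0 γ]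
    rw [Wop_apply, ← h.qi _ _ (AL.zq_wMat_mulVec_ne_zero N q hxy hq0 hv), Matrix.mulVec_mulVec,
      Matrix.mulVec_mulVec, h1]

theorem Wop_isParabolicHom [NeZero N] [NeZero q] {φ : Additive (Gamma0 (N * q)) →+ R}
    (hφ : IsParabolicHom (Gamma0 (N * q)) φ) :
    IsParabolicHom (Gamma0 (N * q)) (Wop N q hxy hq0 R φ) := by
  obtain ⟨k, hk⟩ := exists_isQI (N * q) φ hφ
  exact (IsQI.wop N q hxy hq0 hk).isParabolicHom

/-- `W (W φ) = φ` on parabolic homomorphisms. -/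
theorem Wop_Wop [NeZero N] [NeZero q] {φ : Additive (Gamma0 (N * q)) →+ R}
    (hφ : IsParabolicHom (Gamma0 (N * q)) φ) :
    Wop N q hxy hq0 R (Wop N q hxy hq0 R φ) = φ := by
  obtain ⟨k, hk⟩ := exists_isQI (N * q) φ hφ
  exact (IsQI.wop N q hxy hq0 (IsQI.wop N q hxy hq0 hk)).unique (AL.isQI_ww N q hxy hq0 hk)

/-- **the two traces**: `φ + U_q (W φ)` and `W φ + U_q φ` come from level `N`. -/
theorem exists_traces [NeZero N] [NeZero q] (hq : q.Prime) (hqN : ¬ q ∣ N) (hqM : q ∣ N * q)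
    {φ : Additive (Gamma0 (N * q)) →+ R} (hφ : IsParabolicHom (Gamma0 (N * q)) φ) :
    ∃ φ₁ φ₂ : Additive (Gamma0 N) →+ R,
      IsParabolicHom (Gamma0 N) φ₁ ∧ IsParabolicHom (Gamma0 N) φ₂ ∧
      res₁ N q R φ₁ = φ + cohU (N * q) hq hqM R (Wop N q hxy hq0 R φ) ∧
      res₁ N q R φ₂ = Wop N q hxy hq0 R φ + cohU (N * q) hq hqM R φ := by
  obtain ⟨k, h⟩ := exists_isQI (N * q) φ hφ
  have hψ := IsQI.wop N q hxy hq0 h
  have hK1 := h.add (hψ.heckeU (N * q) hq hqM)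
  obtain ⟨φ₁, hφ₁, hres₁⟩ := hK1.exists_resOne q (AL.claimA N q hxy hq hqN h)
  have hww := AL.isQI_ww N q hxy hq0 h
  have hK2 := hψ.add (hww.heckeU (N * q) hq hqM)
  obtain ⟨φ₂, hφ₂, hres₂⟩ := hK2.exists_resOne q (AL.claimA N q hxy hq hqN hψ)
  exact ⟨φ₁, φ₂, hφ₁, hφ₂, hres₁, hres₂⟩

end Fermat.Agent.MR.H
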