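import Fermat.Agent.TOR.AnU.Main
import Fermat.Agent.TOR.GB.Norm
import Fermat.Agent.MR.H.WOp
import Fermat.Agent.CAR.WN1.Desc

/-!
# MR / H / AnW : the analytic family `Van (M₁ q) n` is stable under the Atkin--Lehner involution

`wFun q g a τ = a (g • (q τ))`, `g = (x, y; M₁, q)`, so that `g · diag(q, 1)` is the Atkin--Lehner
matrix.  If `a` has character `P` on `Γ₀(M₁ q)` then `wFun q g a` has character `Wop P`, and on the
function field the operation is `wq`.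
Main result: `exists_wq_Van`.
-/

set_option autoImplicit false

open ModularCurve AlgebraicCurve CongruenceSubgroup UpperHalfPlane Matrix ModularCurve.Period
open Fermat.Agent.S24 Fermat.Agent.GAL Fermat.Agent.GAL.AN Fermat.Agent.GAL.HK
open Fermat.Agent.TOR.GB Fermat.Agent.S41
open scoped MatrixGroups

noncomputable section

namespace Fermat.Agent.MR.H

local notation "Δ" => ModularForm.discriminant

namespace AnWq

/-- `τ ↦ f (g • (q τ))`. -/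
def wFun (q : ℕ) [NeZero q] (g : SL(2, ℤ)) (f : ℍ → ℂ) : ℍ → ℂ := fun τ => f (g • hAct q none τ)

theorem wFun_apply (q : ℕ) [NeZero q] (g : SL(2, ℤ)) (f : ℍ → ℂ) (τ : ℍ) :
    wFun q g f τ = f (g • hAct q none τ) := rfl

theorem hAct_none_divH (q : ℕ) [NeZero q] (τ : ℍ) : hAct q none (divH q 0 τ) = τ := by
  have hq : (q : ℂ) ≠ 0 := by exact_mod_cast NeZero.ne q
  apply UpperHalfPlane.ext
  simp only [hAct, coe_affH, coe_divH]
  push_cast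
  field_simp
  ring

variable (M₁ q : ℕ)

/-- `(x, y; M₁, q)`. -/
def gW {x y : ℤ} (hxy : (q : ℤ) * x - M₁ * y = 1) : SL(2, ℤ) :=
  GR.HeckeField.gam0 M₁ q x y (by linarith)

theorem gW_mul_heckeRep {x y : ℤ} (hxy : (q : ℤ) * x - M₁ * y = 1) :
    (gW M₁ q hxy : Matrix (Fin 2) (Fin 2) ℤ) * heckeRep q none = AL.wMat M₁ q x y := by
  ext i j
  fin_cases i <;> fin_cases j <;>
    simp [gW, GR.HeckeField.gam0, heckeRep, AL.wMat, Matrix.mul_apply, Fin.sum_univ_two, mul_comm]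

variable [NeZero q]

theorem gW_smul_hAct {x y : ℤ} (hxy : (q : ℤ) * x - M₁ * y = 1) (hq0 : q ≠ 0)
    (γ : Gamma0 (M₁ * q)) (τ : ℍ) :
    gW M₁ q hxy • hAct q none ((γ : SL(2, ℤ)) • τ) =
      ((conjW M₁ q hxy hq0 γ : Gamma0 (M₁ * q)) : SL(2, ℤ)) • (gW M₁ q hxy • hAct q none τ) := by
  have h : heckeRep q none * ((γ : SL(2, ℤ)) : Matrix (Fin 2) (Fin 2) ℤ) =
      (((gW M₁ q hxy)⁻¹ * ((conjW M₁ q hxy hq0 γ : Gamma0 (M₁ * q)) : SL(2, ℤ)) * gW M₁ q hxy :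
        SL(2, ℤ)) : Matrix (Fin 2) (Fin 2) ℤ) * heckeRep q none := by
    have h1 : (((gW M₁ q hxy)⁻¹ : SL(2, ℤ)) : Matrix (Fin 2) (Fin 2) ℤ) *
        (gW M₁ q hxy : Matrix (Fin 2) (Fin 2) ℤ) = 1 := by
      rw [← Matrix.SpecialLinearGroup.coe_mul, inv_mul_cancel, Matrix.SpecialLinearGroup.coe_one]
    rw [Matrix.SpecialLinearGroup.coe_mul, Matrix.SpecialLinearGroup.coe_mul, Matrix.mul_assoc,
      gW_mul_heckeRep, Matrix.mul_assoc, ← conjW_spec, ← gW_mul_heckeRep M₁ q hxy,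
      ← Matrix.mul_assoc, ← Matrix.mul_assoc, h1, Matrix.one_mul]
  rw [hAct_smul q h τ, ← mul_smul, ← mul_smul, ← mul_assoc, ← mul_assoc, mul_inv_cancel, one_mul]

/-- **transformation law** of `wFun q g a`. -/
theorem wFun_smul (n : ℕ) {x y : ℤ} (hxy : (q : ℤ) * x - M₁ * y = 1) (hq0 : q ≠ 0)
    (a : MerMod (M₁ * q)) (P : HPar (M₁ * q) n) (ha : IsCharFun (M₁ * q) n a P)
    (γ : Gamma0 (M₁ * q)) (τ : ℍ) :
    wFun q (gW M₁ q hxy) a.1 ((γ : SL(2, ℤ)) • τ) =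
      eN n (Wop M₁ q hxy hq0 (ZMod n) (HPar.hom P) (Additive.ofMul γ)) *
        wFun q (gW M₁ q hxy) a.1 τ := by
  rw [wFun_apply, wFun_apply, gW_smul_hAct M₁ q hxy hq0, ha, Wop_apply]

variable [NeZero M₁]

theorem wFun_mem (n : ℕ) (hq : q.Prime) {x y : ℤ} (hxy : (q : ℤ) * x - M₁ * y = 1)
    (a : MerMod (M₁ * q)) (P : HPar (M₁ * q) n) (ha : IsCharFun (M₁ * q) n a P) :
    wFun q (gW M₁ q hxy) a.1 ∈ MerMod (M₁ * q) := by
  intro g
  obtain ⟨δ, j, h⟩ := HK.exists_hermite hq (heckeRep q none * (g : Matrix (Fin 2) (Fin 2) ℤ))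
    (by rw [Matrix.det_mul, HK.det_heckeRep, Matrix.SpecialLinearGroup.det_coe, mul_one])
  have hdec : ∀ τ : ℍ, hAct q none (g • τ) = δ • hAct q j τ := hAct_smul q h
  obtain ⟨m, hm⟩ := exists_isHB_hAct (M₁ * q) q a (gW M₁ q hxy * δ) j
  have heq : (fun τ => Δ τ ^ m * wFun q (gW M₁ q hxy) a.1 (g • τ)) =
      fun τ => Δ τ ^ m * a.1 ((gW M₁ q hxy * δ) • hAct q j τ) := by
    funext τ
    rw [wFun_apply, hdec, mul_smul]
  refine ⟨m, ?_, ?_, ?_⟩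
  · apply Her.periodic_of_vadd
    intro τ
    have hΔ : Δ (((M₁ * q : ℕ) : ℝ) +ᵥ τ) = Δ τ :=
      Her.vadd_of_periodic (isNice_discriminant (M₁ * q)).per τ
    have hmem := conj_T_zpow_mem_Gamma0 (M₁ * q) g
    have hsm : g • (((M₁ * q : ℕ) : ℝ) +ᵥ τ) =
        ((⟨g * ModularGroup.T ^ ((M₁ * q : ℕ) : ℤ) * g⁻¹, hmem⟩ : Gamma0 (M₁ * q)) : SL(2, ℤ)) •
          (g • τ) := by
      have h1 : (((M₁ * q : ℕ) : ℝ) +ᵥ τ) = ModularGroup.T ^ ((M₁ * q : ℕ) : ℤ) • τ := by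
        rw [UpperHalfPlane.modular_T_zpow_smul]
        simp
      rw [h1]
      simp only [mul_smul, inv_smul_smul]
    have hpar : Wop M₁ q hxy hq.ne_zero (ZMod n) (HPar.hom P)
        (Additive.ofMul (⟨g * ModularGroup.T ^ ((M₁ * q : ℕ) : ℤ) * g⁻¹, hmem⟩ :
          Gamma0 (M₁ * q))) = 0 := by
      apply Wop_isParabolicHom M₁ q hxy hq.ne_zero (Period.mem_parabolicHoms_iff.mp P.2)
      show ((g * ModularGroup.T ^ ((M₁ * q : ℕ) : ℤ) * g⁻¹ : SL(2, ℤ)) :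
        Matrix (Fin 2) (Fin 2) ℤ).trace ^ 2 = 4
      rw [(conj_T_zpow_entries g _).2]
      norm_num
    show Δ (((M₁ * q : ℕ) : ℝ) +ᵥ τ) ^ m *
        wFun q (gW M₁ q hxy) a.1 (g • (((M₁ * q : ℕ) : ℝ) +ᵥ τ)) =
      Δ τ ^ m * wFun q (gW M₁ q hxy) a.1 (g • τ)
    rw [hΔ, hsm, wFun_smul M₁ q n hxy hq.ne_zero a P ha, hpar, eN_zero, one_mul]
  · rw [heq]; exact hm.holo
  · rw [heq]; exact hm.bdd

/-! ## the `q`-expansion -/

/-- if `a₁(τ) = a_W(τ / q)` and `a_W` has `q`-expansion `A`, then `a₁` has expansion `A(q^{1/q})`. -/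
theorem LamM_of_comp_divH (aW a1 : MerMod (M₁ * q)) (A : LaurentSeries ℂ)
    (hA : LamM (M₁ * q) aW = kapC (M₁ * q) A) (h : ∀ τ, a1.1 τ = aW.1 (divH q 0 τ)) :
    LamM (M₁ * q) a1 = qExpand ℂ M₁ A := by
  obtain ⟨m, hm⟩ := aW.2 1
  simp only [one_smul] at hm
  set G : ℍ → ℂ := fun τ => Δ τ ^ m * aW.1 τ with hG
  have hGM : lamQ (M₁ * q) G = qExpand ℂ (M₁ * q) (lamQ 1 Δ ^ m * A) := by
    have h1 := lamQ_pow_mul_Lam (Subalgebra.inclusion (MerMod_le_MerInf (M₁ * q)) aW) hm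
    have h2 : Lam (M₁ * q) (Subalgebra.inclusion (MerMod_le_MerInf (M₁ * q)) aW)
        = kapC (M₁ * q) A := hA
    have h3 : lamQ (M₁ * q) Δ = qExpand ℂ (M₁ * q) (lamQ 1 Δ) := by
      have := lamQ_mul_nat 1 (M₁ * q) (f := Δ) (by simpa using isNice_discriminant_one)
      rwa [one_mul] at this
    rw [h2, h3] at h1
    rw [map_mul, map_pow]
    exact h1.symm
  have hG1 : IsNice 1 G := isNice_one_of_lamQ_eq hm hGM
  have hGA : lamQ 1 G = lamQ 1 Δ ^ m * A := lamQ_one_of_lamQ_eq hm hGM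
  have key : ∀ {F : ℍ → ℂ}, IsNice 1 F →
      lamQ (M₁ * q) (fun τ => F (divH q 0 τ)) = qExpand ℂ M₁ (lamQ 1 F) := by
    intro F hF
    rw [Nat.mul_comm, lamQ_mul_nat q M₁ (isNice_comp_divH q 0 hF), lamQ_comp_divH q 0 hF,
      pow_zero, GR.qScale_one]
  obtain ⟨T, hT⟩ : ∃ T : MerInf (M₁ * q), T = Subalgebra.inclusion (MerMod_le_MerInf (M₁ * q)) a1 :=
    ⟨_, rfl⟩
  have hT1 : T.1 = a1.1 := by rw [hT]; rfl
  obtain ⟨HD, hHD⟩ : ∃ D : MerInf (M₁ * q), D.1 = fun τ => Δ (divH q 0 τ) :=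
    ⟨⟨_, (isNice_comp_divH_mul M₁ q 0 isNice_discriminant_one).mem_MerInf⟩, rfl⟩
  obtain ⟨HG, hHG⟩ : ∃ D : MerInf (M₁ * q), D.1 = fun τ => G (divH q 0 τ) :=
    ⟨⟨_, (isNice_comp_divH_mul M₁ q 0 hG1).mem_MerInf⟩, rfl⟩
  have hmul : HD ^ m * T = HG := by
    apply Subtype.ext
    funext τ
    have : (HD ^ m * T).1 τ = HD.1 τ ^ m * T.1 τ := rfl
    rw [this, hHD, hT1, hHG, h]
  have hLD : Lam (M₁ * q) HD = qExpand ℂ M₁ (lamQ 1 Δ) := by
    rw [Lam_of_isNice (M₁ * q) HD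
      (by rw [hHD]; exact isNice_comp_divH_mul M₁ q 0 isNice_discriminant_one), hHD]
    exact key isNice_discriminant_one
  have hLG : Lam (M₁ * q) HG = qExpand ℂ M₁ (lamQ 1 G) := by
    rw [Lam_of_isNice (M₁ * q) HG (by rw [hHG]; exact isNice_comp_divH_mul M₁ q 0 hG1), hHG]
    exact key hG1
  have hD0 : Lam (M₁ * q) HD ≠ 0 := by
    intro h0
    have hD00 : HD = 0 := Lam_injective (M₁ * q) (by rw [h0, map_zero])
    have h1 : HD.1 UpperHalfPlane.I = 0 := by rw [hD00]; rfl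
    rw [hHD] at h1
    exact ModularForm.discriminant_ne_zero _ h1
  have h1 := congrArg (Lam (M₁ * q)) hmul
  rw [map_mul, map_pow, hLG, hGA, map_mul, map_pow, ← hLD] at h1
  have h2 := mul_left_cancel₀ (pow_ne_zero m hD0) h1
  rw [hT] at h2
  exact h2

/-! ## assembly -/

/-- `W_q` on `HPar`. -/
def wP (n : ℕ) {x y : ℤ} (hxy : (q : ℤ) * x - M₁ * y = 1) (hq0 : q ≠ 0)
    (P : HPar (M₁ * q) n) : HPar (M₁ * q) n :=
  ⟨Wop M₁ q hxy hq0 (ZMod n) (HPar.hom P), Wop_isParabolicHom M₁ q hxy hq0 P.2⟩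

theorem rootU_zero' (e : ℕ) : GR.HeckeField.rootU e 0 = 1 := by
  have := GR.HeckeField.rootU_pow e 0 0
  simpa using this.symm

end AnWq

open AnWq in
theorem exists_wq_Van (M₁ q n : ℕ) [NeZero M₁] [NeZero q] [NeZero n] (hq : q.Prime)
    (hqM : ¬ q ∣ M₁) {x y : ℤ} (hxy : (q : ℤ) * x - M₁ * y = 1)
    (u : Van (M₁ * q) n)
    (hu : ((u : (LaurentSeries Qb)ˣ) : LaurentSeries Qb) ^ n ∈ FL Qb (M₁ * q)) :
    ∃ ut : Van (M₁ * q) n,
      ((ut : (LaurentSeries Qb)ˣ) : LaurentSeries Qb) ^ n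
        = ((wq M₁ q ⟨_, hu⟩ : FN (M₁ * q)) : LaurentSeries Qb) ∧
      HPar.hom (chrFun ut) = Wop M₁ q hxy hq.ne_zero (ZMod n) (HPar.hom (chrFun u)) := by
  have hq0 := hq.ne_zero
  have h' : x * q - y * M₁ = 1 := by linarith
  obtain ⟨Pa, Pb, hu', eu⟩ := exists_isReal u
  obtain ⟨a, b, ha, hb, hPa, hPb, hab⟩ := hu'
  have hma := wFun_mem M₁ q n hq hxy a Pa hPa
  have hmb := wFun_mem M₁ q n hq hxy b Pb hPb
  obtain ⟨aW, haW⟩ : ∃ aW : MerMod (M₁ * q), aW = ⟨wFun q (gW M₁ q hxy) a.1, hma⟩ := ⟨_, rfl⟩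
  obtain ⟨bW, hbW⟩ : ∃ bW : MerMod (M₁ * q), bW = ⟨wFun q (gW M₁ q hxy) b.1, hmb⟩ := ⟨_, rfl⟩
  have hcA : IsCharFun (M₁ * q) n aW (wP M₁ q n hxy hq0 Pa) := by
    intro γ τ
    rw [haW]
    exact wFun_smul M₁ q n hxy hq0 a Pa hPa γ τ
  have hcB : IsCharFun (M₁ * q) n bW (wP M₁ q n hxy hq0 Pb) := by
    intro γ τ
    rw [hbW]
    exact wFun_smul M₁ q n hxy hq0 b Pb hPb γ τ
  obtain ⟨A, hA⟩ := hcA.exists_kapC
  obtain ⟨B, hB⟩ := hcB.exists_kapC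
  set gB : SL(2, ℤ) := GR.HeckeField.gamB M₁ q x y h' 0 with hgB
  have hgBinv : gB⁻¹ = gW M₁ q hxy := by
    rw [hgB, GR.HeckeField.gamB, inv_inv, zpow_zero, mul_one]
    rfl
  have ea : LamM (M₁ * q) (gB • a) = qExpand ℂ M₁ A :=
    LamM_of_comp_divH M₁ q aW _ A hA (fun τ => by
      rw [smul_MerMod_apply, hgBinv, haW]
      show _ = wFun q (gW M₁ q hxy) a.1 (divH q 0 τ)
      rw [wFun_apply, hAct_none_divH])
  have eb : LamM (M₁ * q) (gB • b) = qExpand ℂ M₁ B :=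
    LamM_of_comp_divH M₁ q bW _ B hB (fun τ => by
      rw [smul_MerMod_apply, hgBinv, hbW]
      show _ = wFun q (gW M₁ q hxy) b.1 (divH q 0 τ)
      rw [wFun_apply, hAct_none_divH])
  have hA0 : A ≠ 0 := by
    rintro rfl
    rw [map_zero] at ea
    exact LamM_ne_zero ((smul_ne_zero_iff_ne gB).mpr ha) ea
  have hB0 : B ≠ 0 := by
    rintro rfl
    rw [map_zero] at eb
    exact LamM_ne_zero ((smul_ne_zero_iff_ne gB).mpr hb) eb
  have haW0 : aW ≠ 0 := by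
    rintro rfl
    rw [map_zero] at hA
    exact hA0 (kapC_injective (M₁ * q) (by rw [← hA, map_zero]))
  have hbW0 : bW ≠ 0 := by
    rintro rfl
    rw [map_zero] at hB
    exact hB0 (kapC_injective (M₁ * q) (by rw [← hB, map_zero]))
  have hLb : LamM (M₁ * q) b ≠ 0 := LamM_ne_zero hb
  -- the function field element
  set z : FN (M₁ * q) := ⟨_, hu⟩ with hz
  have hw : Psi (M₁ * q) z = (algebraMap (MerMod (M₁ * q)) (LL (M₁ * q)) a /
      algebraMap (MerMod (M₁ * q)) (LL (M₁ * q)) b) ^ n := by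
    apply LamL_injective (M₁ * q)
    rw [LamL_Psi, kap_apply, map_pow (LamL (M₁ * q)), map_div₀, LamL_algebraMap, LamL_algebraMap,
      hab, mul_div_cancel_right₀ _ hLb]
    show qExpand ℂ (M₁ * q) (coeffMap iota (((u : (LaurentSeries Qb)ˣ) : LaurentSeries Qb) ^ n)) =
      (qExpand ℂ (M₁ * q) (coeffMap iota ((u : (LaurentSeries Qb)ˣ) : LaurentSeries Qb))) ^ n
    rw [map_pow, map_pow]
  have hkey : (A / B) ^ n = iotaS ((wq M₁ q z : FN (M₁ * q)) : LaurentSeries Qb) := by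
    have h1 := emb_gamB_eq hq hqM x y h' 0 z
    rw [GR.HeckeField.emb_apply, rootU_zero', twist_one', hw] at h1
    have h2 : gB • ((algebraMap (MerMod (M₁ * q)) (LL (M₁ * q)) a /
        algebraMap (MerMod (M₁ * q)) (LL (M₁ * q)) b) ^ n) =
        MulSemiringAction.toRingHom SL(2, ℤ) (LL (M₁ * q)) gB
          ((algebraMap (MerMod (M₁ * q)) (LL (M₁ * q)) a /
            algebraMap (MerMod (M₁ * q)) (LL (M₁ * q)) b) ^ n) := rfl
    rw [h2, map_pow, map_div₀, map_pow, map_div₀] at h1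
    simp only [MulSemiringAction.toRingHom_apply, smul_algebraMap_LL, LamL_algebraMap] at h1
    rw [ea, eb, ← map_div₀, ← map_pow] at h1
    exact (qExpand ℂ M₁).injective h1
  obtain ⟨ut1, hut1⟩ := CAR.WN1.exists_iotaS_eq_of_pow (NeZero.ne n) hkey
  have hut0 : ut1 ≠ 0 := by
    rintro rfl
    rw [map_zero] at hut1
    exact div_ne_zero hA0 hB0 hut1.symm
  have hkB : kapC (M₁ * q) B ≠ 0 := fun h0 =>
    hB0 (kapC_injective (M₁ * q) (by rw [h0, map_zero]))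
  have hreal : IsReal (M₁ * q) n ((Units.mk0 ut1 hut0 : (LaurentSeries Qb)ˣ) : LaurentSeries Qb)
      (wP M₁ q n hxy hq0 Pa) (wP M₁ q n hxy hq0 Pb) := by
    refine ⟨aW, bW, haW0, hbW0, hcA, hcB, ?_⟩
    rw [Units.val_mk0, hut1, map_div₀, hA, hB, div_mul_cancel₀ _ hkB]
  have hc := chrFun_eq (⟨Units.mk0 ut1 hut0, ⟨_, _, hreal⟩⟩ : Van (M₁ * q) n) hreal
  refine ⟨⟨Units.mk0 ut1 hut0, ⟨_, _, hreal⟩⟩, ?_, ?_⟩
  · apply iotaS_injective
    show iotaS (ut1 ^ n) = _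
    rw [map_pow, hut1, hkey]
  · rw [hc, eu]
    show Wop M₁ q hxy hq0 (ZMod n) (HPar.hom Pa) - Wop M₁ q hxy hq0 (ZMod n) (HPar.hom Pb)
      = Wop M₁ q hxy hq0 (ZMod n) (HPar.hom Pa - HPar.hom Pb)
    rw [map_sub]

end Fermat.Agent.MR.H
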