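import Mathlib
import Fermat.Agent.GR.Quadratic

/-!
# MR-H-BN2 : quadratic relations force an irreducible plane to embed

If every `g` satisfies the same quadratic relation `g² - a(g) g + χ(g) = 0` on a nonzero finite
dimensional representation `S` and on an irreducible two dimensional representation `E`, then
`E` embeds equivariantly in `S`.
-/

set_option autoImplicit false

namespace Fermat.Agent.MR.H

open Module

section BN2

variable {F G S E : Type*} [Field F] [Group G]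
    [AddCommGroup S] [Module F S] [AddCommGroup E] [Module F E]

/-- explicit form of `GR.rho_add_star`. -/
theorem bn2_add_star {W : Type*} [AddCommGroup W] [Module F W] (ρ : G →* Module.End F W)
    (χ : G →* Fˣ) (g : G) (a : F)
    (ha : ρ g * ρ g - a • ρ g + ((χ g : Fˣ) : F) • 1 = 0) :
    ρ g + ((χ g : Fˣ) : F) • ρ g⁻¹ = a • 1 := by
  have h1 := congrArg (fun z => z * ρ g⁻¹) ha
  simp only [add_mul, sub_mul, zero_mul, mul_assoc, GR.rho_mul_inv, mul_one, smul_mul_assoc,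
    one_mul] at h1
  rw [← sub_eq_zero]
  rw [← h1]
  abel

/-- the product representation on `S × E`. -/
def bn2Rep (ρS : G →* Module.End F S) (ρE : G →* Module.End F E) :
    G →* Module.End F (S × E) where
  toFun g := (ρS g).prodMap (ρE g)
  map_one' := by ext <;> simp
  map_mul' g h := by ext <;> simp

theorem bn2Rep_apply (ρS : G →* Module.End F S) (ρE : G →* Module.End F E) (g : G) :
    bn2Rep ρS ρE g = (ρS g).prodMap (ρE g) := rfl

/-- the span of the pairs `(ρS g, ρE g)`. -/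
def bn2B (ρS : G →* Module.End F S) (ρE : G →* Module.End F E) :
    Submodule F (Module.End F S × Module.End F E) :=
  Submodule.span F (Set.range fun g : G => (ρS g, ρE g))

variable {ρS : G →* Module.End F S} {ρE : G →* Module.End F E}

theorem bn2B_mul (g : G) {b : Module.End F S × Module.End F E} (hb : b ∈ bn2B ρS ρE) :
    (ρS g * b.1, ρE g * b.2) ∈ bn2B ρS ρE := by
  induction hb using Submodule.span_induction with
  | mem x hx =>
    obtain ⟨h, rfl⟩ := hx
    exact Submodule.subset_span ⟨g * h, by simp⟩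
  | zero =>
    rw [Prod.fst_zero, Prod.snd_zero, mul_zero, mul_zero]
    exact Submodule.zero_mem _
  | add x y _ _ hx hy =>
    have : (ρS g * (x + y).1, ρE g * (x + y).2) =
        (ρS g * x.1, ρE g * x.2) + (ρS g * y.1, ρE g * y.2) := by
      simp [mul_add]
    rw [this]
    exact add_mem hx hy
  | smul c x _ hx =>
    have : (ρS g * (c • x).1, ρE g * (c • x).2) = c • (ρS g * x.1, ρE g * x.2) := by
      simp
    rw [this]
    exact Submodule.smul_mem _ c hx

theorem bn2B_prodMap {b : Module.End F S × Module.End F E} (hb : b ∈ bn2B ρS ρE) :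
    b.1.prodMap b.2 ∈ Submodule.span F (Set.range (bn2Rep ρS ρE)) := by
  induction hb using Submodule.span_induction with
  | mem x hx =>
    obtain ⟨h, rfl⟩ := hx
    exact Submodule.subset_span ⟨h, rfl⟩
  | zero => simp [LinearMap.prodMap_zero]
  | add x y _ _ hx hy =>
    rw [Prod.fst_add, Prod.snd_add, LinearMap.prodMap_add]
    exact add_mem hx hy
  | smul c x _ hx =>
    rw [Prod.smul_fst, Prod.smul_snd, LinearMap.prodMap_smul]
    exact Submodule.smul_mem _ c hx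

theorem bn2B_stable {U : Submodule F S} (hU : ∀ g, ∀ x ∈ U, ρS g x ∈ U)
    {b : Module.End F S × Module.End F E} (hb : b ∈ bn2B ρS ρE) {x : S} (hx : x ∈ U) :
    b.1 x ∈ U := by
  induction hb using Submodule.span_induction with
  | mem y hy =>
    obtain ⟨h, rfl⟩ := hy
    exact hU h x hx
  | zero => simp
  | add y z _ _ hy hz => simpa using add_mem hy hz
  | smul c y _ hy => simpa using Submodule.smul_mem _ c hy

theorem bn2_relW {χ : G →* Fˣ} {g : G} {a : F}
    (haS : ρS g * ρS g - a • ρS g + ((χ g : Fˣ) : F) • 1 = 0)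
    (haE : ρE g * ρE g - a • ρE g + ((χ g : Fˣ) : F) • 1 = 0) :
    bn2Rep ρS ρE g * bn2Rep ρS ρE g - a • bn2Rep ρS ρE g + ((χ g : Fˣ) : F) • 1 = 0 := by
  apply LinearMap.ext
  rintro ⟨s, e⟩
  have h1 := congrArg (fun f : Module.End F S => f s) haS
  have h2 := congrArg (fun f : Module.End F E => f e) haE
  ext
  · simpa [bn2Rep_apply] using h1
  · simpa [bn2Rep_apply] using h2

/-- the trace of the `E`-block. -/
noncomputable def bn2Tr (x : Module.End F (S × E)) : F :=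
  LinearMap.trace F E ((LinearMap.snd F S E) ∘ₗ x ∘ₗ (LinearMap.inr F S E))

theorem bn2Tr_prodMap (a : Module.End F S) (b : Module.End F E) :
    bn2Tr (a.prodMap b) = LinearMap.trace F E b := by
  have : (LinearMap.snd F S E) ∘ₗ (a.prodMap b) ∘ₗ (LinearMap.inr F S E) = b := by
    ext x; simp
  rw [bn2Tr, this]

theorem bn2_trace_eq (hE : Module.finrank F E = 2) (χ : G →* Fˣ)
    (hirr : ∀ U : Submodule F E, (∀ g, ∀ u ∈ U, ρE g u ∈ U) → U = ⊥ ∨ U = ⊤)
    (hrelE : ∀ g, ∃ a : F, ρE g * ρE g - a • ρE g + ((χ g : Fˣ) : F) • 1 = 0)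
    (g : G) (a : F) (ha : ρE g * ρE g - a • ρE g + ((χ g : Fˣ) : F) • 1 = 0) :
    LinearMap.trace F E (ρE g) = a := by
  have : FiniteDimensional F E := Module.finite_of_finrank_eq_succ hE
  have h1 := GR.charpoly_eq_of_quadratic ρE χ hE hrelE hirr g a ha
  rw [GR.charpoly_eq_of_finrank_two hE] at h1
  have h2 := congrArg (fun p => Polynomial.coeff p 1) h1
  simpa using h2

theorem bn2_star_add (hE : Module.finrank F E = 2) (χ : G →* Fˣ)
    (hirr : ∀ U : Submodule F E, (∀ g, ∀ u ∈ U, ρE g u ∈ U) → U = ⊥ ∨ U = ⊤)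
    (hrel : ∀ g, ∃ a : F, ρS g * ρS g - a • ρS g + ((χ g : Fˣ) : F) • 1 = 0 ∧
      ρE g * ρE g - a • ρE g + ((χ g : Fˣ) : F) • 1 = 0)
    {u : Module.End F (S × E) × Module.End F (S × E)}
    (hu : u ∈ GR.starPairs (bn2Rep ρS ρE) χ) : u.1 + u.2 = bn2Tr u.1 • 1 := by
  induction hu using Submodule.span_induction with
  | mem x hx =>
    obtain ⟨g, rfl⟩ := hx
    obtain ⟨a, haS, haE⟩ := hrel g
    have h1 := bn2_add_star _ χ g a (bn2_relW haS haE)
    have h2 : bn2Tr (bn2Rep ρS ρE g) = a := by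
      rw [bn2Rep_apply, bn2Tr_prodMap]
      exact bn2_trace_eq hE χ hirr (fun g => (hrel g).imp fun _ h => h.2) g a haE
    show bn2Rep ρS ρE g + ((χ g : Fˣ) : F) • bn2Rep ρS ρE g⁻¹ = bn2Tr (bn2Rep ρS ρE g) • 1
    rw [h2, h1]
  | zero => simp [bn2Tr]
  | add x y _ _ hx hy =>
    have : bn2Tr (x + y).1 = bn2Tr x.1 + bn2Tr y.1 := by
      simp [bn2Tr, LinearMap.add_comp, LinearMap.comp_add]
    rw [this, add_smul, ← hx, ← hy]
    simp only [Prod.fst_add, Prod.snd_add]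
    abel
  | smul c x _ hx =>
    have : bn2Tr (c • x).1 = c * bn2Tr x.1 := by
      simp [bn2Tr, LinearMap.smul_comp, LinearMap.comp_smul]
    rw [this, mul_smul, ← hx]
    simp only [Prod.smul_fst, Prod.smul_snd, smul_add]

theorem bn2_sq_zero (hE : Module.finrank F E = 2) (χ : G →* Fˣ)
    (hirr : ∀ U : Submodule F E, (∀ g, ∀ u ∈ U, ρE g u ∈ U) → U = ⊥ ∨ U = ⊤)
    (hrel : ∀ g, ∃ a : F, ρS g * ρS g - a • ρS g + ((χ g : Fˣ) : F) • 1 = 0 ∧
      ρE g * ρE g - a • ρE g + ((χ g : Fˣ) : F) • 1 = 0)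
    {b : Module.End F S × Module.End F E} (hb : b ∈ bn2B ρS ρE) (h0 : b.2 = 0) :
    b.1 * b.1 = 0 := by
  have hnt : Nontrivial E := Module.nontrivial_of_finrank_pos (R := F) (by omega)
  have hrelW : ∀ g, ∃ a : F, bn2Rep ρS ρE g * bn2Rep ρS ρE g - a • bn2Rep ρS ρE g +
      ((χ g : Fˣ) : F) • 1 = 0 := fun g => by
    obtain ⟨a, haS, haE⟩ := hrel g
    exact ⟨a, bn2_relW haS haE⟩
  obtain ⟨u, hu, hux⟩ := GR.exists_starPairs_of_mem_span (χ := χ) (bn2B_prodMap hb)
  have h1 := bn2_star_add hE χ hirr hrel hu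
  obtain ⟨n, hn⟩ := GR.starPairs_mul hrelW hu
  have ht : bn2Tr u.1 = 0 := by rw [hux, bn2Tr_prodMap, h0, map_zero]
  rw [ht, zero_smul] at h1
  have h2 : u.2 = - u.1 := eq_neg_of_add_eq_zero_right h1
  rw [h2, hux] at hn
  obtain ⟨e, he⟩ := exists_ne (0 : E)
  have hn0 : n = 0 := by
    have h3 := congrArg (fun f : Module.End F (S × E) => (f (0, e)).2) hn
    simp only [h0, LinearMap.neg_apply, Module.End.mul_apply, LinearMap.prodMap_apply,
      LinearMap.zero_apply, Prod.snd_neg, neg_zero, LinearMap.smul_apply, Module.End.one_apply,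
      Prod.smul_snd] at h3
    exact (smul_eq_zero.1 h3.symm).resolve_right he
  rw [hn0, zero_smul] at hn
  ext s
  have h3 := congrArg (fun f : Module.End F (S × E) => (f (s, 0)).1) hn
  simpa using h3

/-- the construction of the embedding from a left ideal. -/
theorem bn2_embed
    (hirr : ∀ U : Submodule F E, (∀ g, ∀ u ∈ U, ρE g u ∈ U) → U = ⊥ ∨ U = ⊤)
    (X : Submodule F (Module.End F S × Module.End F E))
    (hX : ∀ g, ∀ b ∈ X, (ρS g * b.1, ρE g * b.2) ∈ X) (e : E) (v : S)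
    (hker : ∀ b ∈ X, b.2 e = 0 → b.1 v = 0) (hne : ∃ b ∈ X, b.1 v ≠ 0) :
    ∃ f : E →ₗ[F] S, Function.Injective f ∧ ∀ g x, f (ρE g x) = ρS g (f x) := by
  let α : X →ₗ[F] E := (LinearMap.applyₗ e) ∘ₗ (LinearMap.snd F _ _) ∘ₗ X.subtype
  let β : X →ₗ[F] S := (LinearMap.applyₗ v) ∘ₗ (LinearMap.fst F _ _) ∘ₗ X.subtype
  have hsurj : Function.Surjective α := by
    rw [← LinearMap.range_eq_top]
    rcases hirr (LinearMap.range α) (by
      rintro g _ ⟨b, rfl⟩
      exact ⟨⟨_, hX g b.1 b.2⟩, rfl⟩) with h | h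
    · exfalso
      obtain ⟨b, hb, hbv⟩ := hne
      apply hbv
      apply hker b hb
      have : α ⟨b, hb⟩ ∈ LinearMap.range α := ⟨_, rfl⟩
      rw [h] at this
      exact (Submodule.mem_bot F).1 this
    · exact h
  obtain ⟨γ, hγ⟩ := LinearMap.exists_rightInverse_of_surjective α (LinearMap.range_eq_top.2 hsurj)
  have key : ∀ b : X, β (γ (α b)) = β b := by
    intro b
    have h1 : α (γ (α b) - b) = 0 := by
      rw [map_sub, ← LinearMap.comp_apply, hγ]
      simp
    have h3 : β (γ (α b) - b) = 0 := hker _ (γ (α b) - b).2 h1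
    rw [map_sub, sub_eq_zero] at h3
    exact h3
  have hequiv : ∀ g x, (β ∘ₗ γ) (ρE g x) = ρS g ((β ∘ₗ γ) x) := by
    intro g x
    obtain ⟨b, rfl⟩ := hsurj x
    have : ρE g (α b) = α ⟨_, hX g b.1 b.2⟩ := rfl
    show β (γ (ρE g (α b))) = ρS g (β (γ (α b)))
    rw [this, key, key]
    rfl
  refine ⟨β ∘ₗ γ, ?_, hequiv⟩
  rw [← LinearMap.ker_eq_bot]
  rcases hirr (LinearMap.ker (β ∘ₗ γ)) (by
    intro g x hx
    rw [LinearMap.mem_ker] at hx ⊢
    rw [hequiv, hx, map_zero]) with h | h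
  · exact h
  · exfalso
    obtain ⟨b, hb, hbv⟩ := hne
    apply hbv
    have h1 : α ⟨b, hb⟩ ∈ LinearMap.ker (β ∘ₗ γ) := by rw [h]; trivial
    rw [LinearMap.mem_ker] at h1
    exact (key ⟨b, hb⟩).symm.trans h1

theorem bn2_exists_minimal [FiniteDimensional F S] [Nontrivial S] (ρ : G →* Module.End F S) :
    ∃ U : Submodule F S, U ≠ ⊥ ∧ (∀ g, ∀ x ∈ U, ρ g x ∈ U) ∧
      ∀ U' : Submodule F S, U' ≤ U → (∀ g, ∀ x ∈ U', ρ g x ∈ U') → U' = ⊥ ∨ U' = U := by
  let T : Set (Submodule F S) := {U | U ≠ ⊥ ∧ ∀ g, ∀ x ∈ U, ρ g x ∈ U}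
  have hT : T.Nonempty := ⟨⊤, top_ne_bot, fun _ _ _ => trivial⟩
  obtain ⟨U, hU, hmin⟩ := (wellFounded_lt (α := Submodule F S)).has_min T hT
  refine ⟨U, hU.1, hU.2, fun U' hle hinv => ?_⟩
  by_cases h0 : U' = ⊥
  · exact Or.inl h0
  · exact Or.inr (eq_of_le_of_not_lt hle (hmin U' ⟨h0, hinv⟩))

end BN2

theorem exists_equivariant_injection {F G S E : Type*} [Field F] [Group G]
    [AddCommGroup S] [Module F S] [AddCommGroup E] [Module F E]
    [FiniteDimensional F S] [Nontrivial S] (hE : Module.finrank F E = 2)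
    (ρS : G →* Module.End F S) (ρE : G →* Module.End F E) (χ : G →* Fˣ)
    (hirr : ∀ U : Submodule F E, (∀ g, ∀ u ∈ U, ρE g u ∈ U) → U = ⊥ ∨ U = ⊤)
    (hrel : ∀ g, ∃ a : F, ρS g * ρS g - a • ρS g + ((χ g : Fˣ) : F) • 1 = 0 ∧
      ρE g * ρE g - a • ρE g + ((χ g : Fˣ) : F) • 1 = 0) :
    ∃ f : E →ₗ[F] S, Function.Injective f ∧ ∀ g e, f (ρE g e) = ρS g (f e) := by
  obtain ⟨U, hU0, hUinv, hUmin⟩ := bn2_exists_minimal ρS
  obtain ⟨v, hvU, hv0⟩ := Submodule.exists_mem_ne_zero_of_ne_bot hU0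
  -- the ideal `J` of the elements vanishing on `E` kills `v`
  have hJ : ∀ b ∈ bn2B ρS ρE, b.2 = 0 → b.1 v = 0 := by
    let J : Submodule F (Module.End F S × Module.End F E) :=
      bn2B ρS ρE ⊓ LinearMap.ker (LinearMap.snd F _ _)
    let Jv : Submodule F S := J.map ((LinearMap.applyₗ v) ∘ₗ LinearMap.fst F _ _)
    have hle : Jv ≤ U := by
      rintro _ ⟨b, hb, rfl⟩
      exact bn2B_stable hUinv hb.1 hvU
    have hinv : ∀ g, ∀ x ∈ Jv, ρS g x ∈ Jv := by
      rintro g _ ⟨b, hb, rfl⟩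
      refine ⟨(ρS g * b.1, ρE g * b.2), ⟨bn2B_mul g hb.1, ?_⟩, rfl⟩
      have h0 : b.2 = 0 := hb.2
      show ρE g * b.2 = 0
      rw [h0, mul_zero]
    rcases hUmin Jv hle hinv with h | h
    · intro b hb h0
      have : b.1 v ∈ Jv := ⟨b, ⟨hb, h0⟩, rfl⟩
      rw [h] at this
      exact (Submodule.mem_bot F).1 this
    · exfalso
      have hvJ : v ∈ Jv := by rw [h]; exact hvU
      obtain ⟨b, hb, hbv⟩ := hvJ
      have hsq := bn2_sq_zero hE χ hirr hrel hb.1 hb.2
      have hbv' : b.1 v = v := hbv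
      apply hv0
      have h3 := congrArg (fun f : Module.End F S => f v) hsq
      simpa [hbv'] using h3
  have hfin : FiniteDimensional F E := Module.finite_of_finrank_eq_succ hE
  let bas := Module.finBasisOfFinrankEq F E hE
  by_cases hA : ∃ b ∈ bn2B ρS ρE, b.2 (bas 1) = 0 ∧ b.1 v ≠ 0
  · obtain ⟨b₀, hb₀, hb₀e, hb₀v⟩ := hA
    refine bn2_embed hirr (bn2B ρS ρE ⊓
      LinearMap.ker ((LinearMap.applyₗ (bas 1)) ∘ₗ LinearMap.snd F _ _)) ?_ (bas 0) v ?_
      ⟨b₀, ⟨hb₀, hb₀e⟩, hb₀v⟩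
    · intro g b hb
      refine ⟨bn2B_mul g hb.1, ?_⟩
      have h0 : b.2 (bas 1) = 0 := hb.2
      show ρE g (b.2 (bas 1)) = 0
      rw [h0, map_zero]
    · intro b hb h0
      apply hJ b hb.1
      apply bas.ext
      intro i
      fin_cases i
      · exact h0
      · exact hb.2
  · push Not at hA
    refine bn2_embed hirr (bn2B ρS ρE) (fun g b hb => bn2B_mul g hb) (bas 1) v
      (fun b hb h0 => hA b hb h0) ⟨(1, 1), ?_, by simpa using hv0⟩
    exact Submodule.subset_span ⟨1, by simp⟩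

end Fermat.Agent.MR.H
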