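import Fermat.Agent.MR.H.QExp
import Fermat.Agent.MR.A.HeckeRed
import Fermat.Agent.MR.A.Inst

/-!
# MR / H / Bridge : from the operators `opT`, `opU` of block (A) to the coefficientwise predicates
`IsFormalEig`, `IsFormalRel` of H-OUT; polynomial relations of arbitrary degree for `U_r`.
-/

set_option autoImplicit false

open ModularCurve

noncomputable section

namespace Fermat.Agent.MR.H

open Fermat.Agent.GR Fermat.Agent.GAL Fermat.Agent.GAL.CT Fermat.Agent.GAL.KLC Fermat.Agent.MR.A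

theorem isFormalEig_of_opT {K : Type*} [Field K] (M ℓ : ℕ) [NeZero ℓ] (hℓM : ¬ ℓ ∣ M) (c : K)
    (F : LaurentSeries K) (h : opT ℓ F = HahnSeries.C c * F) : IsFormalEig M ℓ c F := by
  intro n
  have h1 := congrArg (fun G : LaurentSeries K => G.coeff (n : ℤ)) h
  simp only [opT, HahnSeries.coeff_add, HahnSeries.C_mul_eq_smul, HahnSeries.coeff_smul,
    smul_eq_mul, GR.qContract_coeff] at h1
  rw [if_neg hℓM, ← h1]
  congr 1
  · congr 1
    push_cast
    ring
  · by_cases hn : ℓ ∣ n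
    · rw [if_pos hn]
      obtain ⟨m, rfl⟩ := hn
      rw [Nat.mul_div_cancel_left m (Nat.pos_of_ne_zero (NeZero.ne ℓ))]
      push_cast
      rw [qExpand_coeff_mul]
    · rw [if_neg hn, qExpand_coeff_of_not_dvd ℓ _ (by exact_mod_cast hn), mul_zero]

theorem isFormalEig_of_opU {K : Type*} [Field K] (M ℓ : ℕ) [NeZero ℓ] (hℓM : ℓ ∣ M) (c : K)
    (F : LaurentSeries K) (h : opU ℓ F = HahnSeries.C c * F) : IsFormalEig M ℓ c F := by
  intro n
  have h1 := congrArg (fun G : LaurentSeries K => G.coeff (n : ℤ)) h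
  simp only [opU, HahnSeries.C_mul_eq_smul, HahnSeries.coeff_smul,
    smul_eq_mul, GR.qContract_coeff] at h1
  rw [if_pos hℓM, add_zero, ← h1]
  congr 1
  push_cast
  ring

theorem coeff_iterate_opU {K : Type*} [Field K] (r : ℕ) [NeZero r] (F : LaurentSeries K) (i : ℕ)
    (n : ℤ) : ((opU r)^[i] F).coeff n = F.coeff (n * (r : ℤ) ^ i) := by
  induction i generalizing n with
  | zero => simp
  | succ i ih =>
    rw [Function.iterate_succ_apply', opU, GR.qContract_coeff, ih]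
    congr 1
    ring

/-- `∑ R_i U_r^i F = 0` gives `IsFormalRel r R F`. -/
theorem isFormalRel_of_opU {K : Type*} [Field K] (r : ℕ) [NeZero r] (R : Polynomial ℤ)
    (F : LaurentSeries K)
    (h : ∑ i ∈ R.support, HahnSeries.C ((R.coeff i : ℤ) : K) * (opU r)^[i] F = 0) :
    IsFormalRel r R F := by
  intro n
  have h1 := congrArg (fun G : LaurentSeries K => G.coeff (n : ℤ)) h
  simp only [HahnSeries.coeff_sum, HahnSeries.C_mul_eq_smul, HahnSeries.coeff_smul, smul_eq_mul,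
    coeff_iterate_opU, HahnSeries.coeff_zero] at h1
  rw [Polynomial.sum_def]
  rw [← h1]
  refine Finset.sum_congr rfl fun i _ => ?_
  push_cast
  rfl

variable {A : ValuationSubring Qb}

theorem hasRed_iterate_NmL (r : ℕ) [NeZero r] {x : LaurentSeries Qb} {z : LaurentSeries (kA A)}
    (h : HasRed A x z) (i : ℕ) : HasRed A ((NmL Qb r)^[i] x) ((NmL (kA A) r)^[i] z) := by
  induction i with
  | zero => exact h
  | succ i ih =>
    rw [Function.iterate_succ_apply', Function.iterate_succ_apply']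
    exact hasRed_NmL_any r ih

theorem iterate_NmL_ne_zero {k : Type*} [Field k] (r : ℕ) [NeZero r] {w : LaurentSeries k}
    (hw : w ≠ 0) (i : ℕ) : (NmL k r)^[i] w ≠ 0 := by
  induction i with
  | zero => exact hw
  | succ i ih =>
    rw [Function.iterate_succ_apply']
    exact HeckeRed_NmL_ne_zero r ih

theorem dlog_iterate_NmL {k : Type*} [Field k] (r : ℕ) [NeZero r] (hr : (r : k) ≠ 0) {ζ : kˣ}
    (hζ : IsPrimitiveRoot ζ r) {u : LaurentSeries k} (hu : u ≠ 0) (i : ℕ) :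
    dlog ((NmL k r)^[i] u) = (opU r)^[i] (dlog u) := by
  induction i with
  | zero => rfl
  | succ i ih =>
    rw [Function.iterate_succ_apply', Function.iterate_succ_apply',
      dlog_NmL r hr hζ (iterate_NmL_ne_zero r hu i), ih]

theorem hasRed_prod {ι : Type*} (s : Finset ι) (x : ι → LaurentSeries Qb)
    (z : ι → LaurentSeries (kA A)) (h : ∀ i ∈ s, HasRed A (x i) (z i)) :
    HasRed A (∏ i ∈ s, x i) (∏ i ∈ s, z i) := by
  classical
  induction s using Finset.induction_on with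
  | empty =>
    rw [Finset.prod_empty, Finset.prod_empty]
    exact HasRed.one
  | insert a s ha ih =>
    rw [Finset.prod_insert ha, Finset.prod_insert ha]
    exact (h a (Finset.mem_insert_self a s)).mul (ih fun i hi => h i (Finset.mem_insert_of_mem hi))

/-- **polynomial relation of arbitrary degree for `U_r`**: `∏_i (Nm_r^i H)^{R_i} = c g^p` implies
`R(U_r) (dlog H̄) = 0`. -/
theorem isFormalRel_dlog_of_rel {p : ℕ} (hp : p.Prime) (hA : A.LiesOverPrime p) {r : ℕ} [NeZero r]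
    (hrp : ¬ p ∣ r) {N : ℕ} {H g : LaurentSeries Qb} (hg : g ∈ FL Qb N)
    {u : LaurentSeries (kA A)} (hH : HasRed A H u) (hu : u ≠ 0) (R : Polynomial ℤ) (c : Qb)
    (h : ∏ i ∈ R.support, ((NmL Qb r)^[i] H) ^ (R.coeff i) = HahnSeries.C c * g ^ p) :
    IsFormalRel r R (dlog u) := by
  obtain ⟨ζ, hζ⟩ := HeckeRed_exists_primitiveRoot hp hA hrp
  have hr0 := HeckeRed_natCast_ne_zero hp hA hrp
  apply isFormalRel_of_opU
  have h3 : HasRed A (∏ i ∈ R.support, ((NmL Qb r)^[i] H) ^ (R.coeff i))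
      (∏ i ∈ R.support, ((NmL (kA A) r)^[i] u) ^ (R.coeff i)) :=
    hasRed_prod _ _ _ fun i _ => hasRed_zpow (hasRed_iterate_NmL r hH i) (iterate_NmL_ne_zero r hu i) _
  have h4 := dlog_eq_zero_of_eq_C_mul_pow hp hA hg h h3
  rw [dlog_prod _ _ (fun i _ => zpow_ne_zero _ (iterate_NmL_ne_zero r hu i))] at h4
  rw [← h4]
  refine Finset.sum_congr rfl fun i _ => ?_
  rw [dlog_zpow, dlog_iterate_NmL r hr0 hζ hu]

/-- **eigenvalue of `T_ℓ`** in the shape of H-OUT. -/
theorem isFormalEig_dlog_of_eigen {p : ℕ} (hp : p.Prime) (hA : A.LiesOverPrime p) (M : ℕ) {ℓ : ℕ}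
    [NeZero ℓ] (hℓM : ¬ ℓ ∣ M) (hℓp : ¬ p ∣ ℓ) {N : ℕ} {H g : LaurentSeries Qb} (hg : g ∈ FL Qb N)
    {u : LaurentSeries (kA A)} (hH : HasRed A H u) (hu : u ≠ 0) (a : ℤ) (c : Qb)
    (h : heckeS Qb ℓ H = HahnSeries.C c * H ^ a * g ^ p) :
    IsFormalEig M ℓ ((a : ℤ) : kA A) (dlog u) :=
  isFormalEig_of_opT M ℓ hℓM _ _ (opT_dlog_of_eigen hp hA hℓp hg hH hu a c h)

end Fermat.Agent.MR.H
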