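import Fermat.Agent.S41.HeckeAlg
import Fermat.Agent.S41.BaseChange

/-!
# MR / H (Hecke side of Mazur–Ribet) : definitions

* `op M ℓ`        : the Hecke operator at the prime `ℓ` on `Lat M` (`T_ℓ` if `ℓ ∤ M`, `U_ℓ` if `ℓ ∣ M`)
* `IsEig K M P a x` : `x ∈ K ⊗ Lat M` is an eigenvector of `op M ℓ` with eigenvalue `a ℓ`, `ℓ ∈ P` prime
* `Occ K M P a`   : the system `(a ℓ)_{ℓ ∈ P}` occurs in `K ⊗ Lat M`
* `OccChar K M P a` : the same in terms of characters of the Hecke algebra acting on cusp forms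
-/

set_option autoImplicit false

open CongruenceSubgroup
open scoped TensorProduct
open Fermat.Agent.S41
open Fermat.Agent.GAL.HK (latT latU iota)

namespace Fermat.Agent.MR.H

open Classical in
/-- the Hecke operator at `ℓ` on `Lat M` (junk `0` if `ℓ` is not prime). -/
noncomputable def op (M ℓ : ℕ) : Module.End ℤ (S41.Lat M) :=
  if hℓ : ℓ.Prime then (if h : ℓ ∣ M then latU M hℓ h else latT M hℓ h) else 0

theorem op_of_dvd (M : ℕ) {ℓ : ℕ} (hℓ : ℓ.Prime) (h : ℓ ∣ M) : op M ℓ = latU M hℓ h := by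
  rw [op, dif_pos hℓ, dif_pos h]

theorem op_of_not_dvd (M : ℕ) {ℓ : ℕ} (hℓ : ℓ.Prime) (h : ¬ ℓ ∣ M) : op M ℓ = latT M hℓ h := by
  rw [op, dif_pos hℓ, dif_neg h]

theorem op_mem_latAlg (M ℓ : ℕ) : op M ℓ ∈ latAlg M := by
  by_cases hℓ : ℓ.Prime
  · by_cases h : ℓ ∣ M
    · rw [op_of_dvd M hℓ h]
      exact Algebra.subset_adjoin (Or.inr ⟨_, hℓ, h, rfl⟩)
    · rw [op_of_not_dvd M hℓ h]
      exact Algebra.subset_adjoin (Or.inl ⟨_, hℓ, h, rfl⟩)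
  · rw [op, dif_neg hℓ]
    exact zero_mem _

theorem op_comm (M : ℕ) [NeZero M] (ℓ ℓ' : ℕ) : Commute (op M ℓ) (op M ℓ') :=
  latAlg_comm M _ (op_mem_latAlg M ℓ) _ (op_mem_latAlg M ℓ')

/-- `x` is an eigenvector of the Hecke operators at the primes of `P`, with eigenvalues `a`. -/
def IsEig (K : Type*) [Field K] (M : ℕ) (P : Set ℕ) (a : ℕ → K) (x : K ⊗[ℤ] S41.Lat M) : Prop :=
  ∀ ℓ ∈ P, ℓ.Prime → (op M ℓ).baseChange K x = a ℓ • x

/-- the system of eigenvalues `(a ℓ)_{ℓ ∈ P}` occurs in `K ⊗ Lat M`. -/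
def Occ (K : Type*) [Field K] (M : ℕ) (P : Set ℕ) (a : ℕ → K) : Prop :=
  ∃ x : K ⊗[ℤ] S41.Lat M, x ≠ 0 ∧ IsEig K M P a x

theorem IsEig.mono {K : Type*} [Field K] {M : ℕ} {P Q : Set ℕ} {a : ℕ → K} {x : K ⊗[ℤ] S41.Lat M}
    (h : IsEig K M P a x) (hQ : Q ⊆ P) : IsEig K M Q a x := fun ℓ hℓ => h ℓ (hQ hℓ)

theorem Occ.mono {K : Type*} [Field K] {M : ℕ} {P Q : Set ℕ} {a : ℕ → K} (h : Occ K M P a)
    (hQ : Q ⊆ P) : Occ K M Q a := by
  obtain ⟨x, hx, h⟩ := h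
  exact ⟨x, hx, h.mono hQ⟩

theorem IsEig.congr {K : Type*} [Field K] {M : ℕ} {P : Set ℕ} {a b : ℕ → K}
    {x : K ⊗[ℤ] S41.Lat M} (h : IsEig K M P a x) (hab : ∀ ℓ ∈ P, a ℓ = b ℓ) : IsEig K M P b x :=
  fun ℓ hℓ hp => by rw [← hab ℓ hℓ]; exact h ℓ hℓ hp

theorem Occ.congr {K : Type*} [Field K] {M : ℕ} {P : Set ℕ} {a b : ℕ → K} (h : Occ K M P a)
    (hab : ∀ ℓ ∈ P, a ℓ = b ℓ) : Occ K M P b := by
  obtain ⟨x, hx, h⟩ := h
  exact ⟨x, hx, h.congr hab⟩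

/-- transport along an equality of levels. -/
theorem Occ.of_eq {K : Type*} [Field K] {M M' : ℕ} {P : Set ℕ} {a : ℕ → K} (h : Occ K M P a)
    (hM : M = M') : Occ K M' P a := hM ▸ h

open Classical in
/-- the generator at `ℓ` of the Hecke algebra acting on `S₂(Γ₀(M))` (junk `0`). -/
noncomputable def gen (M : ℕ) [NeZero M] (ℓ : ℕ) : CuspForm.heckeAlgebra M 2 ∅ :=
  if hℓ : ℓ.Prime then
    (if h : ℓ ∣ M then CuspForm.heckeAlgebra.U hℓ h (Set.notMem_empty _)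
      else CuspForm.heckeAlgebra.T hℓ h (Set.notMem_empty _))
  else 0

/-- the system `(a ℓ)_{ℓ ∈ P}` is the restriction of a character of the full Hecke algebra. -/
def OccChar (K : Type*) [Field K] (M : ℕ) [NeZero M] (P : Set ℕ) (a : ℕ → K) : Prop :=
  ∃ ψ : CuspForm.heckeAlgebra M 2 ∅ →+* K, ∀ ℓ ∈ P, ℓ.Prime → ψ (gen M ℓ) = a ℓ

theorem iota_gen (M : ℕ) [NeZero M] (ℓ : ℕ) : iota M ∅ (gen M ℓ) = op M ℓ := by
  by_cases hℓ : ℓ.Prime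
  · by_cases h : ℓ ∣ M
    · rw [op_of_dvd M hℓ h, gen, dif_pos hℓ, dif_pos h]
      exact Fermat.Agent.GAL.HK.iota_U M ∅ hℓ h (Set.notMem_empty _)
    · rw [op_of_not_dvd M hℓ h, gen, dif_pos hℓ, dif_neg h]
      exact Fermat.Agent.GAL.HK.iota_T M ∅ hℓ h (Set.notMem_empty _)
  · rw [op, dif_neg hℓ, gen, dif_neg hℓ, map_zero]

/-! ### the degeneracy maps commute with the Hecke operators -/

theorem op_lres₁ (N r : ℕ) [NeZero N] [NeZero r] {ℓ : ℕ} (hℓ : ℓ.Prime)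
    (h : ℓ ∣ N ∨ ¬ ℓ ∣ N * r) (x : S41.Lat N) :
    op (N * r) ℓ (lres₁ N r x) = lres₁ N r (op N ℓ x) := by
  rcases h with h | h
  · rw [op_of_dvd N hℓ h, op_of_dvd (N * r) hℓ (h.mul_right r)]
    exact h5_latU_lres₁ N r hℓ h _ x
  · have h' : ¬ ℓ ∣ N := fun h' => h (h'.mul_right r)
    rw [op_of_not_dvd N hℓ h', op_of_not_dvd (N * r) hℓ h]
    exact latT_lres₁ N r hℓ h' h x

theorem op_lres₂ (N r : ℕ) [NeZero N] [NeZero r] (hrN : Nat.Coprime r N) {ℓ : ℕ} (hℓ : ℓ.Prime)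
    (h : ℓ ∣ N ∨ ¬ ℓ ∣ N * r) (x : S41.Lat N) :
    op (N * r) ℓ (lres₂ N r x) = lres₂ N r (op N ℓ x) := by
  rcases h with h | h
  · rw [op_of_dvd N hℓ h, op_of_dvd (N * r) hℓ (h.mul_right r)]
    exact h5_latU_lres₂ N r hrN hℓ h _ x
  · have h' : ¬ ℓ ∣ N := fun h' => h (h'.mul_right r)
    rw [op_of_not_dvd N hℓ h', op_of_not_dvd (N * r) hℓ h]
    exact latT_lres₂ N r hℓ h' h x

theorem op_self_lres₁ (N r : ℕ) [NeZero N] [NeZero r] (hr : r.Prime) (hrN : ¬ r ∣ N)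
    (x : S41.Lat N) :
    op (N * r) r (lres₁ N r x) = lres₁ N r (op N r x) - lres₂ N r x := by
  rw [op_of_not_dvd N hr hrN, op_of_dvd (N * r) hr (Dvd.intro_left N rfl)]
  exact h5_latU_q_lres₁ N r hr hrN _ x

theorem op_self_lres₂ (N r : ℕ) [NeZero N] [NeZero r] (hr : r.Prime) (x : S41.Lat N) :
    op (N * r) r (lres₂ N r x) = r • lres₁ N r x := by
  rw [op_of_dvd (N * r) hr (Dvd.intro_left N rfl)]
  exact h5_latU_q_lres₂ N r hr _ x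

end Fermat.Agent.MR.H
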