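import Fermat.Agent.MR.H.LA
import Fermat.Agent.MR.H.Defs
import Fermat.Agent.S41.Fin
import Fermat.Agent.S41.Input
import Fermat.Agent.S49.Lifting
import Fermat.Agent.GAL.HK.Eigen

/-!
# MR / H / Char1 : eigenvectors in `K ⊗ Lat M`  ↔  characters of the Hecke algebra  ↔  eigenforms
-/

set_option autoImplicit false

open CongruenceSubgroup
open scoped TensorProduct
open Fermat.Agent.S41
open Fermat.Agent.GAL.HK (latT latU iota)

namespace Fermat.Agent.MR.H

/-- (C1) a character gives an eigenvector: `GAL.HK.exists_eigenvector` with `act = iota M ∅`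
(`iota_injective`), then `iota_gen`. -/
theorem occ_of_occChar {K : Type*} [Field K] (M : ℕ) [NeZero M] (P : Set ℕ) (a : ℕ → K)
    (h : OccChar K M P a) : Occ K M P a := by
  obtain ⟨ψ, hψ⟩ := h
  obtain ⟨v, hv, h⟩ := Fermat.Agent.GAL.HK.exists_eigenvector (iota M ∅)
    (Fermat.Agent.GAL.HK.iota_injective M ∅) ψ
  refine ⟨v, hv, fun ℓ hℓ hp => ?_⟩
  rw [← iota_gen, h, hψ ℓ hℓ hp]

/-- (C2) an eigenvector gives a character.
PROOF: `exists_eigen_extend` (or `S41.ALR_exists_common_eigenvector`) for the commuting family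
`t ↦ (iota M ∅ t).baseChange K`, `t : heckeAlgebra M 2 ∅`, `J = {gen M ℓ | ℓ ∈ P prime}`: a common eigenvector
`z'`, `t z' = b t • z'`; `b` is a ring hom because `z' ≠ 0` (as in `S41.ALR_exists_character`). -/
theorem occChar_of_occ {K : Type*} [Field K] [IsAlgClosed K] (M : ℕ) [NeZero M] (P : Set ℕ)
    (a : ℕ → K) (h : Occ K M P a) : OccChar K M P a := by
  obtain ⟨x, hx, hxe⟩ := h
  let Φ : CuspForm.heckeAlgebra M 2 ∅ →+* Module.End K (K ⊗[ℤ] S41.Lat M) :=
    (Module.End.baseChangeHom ℤ K (S41.Lat M)).toRingHom.comp (iota M ∅)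
  have hΦ : ∀ t, Φ t = (iota M ∅ t).baseChange K := fun _ => rfl
  let S : CuspForm.heckeAlgebra M 2 ∅ ⊕ ℕ → Module.End K (K ⊗[ℤ] S41.Lat M) :=
    fun i => Φ (Sum.elim id (gen M) i)
  obtain ⟨b, z', hz', hb, hbJ⟩ := exists_eigen_extend S
    (fun i j => by
      show Φ _ * Φ _ = Φ _ * Φ _
      rw [← map_mul, ← map_mul, mul_comm])
    {i | ∃ ℓ ∈ P, ℓ.Prime ∧ i = Sum.inr ℓ} (Sum.elim (fun _ => 0) a) x hx
    (by
      rintro _ ⟨ℓ, hℓ, hp, rfl⟩
      show Φ (gen M ℓ) x = a ℓ • x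
      rw [hΦ, iota_gen]
      exact hxe ℓ hℓ hp)
  have hinj : Function.Injective fun c : K => c • z' := smul_left_injective K hz'
  have hb' : ∀ t, Φ t z' = b (Sum.inl t) • z' := fun t => hb (Sum.inl t)
  refine ⟨{ toFun := fun t => b (Sum.inl t), map_one' := ?_, map_mul' := ?_, map_zero' := ?_,
            map_add' := ?_ }, fun ℓ hℓ hp => ?_⟩
  · apply hinj
    show b (Sum.inl 1) • z' = (1 : K) • z'
    rw [← hb', map_one, one_smul, Module.End.one_apply]
  · intro s t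
    apply hinj
    show b (Sum.inl (s * t)) • z' = (b (Sum.inl s) * b (Sum.inl t)) • z'
    rw [← hb', map_mul, Module.End.mul_apply, hb', map_smul, hb', smul_smul, mul_comm]
  · apply hinj
    show b (Sum.inl 0) • z' = (0 : K) • z'
    rw [← hb', map_zero, zero_smul, LinearMap.zero_apply]
  · intro s t
    apply hinj
    show b (Sum.inl (s + t)) • z' = (b (Sum.inl s) + b (Sum.inl t)) • z'
    rw [← hb', map_add, LinearMap.add_apply, hb', hb', add_smul]
  · show b (Sum.inl (gen M ℓ)) = a ℓ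
    have h1 : b (Sum.inr ℓ) = a ℓ := hbJ _ ⟨ℓ, hℓ, hp, rfl⟩
    rw [← h1]
    apply hinj
    show b (Sum.inl (gen M ℓ)) • z' = b (Sum.inr ℓ) • z'
    have h2 : Φ (gen M ℓ) z' = b (Sum.inr ℓ) • z' := hb (Sum.inr ℓ)
    exact (hb' (gen M ℓ)).symm.trans h2

end Fermat.Agent.MR.H
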