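import Mathlib

/-!
# MR / H : descent of a common kernel from `K ⊗ L` to `L / p L`  (pure linear algebra)
-/

set_option autoImplicit false

namespace Fermat.Agent.MR.H

open scoped TensorProduct

section aux

variable {p : ℕ} [Fact p.Prime] {L : Type*} [AddCommGroup L]

/-- every element of `ℤ/p ⊗ L` is a pure tensor `1 ⊗ y`. -/
theorem Desc_exists_one_tmul (w : ZMod p ⊗[ℤ] L) : ∃ y : L, w = (1 : ZMod p) ⊗ₜ[ℤ] y := by
  induction w using TensorProduct.induction_on with
  | zero => exact ⟨0, by rw [TensorProduct.tmul_zero]⟩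
  | tmul a l =>
    refine ⟨(a.val : ℤ) • l, ?_⟩
    rw [← TensorProduct.smul_tmul]
    congr 1
    simp
  | add w w' h h' =>
    obtain ⟨y, rfl⟩ := h
    obtain ⟨y', rfl⟩ := h'
    exact ⟨y + y', by rw [TensorProduct.tmul_add]⟩

theorem Desc_one_tmul_smul (z : L) : (1 : ZMod p) ⊗ₜ[ℤ] ((p : ℤ) • z) = 0 := by
  rw [← TensorProduct.smul_tmul]
  have : ((p : ℤ) • (1 : ZMod p)) = 0 := by simp
  rw [this, TensorProduct.zero_tmul]

theorem Desc_of_one_tmul_eq_zero [Module.Free ℤ L] [Module.Finite ℤ L] {y : L}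
    (h : (1 : ZMod p) ⊗ₜ[ℤ] y = 0) : ∃ z : L, y = (p : ℤ) • z := by
  classical
  let b := Module.Free.chooseBasis ℤ L
  have hdvd : ∀ j, (p : ℤ) ∣ b.repr y j := by
    intro j
    have h1 : (b.baseChange (ZMod p)).repr ((1 : ZMod p) ⊗ₜ[ℤ] y) j = b.repr y j • (1 : ZMod p) :=
      Module.Basis.baseChange_repr_tmul _ _ _ _ _
    rw [h, map_zero, Finsupp.zero_apply] at h1
    rw [← ZMod.intCast_zmod_eq_zero_iff_dvd]
    simpa using h1.symm
  choose c hc using hdvd
  refine ⟨∑ j, c j • b j, ?_⟩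
  rw [Finset.smul_sum]
  conv_lhs => rw [← b.sum_repr y]
  refine Finset.sum_congr rfl fun j _ => ?_
  rw [smul_smul, ← hc j]

end aux

theorem exists_mod_p_eigen {p : ℕ} [Fact p.Prime] {K : Type*} [Field K] [CharP K p]
    {L : Type*} [AddCommGroup L] [Module.Free ℤ L] [Module.Finite ℤ L] {ι : Type*}
    (D : ι → Module.End ℤ L) (x : K ⊗[ℤ] L) (hx : x ≠ 0)
    (hD : ∀ i, (D i).baseChange K x = 0) :
    ∃ y : L, (¬ ∃ z : L, y = (p : ℤ) • z) ∧ ∀ i, ∃ z : L, D i y = (p : ℤ) • z := by
  classical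
  let _ : Algebra (ZMod p) K := ZMod.algebra K p
  let κ := Module.Basis.ofVectorSpace (ZMod p) K
  let b := Module.Free.chooseBasis ℤ L
  let f : Module.Basis.ofVectorSpaceIndex (ZMod p) K → K →ₗ[ℤ] ZMod p :=
    fun s => (κ.coord s).toAddMonoidHom.toIntLinearMap
  have hf : ∀ s a, f s a = κ.repr a s := fun s a => rfl
  -- coordinates
  have key : ∀ (s) (x : K ⊗[ℤ] L) (j),
      (b.baseChange (ZMod p)).repr ((f s).rTensor L x) j = f s ((b.baseChange K).repr x j) := by
    intro s x j
    induction x using TensorProduct.induction_on with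
    | zero => simp
    | tmul a l =>
      rw [LinearMap.rTensor_tmul, Module.Basis.baseChange_repr_tmul,
        Module.Basis.baseChange_repr_tmul, map_smul]
    | add x x' h h' =>
      rw [map_add, map_add, map_add, Finsupp.add_apply, Finsupp.add_apply, map_add, h, h']
  -- some component is nonzero
  obtain ⟨s, hs⟩ : ∃ s, (f s).rTensor L x ≠ 0 := by
    by_contra hcon
    push Not at hcon
    apply hx
    apply (b.baseChange K).repr.injective
    ext j
    rw [map_zero, Finsupp.zero_apply]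
    apply κ.repr.injective
    ext s
    rw [map_zero, Finsupp.zero_apply, ← hf, ← key, hcon s, map_zero, Finsupp.zero_apply]
  obtain ⟨y, hy⟩ := Desc_exists_one_tmul ((f s).rTensor L x)
  refine ⟨y, ?_, fun i => ?_⟩
  · rintro ⟨z, rfl⟩
    exact hs (by rw [hy, Desc_one_tmul_smul])
  · apply Desc_of_one_tmul_eq_zero (p := p)
    have h1 : (D i).lTensor (ZMod p) ((f s).rTensor L x) = (f s).rTensor L ((D i).lTensor K x) := by
      rw [← LinearMap.comp_apply, ← LinearMap.comp_apply, LinearMap.lTensor_comp_rTensor,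
        LinearMap.rTensor_comp_lTensor]
    have h2 : (D i).lTensor K x = 0 := by
      have := hD i
      rwa [LinearMap.baseChange_eq_ltensor] at this
    rw [h2, map_zero, hy, LinearMap.lTensor_tmul] at h1
    exact h1

end Fermat.Agent.MR.H
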