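import Fermat.Agent.MR.H.LA
import Fermat.Agent.MR.H.URange
import Fermat.Agent.S41.QI.AtkinLehner

/-!
# MR / H / Down1 : lowering the level of an eigensystem which contains a suitable `U_r`-eigenvalue
-/

set_option autoImplicit false

open CongruenceSubgroup
open scoped TensorProduct
open Fermat.Agent.S41
open Fermat.Agent.GAL.HK (latT latU)

namespace Fermat.Agent.MR.H

variable {K : Type*} [Field K] [IsAlgClosed K]

/-- **(D1)** `r ∣ N`, `U_r`-eigenvalue `≠ 0` : the system of level `N r` occurs at level `N`.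
PROOF: `x` the eigenvector. `a r • x = U_r x` lies in the range of `(lres₁ N r).baseChange K`
(`latU_mem_range_lres₁` + `TensorProduct.induction_on`), say `= π z`.  Apply `exists_eigen_of_map` with
`I = {ℓ // ℓ ∈ P ∧ ℓ.Prime}`, `S ℓ = (op N ℓ).baseChange K`, `T ℓ = (op (N r) ℓ).baseChange K`,
`π = (lres₁ N r).baseChange K`; equivariance = `op_lres₁` (every prime `ℓ` satisfies `ℓ ∣ N ∨ ¬ ℓ ∣ N r`
because `r ∣ N`), commutation = `op_comm`. -/
theorem occ_down_dvd (N r : ℕ) [NeZero N] (hr : r.Prime) (hrN : r ∣ N) (P : Set ℕ) (a : ℕ → K)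
    (hrP : r ∈ P) (har : a r ≠ 0) (h : Occ K (N * r) P a) : Occ K N P a := by
  have : NeZero r := ⟨hr.ne_zero⟩
  obtain ⟨x, hx, hE⟩ := h
  have hrange : ∀ y : K ⊗[ℤ] S41.Lat (N * r),
      (op (N * r) r).baseChange K y ∈ LinearMap.range ((lres₁ N r).baseChange K) := by
    intro y
    induction y using TensorProduct.induction_on with
    | zero => rw [map_zero]; exact zero_mem _
    | tmul c l =>
      rw [LinearMap.baseChange_tmul, op_of_dvd (N * r) hr (Dvd.intro_left N rfl)]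
      obtain ⟨w, hw⟩ := latU_mem_range_lres₁ N r hr hrN l
      exact ⟨c ⊗ₜ w, by rw [LinearMap.baseChange_tmul, hw]⟩
    | add y y' hy hy' => rw [map_add]; exact add_mem hy hy'
  obtain ⟨z, hz⟩ := hrange x
  rw [hE r hrP hr] at hz
  have hπz : (lres₁ N r).baseChange K z ≠ 0 := by
    rw [hz]
    exact smul_ne_zero har hx
  have hor : ∀ ℓ : ℕ, ℓ.Prime → ℓ ∣ N ∨ ¬ ℓ ∣ N * r := by
    intro ℓ hℓ
    by_cases h1 : ℓ ∣ N
    · exact Or.inl h1
    · refine Or.inr fun h2 => ?_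
      rcases (Nat.Prime.dvd_mul hℓ).1 h2 with h3 | h3
      · exact h1 h3
      · exact h1 (((Nat.prime_dvd_prime_iff_eq hℓ hr).1 h3) ▸ hrN)
  have hcomp : ∀ ℓ : ℕ, ℓ.Prime →
      (lres₁ N r) ∘ₗ (op N ℓ) = (op (N * r) ℓ) ∘ₗ (lres₁ N r) := by
    intro ℓ hℓ
    refine LinearMap.ext fun w => ?_
    exact (op_lres₁ N r hℓ (hor ℓ hℓ) w).symm
  obtain ⟨z', hz', hz'E⟩ := exists_eigen_of_map (I := {ℓ : ℕ // ℓ ∈ P ∧ ℓ.Prime})
    (fun ℓ => (op N ℓ.1).baseChange K) (fun ℓ => (op (N * r) ℓ.1).baseChange K)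
    (fun i j => by
      show _ * _ = _ * _
      rw [← LinearMap.baseChange_mul, ← LinearMap.baseChange_mul, (op_comm N i.1 j.1).eq])
    ((lres₁ N r).baseChange K)
    (fun i w => by
      have h1 := congrArg (fun f => LinearMap.baseChange K f w) (hcomp i.1 i.2.2)
      simpa only [LinearMap.baseChange_comp, LinearMap.comp_apply] using h1)
    (fun ℓ => a ℓ.1) z hπz
    (fun i => by rw [hz, map_smul, hE _ i.2.1 i.2.2, smul_comm])
  exact ⟨z', hz', fun ℓ hℓ hp => hz'E ⟨ℓ, hℓ, hp⟩⟩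

omit [IsAlgClosed K] in
theorem Down1_range (N r : ℕ) [NeZero N] [NeZero r] (hr : r.Prime) (hrN : ¬ r ∣ N)
    (y : K ⊗[ℤ] S41.Lat (N * r)) :
    (op (N * r) r).baseChange K ((op (N * r) r).baseChange K y) - y ∈
      LinearMap.range ((lres₁ N r).baseChange K) ⊔ LinearMap.range ((lres₂ N r).baseChange K) := by
  have key : y ∈ (LinearMap.range ((lres₁ N r).baseChange K) ⊔
      LinearMap.range ((lres₂ N r).baseChange K)).comap
        ((op (N * r) r).baseChange K ∘ₗ (op (N * r) r).baseChange K - LinearMap.id) := by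
    induction y using TensorProduct.induction_on with
    | zero => exact zero_mem _
    | tmul c l =>
      rw [Submodule.mem_comap, LinearMap.sub_apply, LinearMap.comp_apply, LinearMap.id_apply,
        LinearMap.baseChange_tmul, LinearMap.baseChange_tmul, ← TensorProduct.tmul_sub,
        op_of_dvd (N * r) hr (Dvd.intro_left N rfl)]
      have h1 := latU_sq_sub_mem_oldLat N r hr hrN (Dvd.intro_left N rfl) l
      rw [oldLat, Submodule.mem_sup] at h1
      obtain ⟨_, ⟨w₁, rfl⟩, _, ⟨w₂, rfl⟩, h2⟩ := h1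
      rw [← h2, TensorProduct.tmul_add]
      refine add_mem (Submodule.mem_sup_left ⟨c ⊗ₜ w₁, ?_⟩) (Submodule.mem_sup_right ⟨c ⊗ₜ w₂, ?_⟩)
      · rw [LinearMap.baseChange_tmul]
      · rw [LinearMap.baseChange_tmul]
    | add y y' hy hy' => exact add_mem hy hy'
  exact key

omit [IsAlgClosed K] in
theorem Down1_U_lres₁ (N r : ℕ) [NeZero N] [NeZero r] (hr : r.Prime) (hrN : ¬ r ∣ N)
    (w : K ⊗[ℤ] S41.Lat N) :
    (op (N * r) r).baseChange K ((lres₁ N r).baseChange K w) =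
      (lres₁ N r).baseChange K ((op N r).baseChange K w) - (lres₂ N r).baseChange K w := by
  have h0 : (op (N * r) r) ∘ₗ (lres₁ N r) = (lres₁ N r) ∘ₗ (op N r) - lres₂ N r :=
    LinearMap.ext fun w => op_self_lres₁ N r hr hrN w
  have h1 := congrArg (fun f => LinearMap.baseChange K f w) h0
  simpa only [LinearMap.baseChange_comp, LinearMap.baseChange_sub, LinearMap.comp_apply,
    LinearMap.sub_apply] using h1

omit [IsAlgClosed K] in
theorem Down1_U_lres₂ (N r : ℕ) [NeZero N] [NeZero r] (hr : r.Prime)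
    (w : K ⊗[ℤ] S41.Lat N) :
    (op (N * r) r).baseChange K ((lres₂ N r).baseChange K w) =
      (r : K) • (lres₁ N r).baseChange K w := by
  have h0 : (op (N * r) r) ∘ₗ (lres₂ N r) = (r : ℤ) • lres₁ N r :=
    LinearMap.ext fun w => by
      rw [LinearMap.comp_apply, op_self_lres₂ N r hr w, LinearMap.smul_apply, natCast_zsmul]
  have h1 := congrArg (fun f => LinearMap.baseChange K f w) h0
  simp only [LinearMap.baseChange_comp, LinearMap.baseChange_smul, LinearMap.comp_apply,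
    LinearMap.smul_apply] at h1
  rw [h1, natCast_zsmul, Nat.cast_smul_eq_nsmul]

/-- abstract form of (D3). -/
theorem Down1_abs {Z Y : Type*} [AddCommGroup Z] [Module K Z] [FiniteDimensional K Z]
    [AddCommGroup Y] [Module K Y] (U : Module.End K Y) (Tr : Module.End K Z) (α₁ α₂ : Z →ₗ[K] Y)
    (c : K) (hc : c ≠ 0) (h1 : ∀ w, U (α₁ w) = α₁ (Tr w) - α₂ w) (h2 : ∀ w, U (α₂ w) = c • α₁ w)
    (hr : ∀ y, U (U y) - y ∈ LinearMap.range α₁ ⊔ LinearMap.range α₂) (x : Y) (hx : x ≠ 0) :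
    U x ≠ 0 := by
  intro hUx
  obtain ⟨_, ⟨w₁, rfl⟩, _, ⟨w₂, rfl⟩, hz'⟩ := Submodule.mem_sup.1 (hr x)
  have hz := hz'.symm
  rw [hUx, map_zero, zero_sub] at hz
  have hSapp : ∀ w : Z × Z, ((LinearMap.coprod Tr (c • LinearMap.id)).prod
      (-(LinearMap.fst K Z Z)) : Module.End K (Z × Z)) w = (Tr w.1 + c • w.2, -w.1) := by
    intro w
    rw [LinearMap.prod_apply, Function.prod_apply, LinearMap.coprod_apply, LinearMap.smul_apply,
      LinearMap.id_apply, LinearMap.neg_apply, LinearMap.fst_apply]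
  have hπz : LinearMap.coprod α₁ α₂ (w₁, w₂) ≠ 0 := by
    rw [LinearMap.coprod_apply, ← hz]
    exact neg_ne_zero.2 hx
  obtain ⟨z', hz', hz'E⟩ := exists_eigen_of_map (I := Unit)
    (fun _ => ((LinearMap.coprod Tr (c • LinearMap.id)).prod
      (-(LinearMap.fst K Z Z)) : Module.End K (Z × Z))) (fun _ => U)
    (fun _ _ => Commute.refl _) (LinearMap.coprod α₁ α₂)
    (fun _ w => by
      rw [hSapp, LinearMap.coprod_apply, LinearMap.coprod_apply, map_add, map_add, map_neg,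
        map_smul, h1, h2]
      abel)
    (fun _ => 0) (w₁, w₂) hπz
    (fun _ => by rw [LinearMap.coprod_apply, ← hz, map_neg, hUx, neg_zero, zero_smul])
  have h0 := hz'E ()
  rw [zero_smul, hSapp, Prod.mk_eq_zero] at h0
  obtain ⟨h3, h4⟩ := h0
  have h5 : z'.1 = 0 := neg_eq_zero.1 h4
  rw [h5, map_zero, zero_add] at h3
  have h6 : z'.2 = 0 := (smul_eq_zero.1 h3).resolve_left hc
  exact hz' (Prod.ext h5 h6)

/-- **(D3)** `r ∤ N`, `r ≠ 0` in `K` : a `U_r`-eigenvalue at level `N r` is never `0`.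
PROOF: suppose `a r = 0`. Then `-x = (U_r² - 1) x = α₁ u₁ + α₂ u₂`.  `exists_eigen_of_map` with
`Z = (K ⊗ Lat N)²`, the single operator `S (u₁, u₂) = (T_r u₁ + r u₂, - u₁)`, `T = U_r`
(`op_self_lres₁`, `op_self_lres₂`), eigenvalue `0`: `z' = (u₁, u₂) ≠ 0` with `u₁ = 0`, `r u₂ = 0`. -/
theorem eig_U_ne_zero (N r : ℕ) [NeZero N] (hr : r.Prime) (hrN : ¬ r ∣ N) (hrK : (r : K) ≠ 0)
    (P : Set ℕ) (a : ℕ → K) (hrP : r ∈ P) (x : K ⊗[ℤ] S41.Lat (N * r)) (hx : x ≠ 0)
    (h : IsEig K (N * r) P a x) : a r ≠ 0 := by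
  have : NeZero r := ⟨hr.ne_zero⟩
  intro har
  refine Down1_abs ((op (N * r) r).baseChange K) ((op N r).baseChange K)
    ((lres₁ N r).baseChange K) ((lres₂ N r).baseChange K) (r : K) hrK
    (Down1_U_lres₁ N r hr hrN) (Down1_U_lres₂ N r hr) (Down1_range N r hr hrN) x hx ?_
  rw [h r hrP hr, har, zero_smul]

end Fermat.Agent.MR.H
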