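import Fermat.Agent.MR.H.BN2
import Fermat.Agent.GAL.ASM.Orbit

/-!
# MR / H / Embed : an irreducible two dimensional representation with the same Frobenius relations
embeds into the Galois span of an eigenvector of a Hecke--Galois module (abstract form)
-/

set_option autoImplicit false
set_option linter.style.haveILetI false

namespace Fermat.Agent.MR.H

open ValuationSubring Module Fermat.Agent.GR Fermat.Agent.GR.Asm Fermat.Agent.GAL

local notation "Qbar" => AlgebraicClosure ℚ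
local notation "GQ'" => (AlgebraicClosure ℚ ≃ₐ[ℚ] AlgebraicClosure ℚ)

/-- the product of two representations. -/
noncomputable def prodRep {κ G S E : Type*} [Field κ] [Group G] [AddCommGroup S] [Module κ S]
    [AddCommGroup E] [Module κ E] (ρS : G →* Module.End κ S) (ρE : G →* Module.End κ E) :
    G →* Module.End κ (S × E) where
  toFun g := (ρS g).prodMap (ρE g)
  map_one' := by
    rw [map_one, map_one]
    exact LinearMap.prodMap_one
  map_mul' a b := by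
    rw [map_mul, map_mul]
    exact LinearMap.prodMap_mul _ _ _ _

theorem embed_core {p bad : ℕ} [Fact p.Prime] (hbad : bad ≠ 0) (hp : p ∣ bad)
    {V : Type} [AddCommGroup V] [Module (ZMod p) V]
    (gal : GQ' →* Module.End (ZMod p) V) (T : ℕ → Module.End (ZMod p) V)
    (comm : ∀ σ ℓ, Commute (gal σ) (T ℓ))
    (smooth : ∀ v : V, ∃ L : IntermediateField ℚ Qbar, FiniteDimensional ℚ L ∧
      ∀ σ : GQ', (∀ x ∈ L, σ x = x) → gal σ v = v)
    (es : ∀ ℓ : ℕ, ℓ.Prime → ¬ ℓ ∣ bad → ∀ A : ValuationSubring Qbar, A.LiesOverPrime ℓ →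
      ∀ σ : GQ', A.IsFrobeniusAt σ ℓ →
        gal σ * gal σ - T ℓ * gal σ + (ℓ : Module.End (ZMod p) V) = 0)
    (a : ℕ → ZMod p) (v : V) (hv : v ≠ 0)
    (hev : ∀ ℓ : ℕ, ℓ.Prime → ¬ ℓ ∣ bad → T ℓ v = a ℓ • v)
    {E : Type} [AddCommGroup E] [Module (ZMod p) E] (hE : Module.finrank (ZMod p) E = 2)
    (ρE : GQ' →* Module.End (ZMod p) E) (hEfin : GaloisFactorsThroughFiniteLevel ρE)
    (hirr : ∀ U : Submodule (ZMod p) E, (∀ g, ∀ u ∈ U, ρE g u ∈ U) → U = ⊥ ∨ U = ⊤)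
    (hEes : ∀ ℓ : ℕ, ℓ.Prime → ¬ ℓ ∣ bad → ∀ A : ValuationSubring Qbar, A.LiesOverPrime ℓ →
      ∀ σ : GQ', A.IsFrobeniusAt σ ℓ → ρE σ * ρE σ - a ℓ • ρE σ + (ℓ : ZMod p) • 1 = 0)
    (hcheb : WeakChebotarev) :
    ∃ f : E →ₗ[ZMod p] V, Function.Injective f ∧ (∀ σ e, f (ρE σ e) = gal σ (f e)) ∧
      ∀ Z : AddSubgroup V, (∀ σ, ∀ w ∈ Z, gal σ w ∈ Z) → v ∈ Z → ∀ e, f e ∈ Z := by
  obtain ⟨L, hL, hLv⟩ := smooth v
  have hfin : (Set.range fun σ : GQ' => gal σ v).Finite := finite_orbit (ZMod p) gal v L hLv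
  set W : Submodule (ZMod p) V := Submodule.span (ZMod p) (Set.range fun σ : GQ' => gal σ v) with hWdef
  haveI : FiniteDimensional (ZMod p) W := FiniteDimensional.span_of_finite (ZMod p) hfin
  have hvW : v ∈ W := Submodule.subset_span ⟨1, by simp⟩
  haveI : Nontrivial W := ⟨⟨⟨v, hvW⟩, 0, fun h => hv (congrArg Subtype.val h)⟩⟩
  have hstab : ∀ g, ∀ x ∈ W, gal g x ∈ W := by
    intro g x hx
    induction hx using Submodule.span_induction with
    | mem y hy =>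
      obtain ⟨σ, rfl⟩ := hy
      refine Submodule.subset_span ⟨g * σ, ?_⟩
      simp [map_mul]
    | zero => simp
    | add y z _ _ hy hz => rw [map_add]; exact W.add_mem hy hz
    | smul c y _ hy => rw [map_smul]; exact W.smul_mem c hy
  have hkill : ∀ Z : AddSubgroup V, (∀ σ, ∀ w ∈ Z, gal σ w ∈ Z) → v ∈ Z → ∀ x ∈ W, x ∈ Z := by
    intro Z hZ hvZ x hx
    induction hx using Submodule.span_induction with
    | mem y hy =>
      obtain ⟨σ, rfl⟩ := hy
      exact hZ σ v hvZ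
    | zero => exact Z.zero_mem
    | add y z _ _ hy hz => exact Z.add_mem hy hz
    | smul c y _ hy =>
      have : c • y = c.val • y := by
        conv_lhs => rw [← ZMod.natCast_zmod_val c]
        rw [Nat.cast_smul_eq_nsmul]
      rw [this]
      exact Z.nsmul_mem hy _
  have heig : ∀ ℓ : ℕ, ℓ.Prime → ¬ ℓ ∣ bad → ∀ x ∈ W, T ℓ x = a ℓ • x := by
    intro ℓ hℓ hnd x hx
    have := hkill ((T ℓ - a ℓ • (1 : Module.End (ZMod p) V) : Module.End (ZMod p) V) :
        V →ₗ[ZMod p] V).toAddMonoidHom.ker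
      (fun σ w hw => by
        rw [AddMonoidHom.mem_ker] at hw ⊢
        have hc := congrArg (fun f : Module.End (ZMod p) V => f w) (comm σ ℓ).eq
        simp only [Module.End.mul_apply] at hc
        simp only [LinearMap.toAddMonoidHom_coe, LinearMap.sub_apply, LinearMap.smul_apply,
          Module.End.one_apply] at hw ⊢
        rw [← hc, ← map_smul, ← map_sub, hw, map_zero])
      (by
        rw [AddMonoidHom.mem_ker]
        simp only [LinearMap.toAddMonoidHom_coe, LinearMap.sub_apply, LinearMap.smul_apply,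
          Module.End.one_apply]
        rw [hev ℓ hℓ hnd, sub_self]) x hx
    rw [AddMonoidHom.mem_ker] at this
    simp only [LinearMap.toAddMonoidHom_coe, LinearMap.sub_apply, LinearMap.smul_apply,
      Module.End.one_apply] at this
    exact sub_eq_zero.mp this
  set ρS := restrictRep gal W hstab with hρS
  obtain ⟨L1, hL1, h1⟩ := finiteLevel_restrictRep (ZMod p) gal smooth W hstab
  obtain ⟨L3, hL3, h3⟩ := hEfin
  obtain ⟨L2, hL2, h2⟩ := cycloChar_finiteLevel p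
  set χ := cycloCharK p (ZMod p) with hχ
  have h2' : ∀ σ : GQ', (∀ x ∈ L2, σ x = x) → χ σ = 1 := fun σ hσ =>
    cycloCharK_eq_one p (ZMod p) (h2 σ hσ)
  set ρ := prodRep ρS ρE with hρ
  have hLfin : FiniteDimensional ℚ (L1 ⊔ L3 ⊔ L2 : IntermediateField ℚ Qbar) :=
    haveI := IntermediateField.finiteDimensional_sup L1 L3
    IntermediateField.finiteDimensional_sup (L1 ⊔ L3) L2
  have h13 : ∀ σ : GQ', (∀ x ∈ (L1 ⊔ L3 : IntermediateField ℚ Qbar), σ x = x) → ρ σ = 1 := by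
    intro σ hσ
    show (ρS σ).prodMap (ρE σ) = 1
    rw [h1 σ fun x hx => hσ x ((le_sup_left : L1 ≤ L1 ⊔ L3) hx),
      h3 σ fun x hx => hσ x ((le_sup_right : L3 ≤ L1 ⊔ L3) hx)]
    exact LinearMap.prodMap_one
  let Φ : Set GQ' := {σ | ∃ (ℓ : ℕ) (A : ValuationSubring Qbar), ℓ.Prime ∧ ¬ ℓ ∣ bad ∧
    A.LiesOverPrime ℓ ∧ A.IsFrobeniusAt σ ℓ}
  have hΦ : ∀ g : GQ', ∃ f ∈ Φ, ∃ j : ℕ, ρ g = ρ f ^ j ∧ χ g = χ f ^ j := by
    intro γ
    obtain ⟨ℓ, A, σ, j, hℓ, hℓT, hA, hσ, hag⟩ := hcheb (L1 ⊔ L3 ⊔ L2) hLfin bad.primeFactors γ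
    have hnd : ¬ ℓ ∣ bad := by
      intro hd
      exact hℓT (Nat.mem_primeFactors.mpr ⟨hℓ, hd, hbad⟩)
    refine ⟨σ, ⟨ℓ, A, hℓ, hnd, hA, hσ⟩, j, ?_, ?_⟩
    · exact map_eq_pow_of_agree ρ (L1 ⊔ L3) h13 γ σ j
        fun x hx => hag x ((le_sup_left : L1 ⊔ L3 ≤ L1 ⊔ L3 ⊔ L2) hx)
    · exact map_eq_pow_of_agree χ L2 h2' γ σ j
        fun x hx => hag x ((le_sup_right : L2 ≤ L1 ⊔ L3 ⊔ L2) hx)
  have hSes : ∀ ℓ : ℕ, ℓ.Prime → ¬ ℓ ∣ bad → ∀ A : ValuationSubring Qbar, A.LiesOverPrime ℓ →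
      ∀ σ : GQ', A.IsFrobeniusAt σ ℓ → ρS σ * ρS σ - a ℓ • ρS σ + (ℓ : (ZMod p)) • 1 = 0 := by
    intro ℓ hℓ hnd A hA σ hσ
    ext x
    have h2 := congrArg (fun f : Module.End (ZMod p) V => f (x : V)) (es ℓ hℓ hnd A hA σ hσ)
    simp only [LinearMap.add_apply, LinearMap.sub_apply, Module.End.mul_apply,
      LinearMap.zero_apply] at h2
    rw [heig ℓ hℓ hnd _ (hstab σ x x.2)] at h2
    simp only [LinearMap.add_apply, LinearMap.sub_apply, Module.End.mul_apply,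
      LinearMap.smul_apply, Module.End.one_apply, LinearMap.zero_apply, Submodule.coe_add,
      Submodule.coe_sub, Submodule.coe_smul, hρS, restrictRep_apply, ZeroMemClass.coe_zero]
    rw [← h2]
    congr 1
    rw [Module.End.natCast_apply, Nat.cast_smul_eq_nsmul]
  have hrelΦ : ∀ f ∈ Φ, ∃ a : (ZMod p), ρ f * ρ f - a • ρ f + ((χ f : (ZMod p)ˣ) : (ZMod p)) • 1 = 0 := by
    rintro f ⟨ℓ, A, hℓ, hnd, hA, hf⟩
    refine ⟨a ℓ, ?_⟩
    rw [hχ, cycloCharK_frobenius p (ZMod p) A f hℓ (ne_of_not_dvd_of_dvd hp hnd) hA hf]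
    have e1 := hSes ℓ hℓ hnd A hA f hf
    have e2 := hEes ℓ hℓ hnd A hA f hf
    apply LinearMap.ext
    rintro ⟨s, e⟩
    have e1' := congrArg (fun g : Module.End (ZMod p) W => g s) e1
    have e2' := congrArg (fun g : Module.End (ZMod p) E => g e) e2
    simp only [LinearMap.add_apply, LinearMap.sub_apply, Module.End.mul_apply,
      LinearMap.smul_apply, Module.End.one_apply, LinearMap.zero_apply] at e1' e2'
    show (ρ f (ρ f (s, e)) - a ℓ • ρ f (s, e) + (ℓ : (ZMod p)) • (s, e)) = 0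
    exact Prod.ext e1' e2'
  have hrel := rel_of_generators ρ χ Φ hΦ hrelΦ
  have hrel' : ∀ g, ∃ a : (ZMod p), ρS g * ρS g - a • ρS g + ((χ g : (ZMod p)ˣ) : (ZMod p)) • 1 = 0 ∧
      ρE g * ρE g - a • ρE g + ((χ g : (ZMod p)ˣ) : (ZMod p)) • 1 = 0 := by
    intro g
    obtain ⟨c, hc⟩ := hrel g
    refine ⟨c, ?_, ?_⟩
    · ext s
      have := congrArg (fun F : Module.End (ZMod p) (W × E) => (F (s, 0)).1) hc
      exact congrArg Subtype.val this
    · ext e
      exact congrArg (fun F : Module.End (ZMod p) (W × E) => (F (0, e)).2) hc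
  obtain ⟨f, hf, hfeq⟩ := exists_equivariant_injection hE ρS ρE χ hirr hrel'
  refine ⟨W.subtype.comp f, fun x y hxy => hf (Subtype.ext hxy), fun σ e => ?_, fun Z hZ hvZ e => ?_⟩
  · show ((f (ρE σ e) : W) : V) = gal σ (f e : V)
    rw [hfeq]
    rfl
  · exact hkill Z hZ hvZ _ (f e).2

end Fermat.Agent.MR.H
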