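import Fermat.Agent.MR.H.Top
import Fermat.Agent.MR.H.Top3

/-!
# MR / H / Final : the frozen statement S44 from the single contract `GeomF`
-/

set_option autoImplicit false

open WeierstrassCurve WeierstrassCurve.Affine WeierstrassCurve.Affine.Point

namespace Fermat.Agent.MR.H

/-- **S44 from `GeomF`** (everything of the Betti / lattice half of the Hecke side is consumed here). -/
theorem S44_of_geomF (P : FreyPackage)
    (hG : ∀ W : WeierstrassCurve ℤ, W.IsIntegralModelOf P.freyCurve →
      ∃ (K : Type) (_ : Field K) (_ : IsAlgClosed K) (_ : CharP K P.p), GeomF P.p W K)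
    {N : ℕ} (hcond : P.IsConductorLevel N) (hpN : P.p ∣ N)
    (hirr : GaloisRepIsIrreducible (K := AlgebraicClosure ℚ) ℚ P.freyCurve P.p)
    (hmod : P.ModularRepOfLevel N) : ∃ M : ℕ, M ∣ N ∧ ¬ P.p ∣ M ∧ P.ModularRepOfLevel M := by
  refine S44_of_geomOcc P (fun W hW => ?_) hcond hpN hirr hmod
  obtain ⟨K, i1, i2, i3, h⟩ := hG W hW
  refine ⟨K, i1, i2, i3, geomOcc_of_geomF P.pp ?_ W K h⟩
  have := P.hp5
  omega

end Fermat.Agent.MR.H
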