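import Fermat.Agent.MR.H.Embed
import Fermat.Agent.GAL.Module
import Fermat.Agent.GAL.AN.Main
import Fermat.Agent.S29
import Fermat.Agent.S41.G.NonEis

/-!
# MR / H / In : `E[p]` embeds into the Kummer classes of level `N`, exponent `p`, generated by the
Galois conjugates of one analytic Kummer element `u₀` with the Hecke eigenvalues of `E`
-/

set_option autoImplicit false
set_option linter.style.haveILetI false

open WeierstrassCurve WeierstrassCurve.Affine WeierstrassCurve.Affine.Point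
open Fermat.Agent.GAL Fermat.Agent.GAL.AN

noncomputable section

namespace Fermat.Agent.MR.H

theorem div_mem_FLu_iff {M : ℕ} (u v : LU) :
    u / v ∈ FLu M ↔ (u : LaurentSeries Qb) / (v : LaurentSeries Qb) ∈ FL Qb M := by
  rw [mem_FLu, Units.val_div_eq_div_val]

section abstract

variable {N : ℕ} (p : ℕ) (K : KumSys N) [Module (ZMod p) K.W]

/-- the Galois action on the Kummer classes, as a monoid homomorphism. -/
def kumGal : GQ →* Module.End (ZMod p) K.W where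
  toFun := fun σ => AddMonoidHom.toZModLinearMap p (K.act σ)
  map_one' := LinearMap.ext fun x => K.act_one x
  map_mul' := fun σ τ => LinearMap.ext fun x => K.act_mul σ τ x

/-- the subgroup of classes represented by elements of `𝒵`. -/
def clsSub (𝒵 : Subgroup LU) : AddSubgroup K.W where
  carrier := {x | ∃ u : K.S, (u : LU) ∈ 𝒵 ∧ K.cls u = x}
  zero_mem' := ⟨1, 𝒵.one_mem, rfl⟩
  add_mem' := by
    rintro _ _ ⟨u, hu, rfl⟩ ⟨v, hv, rfl⟩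
    exact ⟨u * v, 𝒵.mul_mem hu hv, rfl⟩
  neg_mem' := by
    rintro _ ⟨u, hu, rfl⟩
    exact ⟨u⁻¹, 𝒵.inv_mem hu, rfl⟩

theorem kum_embed [Fact p.Prime] (hN0 : N ≠ 0) (hN : AdmLevel N) {bad : ℕ} (hbad : bad ≠ 0)
    (hpbad : p ∣ bad) (hNbad : ∀ ℓ : ℕ, ¬ ℓ ∣ bad → ¬ ℓ ∣ N)
    (hgood : ∀ ℓ : ℕ, ¬ ℓ ∣ bad → K.good ℓ) (a : ℕ → ℤ)
    (u₀ : LU) (hu₀S : u₀ ∈ K.S) (hne : u₀ ∉ FLu N)
    (heig : ∀ (ℓ : ℕ) [NeZero ℓ], ℓ.Prime → ¬ ℓ ∣ bad → heckeU ℓ u₀ / u₀ ^ (a ℓ) ∈ FLu N)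
    {E : Type} [AddCommGroup E] [Module (ZMod p) E] (hE : Module.finrank (ZMod p) E = 2)
    (ρE : GQ →* Module.End (ZMod p) E) (hEfin : GaloisFactorsThroughFiniteLevel ρE)
    (hirr : ∀ U : Submodule (ZMod p) E, (∀ g, ∀ u ∈ U, ρE g u ∈ U) → U = ⊥ ∨ U = ⊤)
    (hEes : ∀ ℓ : ℕ, ℓ.Prime → ¬ ℓ ∣ bad → ∀ A : ValuationSubring Qb, A.LiesOverPrime ℓ →
      ∀ σ : GQ, A.IsFrobeniusAt σ ℓ →
        ρE σ * ρE σ - ((a ℓ : ℤ) : ZMod p) • ρE σ + (ℓ : ZMod p) • 1 = 0) :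
    ∃ J : E → LU,
      (∀ P Q, J (P + Q) / (J P * J Q) ∈ FLu N) ∧
      (∀ (σ : GQ) P, galU σ (J P) / J (ρE σ P) ∈ FLu N) ∧
      (∀ P, J P ∈ FLu N → P = 0) ∧
      (∀ 𝒵 : Subgroup LU, FLu N ≤ 𝒵 → (∀ σ, ∀ u ∈ 𝒵, galU σ u ∈ 𝒵) → u₀ ∈ 𝒵 →
        ∀ P, J P ∈ 𝒵) := by
  have hx₀ne : K.cls ⟨u₀, hu₀S⟩ ≠ 0 := fun h => hne ((K.cls_eq_zero_iff _).mp h)
  obtain ⟨f, hfinj, hfeq, hfZ⟩ := embed_core (p := p) (bad := bad) hbad hpbad
    (V := K.W) (kumGal p K) (fun ℓ => AddMonoidHom.toZModLinearMap p (K.T ℓ))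
    (fun σ ℓ => LinearMap.ext fun x => K.act_T σ ℓ x)
    (fun v => K.smooth v)
    (fun ℓ hℓ hnd A hA σ hσ => LinearMap.ext fun x => by
      have h := K.es Fermat.Agent.S29.keyLemma hN0 hN hℓ (hNbad ℓ hnd) (hgood ℓ hnd) A hA σ hσ x
      refine Eq.trans ?_ h
      show _ - _ + (ℓ : Module.End (ZMod p) K.W) x = _
      rw [Module.End.natCast_apply]
      rfl)
    (fun ℓ => ((a ℓ : ℤ) : ZMod p)) (K.cls ⟨u₀, hu₀S⟩) hx₀ne
    (by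
      intro ℓ hℓ hnd
      haveI : NeZero ℓ := ⟨hℓ.ne_zero⟩
      have h1 := heig ℓ hℓ hnd
      show K.T ℓ _ = _
      rw [K.T_cls ℓ hℓ (hNbad ℓ hnd), Int.cast_smul_eq_zsmul]
      have h2 : (a ℓ) • K.cls ⟨u₀, hu₀S⟩ = K.cls (⟨u₀, hu₀S⟩ ^ (a ℓ)) := rfl
      rw [h2, K.cls_eq_iff]
      exact (div_mem_FLu_iff _ _).mp h1)
    hE ρE hEfin hirr hEes Fermat.Agent.GAL.Cheb.weakChebotarev_asm
  choose j hj using fun P : E => K.cls_surjective (f P)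
  refine ⟨fun P => (j P : LU), ?_, ?_, ?_, ?_⟩
  · intro P Q
    rw [div_mem_FLu_iff]
    have h1 : K.cls (j (P + Q)) = K.cls (j P * j Q) := by
      rw [K.cls_mul, hj, hj, hj, map_add]
    have h2 := (K.cls_eq_iff _ _).mp h1
    rwa [Subgroup.coe_mul] at h2
  · intro σ P
    beta_reduce
    rw [div_mem_FLu_iff]
    have h1 : K.cls ⟨galU σ (j P), K.gal_mem σ _ (j P).2⟩ = K.cls (j (ρE σ P)) := by
      rw [← K.act_cls, hj, hj]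
      exact (hfeq σ P).symm
    have h2 := (K.cls_eq_iff _ _).mp h1
    exact h2
  · intro P hP
    have h1 : K.cls (j P) = 0 := (K.cls_eq_zero_iff _).mpr hP
    rw [hj] at h1
    exact hfinj (h1.trans (map_zero f).symm)
  · intro 𝒵 hF hgal hu P
    obtain ⟨u, hu𝒵, hucls⟩ : f P ∈ clsSub K 𝒵 := hfZ (clsSub K 𝒵)
      (by
        rintro σ _ ⟨u, hu, rfl⟩
        exact ⟨⟨galU σ u, K.gal_mem σ u u.2⟩, hgal σ u hu, rfl⟩)
      ⟨⟨u₀, hu₀S⟩, hu, rfl⟩ P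
    have h1 : K.cls (j P) = K.cls u := by rw [hj, hucls]
    have h2 : (j P : LU) / (u : LU) ∈ FLu N :=
      (div_mem_FLu_iff _ _).mpr ((K.cls_eq_iff _ _).mp h1)
    have h3 : (j P : LU) = (j P : LU) / (u : LU) * (u : LU) := by rw [div_mul_cancel]
    show (j P : LU) ∈ 𝒵
    rw [h3]
    exact 𝒵.mul_mem (hF h2) hu𝒵

end abstract

/-- the `p`-torsion of `E` over `ℚ̄`. -/
abbrev Tors (E : WeierstrassCurve ℚ) (p : ℕ) : Type :=
  Submodule.torsionBy ℤ (E⁄(AlgebraicClosure ℚ)).Point p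

theorem h_in_core (N p : ℕ) [NeZero N] [NeZero p] (hN : AdmLevel N) (hp : p.Prime) (hp2 : p ≠ 2)
    (hpN : p ∣ N) (E : WeierstrassCurve ℚ) [E.IsElliptic] {W : WeierstrassCurve ℤ}
    (hW : W.IsIntegralModelOf E)
    (hirr : GaloisRepIsIrreducible (K := AlgebraicClosure ℚ) ℚ E p)
    (u₀ : LU) (hu₀ : u₀ ∈ Van N p) (hne : u₀ ∉ FLu N) (T₀ : Finset ℕ)
    (heig : ∀ (ℓ : ℕ) [NeZero ℓ], ℓ.Prime → ¬ ℓ ∣ N → W.IsGoodPrimeFor ℓ → ℓ ∉ T₀ →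
      heckeU ℓ u₀ / u₀ ^ (W.apOfModel ℓ) ∈ FLu N) :
    ∃ J : Tors E p → LU,
      (∀ P Q, J (P + Q) / (J P * J Q) ∈ FLu N) ∧
      (∀ (σ : GQ) P, galU σ (J P) / J (σ • P) ∈ FLu N) ∧
      (∀ P, J P ∈ FLu N → P = 0) ∧
      (∀ 𝒵 : Subgroup LU, FLu N ≤ 𝒵 → (∀ σ, ∀ u ∈ 𝒵, galU σ u ∈ 𝒵) → u₀ ∈ 𝒵 →
        ∀ P, J P ∈ 𝒵) := by
  classical
  haveI : Fact p.Prime := ⟨hp⟩
  have hΔ := Fermat.Agent.S41.G.assembly_Δ_ne_zero E hW
  have hn : p ≠ 0 := hp.ne_zero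
  obtain ⟨bad, hbaddef⟩ : ∃ bad : ℕ, bad = N * p * 6 * W.Δ.natAbs * ∏ t ∈ T₀.erase 0, t := ⟨_, rfl⟩
  have hbad : bad ≠ 0 := by
    rw [hbaddef]
    refine mul_ne_zero (mul_ne_zero (mul_ne_zero (mul_ne_zero (NeZero.ne N) hn) (by norm_num))
      (by simpa using hΔ)) ?_
    rw [Finset.prod_ne_zero_iff]
    intro t ht
    exact (Finset.mem_erase.mp ht).1
  have hpbad : p ∣ bad := by
    rw [hbaddef]
    exact Dvd.dvd.mul_right (Dvd.dvd.mul_right (Dvd.dvd.mul_right (Dvd.intro_left N rfl) _) _) _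
  have hb1 : ∀ ℓ : ℕ, ¬ ℓ ∣ bad → ¬ ℓ ∣ N * p := fun ℓ h h' => h (by
    rw [hbaddef]
    exact Dvd.dvd.mul_right (Dvd.dvd.mul_right (Dvd.dvd.mul_right h' _) _) _)
  have hb2 : ∀ ℓ : ℕ, ¬ ℓ ∣ bad → ¬ ℓ ∣ 6 := fun ℓ h h' => h (by
    rw [hbaddef]
    exact Dvd.dvd.mul_right (Dvd.dvd.mul_right (Dvd.dvd.mul_left h' _) _) _)
  have hb3 : ∀ ℓ : ℕ, ¬ ℓ ∣ bad → W.IsGoodPrimeFor ℓ := fun ℓ h h' => h (by
    rw [hbaddef]
    exact Dvd.dvd.mul_right (Dvd.dvd.mul_left (Int.natCast_dvd.1 h') _) _)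
  have hb4 : ∀ ℓ : ℕ, ℓ.Prime → ¬ ℓ ∣ bad → ℓ ∉ T₀ := fun ℓ hℓ h h' => h (by
    rw [hbaddef]
    exact Dvd.dvd.mul_left (Finset.dvd_prod_of_mem _ (Finset.mem_erase.mpr ⟨hℓ.ne_zero, h'⟩)) _)
  have hb5 : ∀ ℓ : ℕ, ℓ.Prime → ¬ ℓ ∣ bad → 5 ≤ ℓ := by
    intro ℓ hℓ h
    have h6 := hb2 ℓ h
    have h2 := hℓ.two_le
    by_contra hlt
    have : ℓ = 2 ∨ ℓ = 3 ∨ ℓ = 4 := by omega
    rcases this with rfl | rfl | rfl
    · exact h6 (by norm_num)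
    · exact h6 (by norm_num)
    · exact absurd hℓ (by norm_num)
  have htor : ∀ P : Tors E p, (p : ℤ) • (P : (E⁄(AlgebraicClosure ℚ)).Point) = 0 := by
    intro P
    have := P.2
    rwa [Submodule.mem_torsionBy_iff] at this
  exact kum_embed p (hgmSys (anPackage N p hN) hn) (NeZero.ne N) hN hbad hpbad
    (fun ℓ h => (hgm_split (anPackage N p hN) hn ℓ (hb1 ℓ h)).1)
    (fun ℓ h => (hgm_split (anPackage N p hN) hn ℓ (hb1 ℓ h)).2)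
    (fun ℓ => W.apOfModel ℓ) u₀
    (Van_le_genSys (fun _ : Unit => p) (fun _ => anPackage N p hN) (fun _ => hn) () () hu₀) hne
    (fun ℓ _ hℓ hnd => heig ℓ hℓ (fun h => hb1 ℓ hnd (Dvd.dvd.mul_right h p)) (hb3 ℓ hnd)
      (hb4 ℓ hℓ hnd))
    (E := Tors E p)
    (Fermat.Agent.S41.G.finrank_torsionBy_Qbar E E.isUnit_Δ.ne_zero hp hp2)
    (DistribMulAction.toModuleEnd (ZMod p) (Tors E p))
    (by
      obtain ⟨L, hLfin, hL⟩ := Fermat.Agent.S41.G.exists_torsion_field E hp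
      refine ⟨L, hLfin, fun σ hσ => ?_⟩
      refine LinearMap.ext fun P => Subtype.ext ?_
      have := hL σ 1 (fun x hx => by rw [hσ x hx]; rfl) (P : (E⁄(AlgebraicClosure ℚ)).Point) (htor P)
      rw [one_smul] at this
      exact this)
    (fun U hU => hirr.2 U fun σ x hx => hU σ x hx)
    (by
      intro ℓ hℓ hnd A hA σ hσ
      have hℓp : ℓ ≠ p := by
        rintro rfl
        exact hnd hpbad
      refine LinearMap.ext fun P => ?_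
      have h := Fermat.Agent.S41.G.frob_ch_torsion E hW hp hp2 hℓ (hb5 ℓ hℓ hnd) hℓp (hb3 ℓ hnd)
        A hA σ hσ (P : (E⁄(AlgebraicClosure ℚ)).Point) (htor P)
      have e : (DistribMulAction.toModuleEnd (ZMod p) (Tors E p) σ *
            DistribMulAction.toModuleEnd (ZMod p) (Tors E p) σ
          - ((W.apOfModel ℓ : ℤ) : ZMod p) • DistribMulAction.toModuleEnd (ZMod p) (Tors E p) σ
          + (ℓ : ZMod p) • 1) P
          = σ • σ • P - (W.apOfModel ℓ) • σ • P + (ℓ : ℤ) • P := by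
        rw [← Int.cast_smul_eq_zsmul (ZMod p) (W.apOfModel ℓ), ← Int.cast_smul_eq_zsmul (ZMod p) (ℓ : ℤ)]
        simp only [Int.cast_natCast]
        rfl
      rw [e]
      exact Subtype.ext h)

end Fermat.Agent.MR.H
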