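import Fermat.Agent.MR.H.WOp

/-!
# MR / H / QIW : the Atkin--Lehner operator `W_q` commutes with `U_r` (`r ∣ N`) and `T_ℓ` (`ℓ ∤ N q`)
-/

set_option autoImplicit false
open CongruenceSubgroup Matrix ModularCurve.Period
open scoped MatrixGroups
open Fermat.Agent.GAL Fermat.Agent.GAL.HK Fermat.Agent.S41

namespace Fermat.Agent.MR.H

section general

variable {R : Type*} [AddCommGroup R]

/-- two primitives which differ by a constant (off `0`) belong to the same homomorphism. -/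
theorem QIW_hom_unique {Γ : Subgroup SL(2, ℤ)} {φ φ' : Additive Γ →+ R} {k k' : V2 → R}
    (h : IsQI Γ φ k) (h' : IsQI Γ φ' k') (c : R) (hc : ∀ v, v ≠ 0 → k v = k' v + c) : φ = φ' := by
  ext γ
  have hv : e₁ ≠ 0 := Prim.e₁_ne_zero
  have h1 := h.qi (Additive.toMul γ) _ hv
  have h2 := h'.qi (Additive.toMul γ) _ hv
  rw [hc _ (Prim.sl_mulVec_ne_zero _ hv), hc _ hv, h2] at h1
  have h3 : k' e₁ + c + φ' (Additive.ofMul (Additive.toMul γ)) =
      k' e₁ + c + φ (Additive.ofMul (Additive.toMul γ)) := by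
    rw [← h1]; abel
  exact (add_left_cancel h3).symm

theorem QIW_sum {M : ℕ} {φ : Additive (Gamma0 M) →+ R} {k : V2 → R} (h : IsQI (Gamma0 M) φ k)
    {J : Type*} [Fintype J] (B C : J → Matrix (Fin 2) (Fin 2) ℤ) (hC : ∀ j, (C j).det ≠ 0)
    (s : J → J) (hs : Function.Injective s) (γ : J → Gamma0 M)
    (hB : ∀ i, B i = ((γ i : SL(2, ℤ)) : Matrix (Fin 2) (Fin 2) ℤ) * C (s i)) (v : V2)
    (hv : v ≠ 0) :
    ∑ i, k (zq (B i) *ᵥ v) = ∑ i, k (zq (C i) *ᵥ v) + ∑ i, φ (Additive.ofMul (γ i)) := by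
  have h1 : ∀ i, k (zq (B i) *ᵥ v) = k (zq (C (s i)) *ᵥ v) + φ (Additive.ofMul (γ i)) := by
    intro i
    rw [hB i, qiHecke_zq_mul, ← Matrix.mulVec_mulVec]
    exact h.qi _ _ (qiHecke_mulVec_ne_zero (hC _) hv)
  rw [Finset.sum_congr rfl fun i _ => h1 i, Finset.sum_add_distrib]
  congr 1
  exact Equiv.sum_comp (Equiv.ofBijective s (Finite.injective_iff_bijective.1 hs))
    (fun j => k (zq (C j) *ᵥ v))

end general

section mat

variable (N q : ℕ) {x y : ℤ} (hxy : (q : ℤ) * x - N * y = 1) (hq0 : q ≠ 0)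

include hxy hq0 in
/-- `w ρ = A' w` for an upper triangular `ρ`, with `det A' = det ρ`. -/
theorem QIW_conj_tri (a b d : ℤ) :
    AL.wMat N q x y * !![a, b; 0, d] = AL.conjMat N q (x := x) (y := y) a b 0 d * AL.wMat N q x y ∧
      (AL.conjMat N q (x := x) (y := y) a b 0 d).det = a * d := by
  have hmul := AL.wMat_mul N q hxy a b 0 d
  rw [mul_zero] at hmul
  refine ⟨hmul, ?_⟩
  have h1 := congrArg Matrix.det hmul
  rw [Matrix.det_mul, Matrix.det_mul, AL.wMat_det N q hxy, Matrix.det_fin_two_of] at h1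
  have hq' : (q : ℤ) ≠ 0 := by exact_mod_cast hq0
  apply mul_right_cancel₀ hq'
  linear_combination -h1

include hxy hq0 in
theorem QIW_inj {ℓ : ℕ} (hℓ : ℓ.Prime) {i i' j : Option (Fin ℓ)} {γ γ' : Gamma0 (N * q)}
    (h : AL.wMat N q x y * heckeRep ℓ i =
      ((γ : SL(2, ℤ)) : Matrix (Fin 2) (Fin 2) ℤ) * heckeRep ℓ j * AL.wMat N q x y)
    (h' : AL.wMat N q x y * heckeRep ℓ i' =
      ((γ' : SL(2, ℤ)) : Matrix (Fin 2) (Fin 2) ℤ) * heckeRep ℓ j * AL.wMat N q x y) : i = i' := by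
  have hq' : (q : ℤ) ≠ 0 := by exact_mod_cast hq0
  -- `g₀ ρ_i = c(γ) X / q`
  have key : ∀ (i : Option (Fin ℓ)) (γ : Gamma0 (N * q)),
      AL.wMat N q x y * heckeRep ℓ i =
        ((γ : SL(2, ℤ)) : Matrix (Fin 2) (Fin 2) ℤ) * heckeRep ℓ j * AL.wMat N q x y →
      (q : ℤ) • ((((conjW N q hxy hq0 γ : SL(2, ℤ))⁻¹ * AL.gam0 N q hxy : SL(2, ℤ)) :
        Matrix (Fin 2) (Fin 2) ℤ) * heckeRep ℓ i) =
        AL.wMat N q x y * heckeRep ℓ j * AL.wMat N q x y := by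
    intro i γ h
    have h1 : AL.wMat N q x y * AL.wMat N q x y * heckeRep ℓ i =
        ((conjW N q hxy hq0 γ : SL(2, ℤ)) : Matrix (Fin 2) (Fin 2) ℤ) *
          (AL.wMat N q x y * heckeRep ℓ j * AL.wMat N q x y) := by
      rw [Matrix.mul_assoc, h, ← Matrix.mul_assoc, ← Matrix.mul_assoc, conjW_spec N q hxy hq0 γ,
        Matrix.mul_assoc, Matrix.mul_assoc, Matrix.mul_assoc]
    rw [AL.wMat_sq N q hxy, Matrix.smul_mul] at h1
    rw [Matrix.SpecialLinearGroup.coe_mul, Matrix.mul_assoc, ← Matrix.mul_smul, h1,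
      ← Matrix.mul_assoc, ← Matrix.SpecialLinearGroup.coe_mul, inv_mul_cancel,
      Matrix.SpecialLinearGroup.coe_one, Matrix.one_mul]
  have h1 := (key i γ h).trans (key i' γ' h').symm
  exact (hermite_unique hℓ (smul_right_injective _ hq' h1)).2

include hxy hq0 in
theorem QIW_exists_T {ℓ : ℕ} (hℓ : ℓ.Prime) (hℓM : ¬ ℓ ∣ N * q) (i : Option (Fin ℓ)) :
    ∃ (γ : Gamma0 (N * q)) (j : Option (Fin ℓ)), AL.wMat N q x y * heckeRep ℓ i =
      ((γ : SL(2, ℤ)) : Matrix (Fin 2) (Fin 2) ℤ) * heckeRep ℓ j * AL.wMat N q x y := by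
  obtain ⟨a, b, d, hρ, had⟩ : ∃ a b d : ℤ, heckeRep ℓ i = !![a, b; 0, d] ∧ a * d = ℓ := by
    cases i with
    | none => exact ⟨ℓ, 0, 1, rfl, mul_one _⟩
    | some t => exact ⟨1, t, ℓ, rfl, one_mul _⟩
  obtain ⟨hmul, hdet⟩ := QIW_conj_tri N q hxy hq0 a b d
  rw [had] at hdet
  obtain ⟨g, j, hg⟩ := exists_hermite hℓ _ hdet
  have h10 : (AL.conjMat N q (x := x) (y := y) a b 0 d) 1 0 = N * q * (a + q * 0 - N * b - d) := rfl
  have hmem : g ∈ Gamma0 (N * q) := by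
    rw [AL.mem_Gamma0_iff_dvd]
    have hdvd : ((N * q : ℕ) : ℤ) ∣ (AL.conjMat N q (x := x) (y := y) a b 0 d) 1 0 := by
      rw [h10]
      push_cast
      exact Dvd.intro _ rfl
    rw [hg] at hdvd
    cases j with
    | none =>
      have e : ((g : Matrix (Fin 2) (Fin 2) ℤ) * heckeRep ℓ none) 1 0 = g 1 0 * ℓ := by
        simp [heckeRep, Matrix.mul_apply, Fin.sum_univ_two]
      rw [e] at hdvd
      have hcop : IsCoprime ((N * q : ℕ) : ℤ) (ℓ : ℤ) :=
        Nat.isCoprime_iff_coprime.2 ((Nat.Prime.coprime_iff_not_dvd hℓ).2 hℓM).symm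
      exact hcop.dvd_of_dvd_mul_right hdvd
    | some t =>
      have e : ((g : Matrix (Fin 2) (Fin 2) ℤ) * heckeRep ℓ (some t)) 1 0 = g 1 0 := by
        simp [heckeRep, Matrix.mul_apply, Fin.sum_univ_two]
      rwa [e] at hdvd
  exact ⟨⟨g, hmem⟩, j, by rw [hρ, hmul, hg]⟩

include hxy hq0 in
theorem QIW_exists_U {r : ℕ} (hr : r.Prime) (hrN : r ∣ N) (b : Fin r) :
    ∃ (γ : Gamma0 (N * q)) (b' : Fin r), AL.wMat N q x y * heckeRep r (some b) =
      ((γ : SL(2, ℤ)) : Matrix (Fin 2) (Fin 2) ℤ) * heckeRep r (some b') * AL.wMat N q x y := by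
  obtain ⟨hmul, hdet⟩ := QIW_conj_tri N q hxy hq0 1 (b : ℤ) r
  rw [one_mul] at hdet
  obtain ⟨g, j, hg⟩ := exists_hermite hr _ hdet
  have h10 : (AL.conjMat N q (x := x) (y := y) 1 (b : ℤ) 0 r) 1 0 =
      N * q * (1 + q * 0 - N * b - r) := rfl
  have h00 : (AL.conjMat N q (x := x) (y := y) 1 (b : ℤ) 0 r) 0 0 =
      q * x * 1 + y * N * q * 0 - N * q * x * b - N * y * r := rfl
  cases j with
  | none =>
    exfalso
    have e : ((g : Matrix (Fin 2) (Fin 2) ℤ) * heckeRep r none) 0 0 = g 0 0 * r := by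
      simp [heckeRep, Matrix.mul_apply, Fin.sum_univ_two]
    rw [hg, e] at h00
    obtain ⟨n', rfl⟩ := hrN
    have hone : (r : ℤ) ∣ 1 := by
      refine ⟨g 0 0 - n' * y + n' * q * x * b + n' * y * r, ?_⟩
      push_cast at h00 hxy
      linear_combination -hxy - h00
    have := Int.natAbs_dvd_natAbs.2 hone
    simp at this
    exact hr.one_lt.ne' this
  | some t =>
    have hmem : g ∈ Gamma0 (N * q) := by
      rw [AL.mem_Gamma0_iff_dvd]
      have hdvd : ((N * q : ℕ) : ℤ) ∣ (AL.conjMat N q (x := x) (y := y) 1 (b : ℤ) 0 r) 1 0 := by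
        rw [h10]
        push_cast
        exact Dvd.intro _ rfl
      rw [hg] at hdvd
      have e : ((g : Matrix (Fin 2) (Fin 2) ℤ) * heckeRep r (some t)) 1 0 = g 1 0 := by
        simp [heckeRep, Matrix.mul_apply, Fin.sum_univ_two]
      rwa [e] at hdvd
    refine ⟨⟨g, hmem⟩, t, ?_⟩
    have hρ : heckeRep r (some b) = !![1, (b : ℤ); 0, (r : ℤ)] := rfl
    rw [hρ, hmul, hg]

end mat

theorem cohU_Wop {R : Type*} [AddCommGroup R] (N q : ℕ) [NeZero N] [NeZero q] {x y : ℤ}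
    (hxy : (q : ℤ) * x - N * y = 1) (hq : q.Prime) (hqN : ¬ q ∣ N) {r : ℕ} (hr : r.Prime)
    (hrN : r ∣ N) (hrM : r ∣ N * q)
    {φ : Additive (Gamma0 (N * q)) →+ R} (hφ : IsParabolicHom (Gamma0 (N * q)) φ) :
    cohU (N * q) hr hrM R (Wop N q hxy hq.ne_zero R φ)
      = Wop N q hxy hq.ne_zero R (cohU (N * q) hr hrM R φ) := by
  obtain ⟨k, hk⟩ := exists_isQI (N * q) φ hφ
  have hL := (IsQI.wop N q hxy hq.ne_zero hk).heckeU (N * q) hr hrM
  have hR := IsQI.wop N q hxy hq.ne_zero (hk.heckeU (N * q) hr hrM)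
  choose γ s hs using QIW_exists_U N q hxy hq.ne_zero hr hrN
  have hinj : Function.Injective s := by
    intro b b' hbb'
    have h' := hs b'
    rw [← hbb'] at h'
    exact Option.some_injective _ (QIW_inj N q hxy hq.ne_zero hr (hs b) h')
  have hq' : (q : ℤ) ≠ 0 := by exact_mod_cast hq.ne_zero
  refine QIW_hom_unique hL hR (∑ b, φ (Additive.ofMul (γ b))) (fun v hv => ?_)
  have h1 := QIW_sum hk (fun b => AL.wMat N q x y * heckeRep r (some b))
    (fun b => heckeRep r (some b) * AL.wMat N q x y)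
    (fun b => by
      rw [Matrix.det_mul, AL.wMat_det N q hxy]
      exact mul_ne_zero (qiHecke_det_heckeRep hr.ne_zero _) hq')
    s hinj γ (fun b => by rw [hs b, Matrix.mul_assoc]) v hv
  simp only [qiHecke_zq_mul, ← Matrix.mulVec_mulVec] at h1
  exact h1

theorem cohT_Wop {R : Type*} [AddCommGroup R] (N q : ℕ) [NeZero N] [NeZero q] {x y : ℤ}
    (hxy : (q : ℤ) * x - N * y = 1) (hq : q.Prime) (hqN : ¬ q ∣ N) {ℓ : ℕ} (hℓ : ℓ.Prime)
    (hℓM : ¬ ℓ ∣ N * q)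
    {φ : Additive (Gamma0 (N * q)) →+ R} (hφ : IsParabolicHom (Gamma0 (N * q)) φ) :
    cohT (N * q) hℓ hℓM R (Wop N q hxy hq.ne_zero R φ)
      = Wop N q hxy hq.ne_zero R (cohT (N * q) hℓ hℓM R φ) := by
  obtain ⟨k, hk⟩ := exists_isQI (N * q) φ hφ
  have hL := (IsQI.wop N q hxy hq.ne_zero hk).heckeT (N * q) hℓ hℓM
  have hR := IsQI.wop N q hxy hq.ne_zero (hk.heckeT (N * q) hℓ hℓM)
  choose γ s hs using QIW_exists_T N q hxy hq.ne_zero hℓ hℓM
  have hinj : Function.Injective s := by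
    intro b b' hbb'
    have h' := hs b'
    rw [← hbb'] at h'
    exact QIW_inj N q hxy hq.ne_zero hℓ (hs b) h'
  have hq' : (q : ℤ) ≠ 0 := by exact_mod_cast hq.ne_zero
  refine QIW_hom_unique hL hR (∑ b, φ (Additive.ofMul (γ b))) (fun v hv => ?_)
  have h1 := QIW_sum hk (fun b => AL.wMat N q x y * heckeRep ℓ b)
    (fun b => heckeRep ℓ b * AL.wMat N q x y)
    (fun b => by
      rw [Matrix.det_mul, AL.wMat_det N q hxy]
      exact mul_ne_zero (qiHecke_det_heckeRep hℓ.ne_zero _) hq')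
    s hinj γ (fun b => by rw [hs b, Matrix.mul_assoc]) v hv
  simp only [qiHecke_zq_mul, ← Matrix.mulVec_mulVec] at h1
  exact h1

end Fermat.Agent.MR.H
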