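import Mathlib
import Fermat.Agent.MR.H.AnW.Main
import Fermat.Agent.MR.Contracts
import Fermat.Agent.TOR.AnU.Main
import Fermat.Agent.TOR.GB.Norm
import Fermat.Agent.CAR.WN1.Main

/-!
# MR / H / New : [H-NEW], elementwise

`X ∈ Van (N' p) p` whose character `φ` satisfies `W φ + U_p φ = 0`.  Then `X` is `p`-new in the norm form:
`w_p (X^p) · U_p (X^p) = g ^ p` with `g ∈ FL ℚ̄ N'`.
-/

set_option autoImplicit false

open ModularCurve AlgebraicCurve CongruenceSubgroup UpperHalfPlane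
open Fermat.Agent.S24 ModularForm
open Fermat.Agent.GAL Fermat.Agent.GAL.AN Fermat.Agent.GAL.HK Fermat.Agent.GR.HeckeField
open Fermat.Agent.TOR.GB
open scoped MatrixGroups Manifold

noncomputable section

namespace Fermat.Agent.MR.H

attribute [local instance] algFN

variable {M q : ℕ} [NeZero M] [NeZero q]

/-- descent of an `n`-th root from level `M q` to level `M`, `n` prime to `q + 1`. -/
theorem mem_FL_of_pow_mem_FL (hq : q.Prime) (hqM : ¬ q ∣ M) {n : ℕ} [NeZero n]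
    (hn : Nat.Coprime n (q + 1)) {g : LaurentSeries Qb} (hg : g ∈ FL Qb (M * q))
    (hgn : g ^ n ∈ FL Qb M) : g ∈ FL Qb M := by
  have h1 : (⟨g, hg⟩ : FN (M * q)) ∈ (algebraMap (FN M) (FN (M * q))).range := by
    refine Fermat.Agent.CAR.WN1.mem_range_of_pow_mem_range (NeZero.ne n)
      (by rw [finrank_FN_mul M q hq hqM]; exact hn)
      (fun ζ hζ => Fermat.Agent.CAR.WN1.rootsOfUnity_mem_range ζ hζ) ?_
    refine ⟨⟨g ^ n, hgn⟩, ?_⟩
    apply Subtype.ext
    rw [algebraMap_FN_apply, coe_heckeAlphaBar]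
    rfl
  obtain ⟨y, hy⟩ := h1
  have h2 : (y : LaurentSeries Qb) = g := by
    have := congrArg Subtype.val hy
    rw [algebraMap_FN_apply, coe_heckeAlphaBar] at this
    exact this
  rw [← h2]
  exact y.2

/-- **[H-NEW], elementwise.** -/
theorem isNew_of_wop {x y : ℤ} (hxy : (q : ℤ) * x - M * y = 1) (hq : q.Prime) (hqM : ¬ q ∣ M)
    (X : Van (M * q) q)
    (h0 : Wop M q hxy (NeZero.ne q) (ZMod q) (HPar.hom (chrFun X))
      + cohU (M * q) hq (Dvd.intro_left M rfl) (ZMod q) (HPar.hom (chrFun X)) = 0) :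
    Fermat.Agent.MR.IsNew M q ((X : (LaurentSeries Qb)ˣ) : LaurentSeries Qb) := by
  intro h
  obtain ⟨xt, hxt, hchr⟩ := exists_van_wop hxy hq hqM X ⟨_, h⟩ rfl
  have hqMq : q ∣ M * q := Dvd.intro_left M rfl
  set Y : Van (M * q) q := ⟨_, Fermat.Agent.TOR.nmU_mem_Van hq hqMq X X.2⟩ with hY
  have hYchr := Fermat.Agent.TOR.chrFun_nmU hq hqMq X
  have hz : chrFun (xt * Y) = 0 := by
    rw [chrFun_mul]
    apply Subtype.ext
    show HPar.hom (chrFun xt) + HPar.hom (chrFun Y) = 0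
    rw [hchr, hYchr]
    exact h0
  have hmem := (chrFun_eq_zero_iff (xt * Y)).mp hz
  have e1 : (((xt * Y : Van (M * q) q) : (LaurentSeries Qb)ˣ) : LaurentSeries Qb)
      = ((xt : (LaurentSeries Qb)ˣ) : LaurentSeries Qb)
        * NmL Qb q ((X : (LaurentSeries Qb)ˣ) : LaurentSeries Qb) := rfl
  rw [e1] at hmem
  have e2 : (((xt : (LaurentSeries Qb)ˣ) : LaurentSeries Qb)
        * NmL Qb q ((X : (LaurentSeries Qb)ˣ) : LaurentSeries Qb)) ^ q
      = ((wq M q ⟨_, h⟩ : FN (M * q)) : LaurentSeries Qb)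
        * NmL Qb q (((X : (LaurentSeries Qb)ˣ) : LaurentSeries Qb) ^ q) := by
    rw [mul_pow, hxt, map_pow]
  refine ⟨1, _, mem_FL_of_pow_mem_FL hq hqM (n := q) ?_ hmem ?_, ?_⟩
  · exact (Nat.coprime_self_add_right).mpr (Nat.coprime_one_right q)
  · rw [e2]
    exact wq_mul_NmL_mem hq hqM _
  · rw [e2, map_one, one_mul]

end Fermat.Agent.MR.H
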