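import Mathlib
import Fermat.Agent.MR.H.New
import Fermat.Agent.MR.H.QIW
import Fermat.Agent.MR.H.In.ResInj

/-!
# MR / H / NewEig : (EIG) + [H-NEW] for the analytic class attached to `y ∈ Lat (M p)`

`y ∈ Lat (M p)` an eigenclass modulo `p` for the system `(ap ℓ, R(U_2) = 0)` which does not occur at level `M`.
Then `W y + U_p y = res₁ y₂`, `y₂ ∈ Lat M` is an eigenclass modulo `p` for the same system, so `y₂ ∈ p Lat M`;
hence every `u ∈ Van (M p) p` with character `y mod p` is `p`-new.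
-/

set_option autoImplicit false

open CongruenceSubgroup Matrix ModularCurve.Period
open scoped MatrixGroups
open Fermat.Agent.GAL Fermat.Agent.GAL.AN Fermat.Agent.GAL.HK Fermat.Agent.S41

noncomputable section

namespace Fermat.Agent.MR.H

variable (M q : ℕ) [NeZero M] [NeZero q] {x y : ℤ} (hxy : (q : ℤ) * x - M * y = 1)

/-- the Atkin--Lehner operator on the lattice. -/
def latW : Module.End ℤ (S41.Lat (M * q)) :=
  AddMonoidHom.toIntLinearMap
    { toFun := fun z => ⟨Wop M q hxy (NeZero.ne q) ℤ (z : Additive (Gamma0 (M * q)) →+ ℤ),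
        Wop_isParabolicHom M q hxy (NeZero.ne q) z.2⟩
      map_zero' := rfl
      map_add' := fun _ _ => rfl }

theorem coe_latW (z : S41.Lat (M * q)) :
    (latW M q hxy z : Additive (Gamma0 (M * q)) →+ ℤ)
      = Wop M q hxy (NeZero.ne q) ℤ (z : Additive (Gamma0 (M * q)) →+ ℤ) := rfl

theorem latW_op (hq : q.Prime) (hqM : ¬ q ∣ M) {ℓ : ℕ} (hℓ : ℓ.Prime)
    (h : ℓ ∣ M ∨ ¬ ℓ ∣ M * q) (z : S41.Lat (M * q)) :
    op (M * q) ℓ (latW M q hxy z) = latW M q hxy (op (M * q) ℓ z) := by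
  apply Subtype.ext
  rcases h with h | h
  · rw [op_of_dvd (M * q) hℓ (h.mul_right q)]
    exact cohU_Wop M q hxy hq hqM hℓ h (h.mul_right q) z.2
  · rw [op_of_not_dvd (M * q) hℓ h]
    exact cohT_Wop M q hxy hq hqM hℓ h z.2

/-- intertwining passes to polynomials. -/
theorem NE_aeval_intertwine {L L' : Type*} [AddCommGroup L] [AddCommGroup L'] (f : L →ₗ[ℤ] L')
    (A : Module.End ℤ L) (B : Module.End ℤ L') (h : ∀ z, B (f z) = f (A z)) (R : Polynomial ℤ)
    (z : L) : Polynomial.aeval B R (f z) = f (Polynomial.aeval A R z) := by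
  induction R using Polynomial.induction_on' with
  | add P Q hP hQ => rw [map_add, map_add, LinearMap.add_apply, LinearMap.add_apply, hP, hQ, map_add]
  | monomial n c =>
    rw [Polynomial.aeval_monomial, Polynomial.aeval_monomial]
    have hn : ∀ n : ℕ, ∀ z, (B ^ n) (f z) = f ((A ^ n) z) := by
      intro n
      induction n with
      | zero => intro z; rfl
      | succ n ih => intro z; rw [pow_succ, pow_succ, Module.End.mul_apply, Module.End.mul_apply, h, ih]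
    rw [Module.End.mul_apply, Module.End.mul_apply, hn]
    simp

omit [NeZero q] in
/-- saturation of `lres₁`. -/
theorem lres₁_saturated (hq : q.Prime) (hqM : ¬ q ∣ M) (n : ℕ) (z : S41.Lat M)
    (h : ∃ w : S41.Lat (M * q), lres₁ M q z = (n : ℤ) • w) : ∃ w : S41.Lat M, z = (n : ℤ) • w := by
  obtain ⟨w, hw⟩ := h
  have h1 : latRed M n z = 0 := by
    apply Subtype.ext
    apply In.res₁_injective_of_not_dvd M q hq hqM _ (latRed M n z).2
    have h2 : latRed (M * q) n (lres₁ M q z) = 0 := by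
      rw [latRed_eq_zero_iff]
      exact ⟨w, by rw [hw, natCast_zsmul]⟩
    exact congrArg Subtype.val h2
  obtain ⟨w', hw'⟩ := (latRed_eq_zero_iff M n z).mp h1
  exact ⟨w', by rw [hw', natCast_zsmul]⟩

/-- `W z + U_q z` comes from level `M`. -/
theorem exists_lat_trace (hq : q.Prime) (hqM : ¬ q ∣ M) (z : S41.Lat (M * q)) :
    ∃ z₂ : S41.Lat M, lres₁ M q z₂ = latW M q hxy z + op (M * q) q z := by
  obtain ⟨-, φ₂, -, hφ₂, -, h⟩ := exists_traces M q hxy (NeZero.ne q) hq hqM (Dvd.intro_left M rfl) z.2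
  refine ⟨⟨φ₂, hφ₂⟩, Subtype.ext ?_⟩
  rw [op_of_dvd (M * q) hq (Dvd.intro_left M rfl)]
  exact h

/-- **(EIG)** : `W y + U_p y ∈ p Lat (M p)`. -/
theorem latW_add_op_mod (W : WeierstrassCurve ℤ) {K : Type} [Field K] [IsAlgClosed K] [CharP K q]
    (hq : q.Prime) (hqM : ¬ q ∣ M) (h2 : 2 ∣ M) (a : ℕ → K) (R : Polynomial ℤ)
    (ha : ∀ ℓ ∈ goodSet W (M * q), a ℓ = ((W.apOfModel ℓ : ℤ) : K))
    (hnew : ∀ α : K, Polynomial.aeval α R = 0 →
      ¬ Occ K M (insert 2 (goodSet W (M * q))) (Function.update a 2 α))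
    (z : S41.Lat (M * q))
    (hE : ∀ ℓ ∈ goodSet W (M * q), ∃ w : S41.Lat (M * q),
      op (M * q) ℓ z - W.apOfModel ℓ • z = (q : ℤ) • w)
    (hR : ∃ w : S41.Lat (M * q), Polynomial.aeval (op (M * q) 2) R z = (q : ℤ) • w) :
    ∃ w : S41.Lat (M * q), latW M q hxy z + op (M * q) q z = (q : ℤ) • w := by
  obtain ⟨z₂, hz₂⟩ := exists_lat_trace M q hxy hq hqM z
  set Θ : Module.End ℤ (S41.Lat (M * q)) := latW M q hxy + op (M * q) q with hΘ
  have hΘz : lres₁ M q z₂ = Θ z := hz₂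
  have hcomm : ∀ {ℓ : ℕ}, ℓ.Prime → (ℓ ∣ M ∨ ¬ ℓ ∣ M * q) → ∀ w,
      op (M * q) ℓ (Θ w) = Θ (op (M * q) ℓ w) := by
    intro ℓ hℓ h w
    rw [hΘ, LinearMap.add_apply, LinearMap.add_apply, map_add, latW_op M q hxy hq hqM hℓ h]
    congr 1
    exact DFunLike.congr_fun (op_comm (M * q) ℓ q).eq w
  obtain ⟨w, hw⟩ := mod_p_eq_zero_of_not_occ (p := q) W M (M * q) a R ha hnew z₂
    (by
      intro ℓ hℓ
      obtain ⟨w, hw⟩ := hE ℓ hℓ
      apply lres₁_saturated M q hq hqM q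
      refine ⟨Θ w, ?_⟩
      rw [map_sub, map_zsmul, ← op_lres₁ M q hℓ.1 (Or.inr hℓ.2.2), hΘz,
        hcomm hℓ.1 (Or.inr hℓ.2.2), ← map_zsmul, ← map_sub, hw, map_zsmul])
    (by
      obtain ⟨w, hw⟩ := hR
      apply lres₁_saturated M q hq hqM q
      refine ⟨Θ w, ?_⟩
      rw [← NE_aeval_intertwine (lres₁ M q) (op M 2) (op (M * q) 2)
        (fun t => op_lres₁ M q Nat.prime_two (Or.inl h2) t), hΘz,
        NE_aeval_intertwine Θ (op (M * q) 2) (op (M * q) 2)
        (fun t => hcomm Nat.prime_two (Or.inl h2) t), hw, map_zsmul])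
  refine ⟨lres₁ M q w, ?_⟩
  rw [← hz₂, hw, map_zsmul]

/-- **[H-NEW] for the analytic class of `y`.** -/
theorem isNew_of_lat (W : WeierstrassCurve ℤ) {K : Type} [Field K] [IsAlgClosed K] [CharP K q]
    (hq : q.Prime) (hqM : ¬ q ∣ M) (h2 : 2 ∣ M) (a : ℕ → K) (R : Polynomial ℤ)
    (ha : ∀ ℓ ∈ goodSet W (M * q), a ℓ = ((W.apOfModel ℓ : ℤ) : K))
    (hnew : ∀ α : K, Polynomial.aeval α R = 0 →
      ¬ Occ K M (insert 2 (goodSet W (M * q))) (Function.update a 2 α))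
    (z : S41.Lat (M * q))
    (hE : ∀ ℓ ∈ goodSet W (M * q), ∃ w : S41.Lat (M * q),
      op (M * q) ℓ z - W.apOfModel ℓ • z = (q : ℤ) • w)
    (hR : ∃ w : S41.Lat (M * q), Polynomial.aeval (op (M * q) 2) R z = (q : ℤ) • w)
    (u : Van (M * q) q) (hu : chrFun u = latRed (M * q) q z) :
    Fermat.Agent.MR.IsNew M q ((u : (LaurentSeries Qb)ˣ) : LaurentSeries Qb) := by
  obtain ⟨x, y, hxy⟩ : ∃ x y : ℤ, (q : ℤ) * x - M * y = 1 := by
    have hc : IsCoprime (q : ℤ) (M : ℤ) :=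
      Nat.isCoprime_iff_coprime.mpr ((Nat.Prime.coprime_iff_not_dvd hq).mpr hqM)
    obtain ⟨s, t, hst⟩ := hc
    exact ⟨s, -t, by linarith⟩
  obtain ⟨w, hw⟩ := latW_add_op_mod M q hxy W hq hqM h2 a R ha hnew z hE hR
  apply isNew_of_wop hxy hq hqM u
  rw [hu]
  have h1 : latRed (M * q) q (latW M q hxy z + op (M * q) q z) = 0 := by
    rw [latRed_eq_zero_iff]
    exact ⟨w, by rw [hw, natCast_zsmul]⟩
  have h2 := congrArg Subtype.val h1
  rw [op_of_dvd (M * q) hq (Dvd.intro_left M rfl)] at h2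
  refine Eq.trans ?_ h2
  rw [map_add]
  show _ = (latRed (M * q) q (latW M q hxy z) : Additive (Gamma0 (M * q)) →+ ZMod q)
    + (latRed (M * q) q (latU (M * q) hq (Dvd.intro_left M rfl) z) :
      Additive (Gamma0 (M * q)) →+ ZMod q)
  congr 1
  rw [coe_latRed, coe_latU_apply]
  exact (datumU (M * q) hq (Dvd.intro_left M rfl)).T_comp (Int.castAddHom (ZMod q)) _

end Fermat.Agent.MR.H
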